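/-
Programme T1B / MAZ U3'-MODEL (c) (helper23): incomparability of the vertical primes is preserved by
helper53's `NodalBC53.Transfer.transfer` (same special fibre: number field level `O` to the complete
level `O'`).
-/
import Mathlib
import Fermat.Agent.T1B.NodalBC53.Transfer

set_option autoImplicit false
set_option linter.unusedSectionVars false
set_option linter.style.haveILetI false

universe u

noncomputable section

namespace Fermat.Agent.T1B.NodalBC23.IncompTransfer

open TensorProduct Fermat.Agent.Jac Fermat.Agent.T1B.RedN3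
open Fermat.Agent.Jac.BaseChange75
open scoped Fermat.Agent.Jac.BaseChange75
open Fermat.Agent.T1B.NodalBC53.Fibre Fermat.Agent.T1B.NodalBC53.Transfer

variable {W B0 B1 B01 : Type u} [CommRing W] [CommRing B0] [CommRing B1] [CommRing B01]
  [Algebra W B0] [Algebra W B1] [Algebra W B01] [Algebra B0 B01] [Algebra B1 B01]
  [IsScalarTower W B0 B01] [IsScalarTower W B1 B01]
  (c0 : TwoChart W B0 B1 B01)
  {O O' : Type u} [CommRing O] [CommRing O'] [Algebra W O] [Algebra W O'] [Algebra O O']
  [IsScalarTower W O O']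
  [Module.Flat W B0] [Module.Flat W B1] [Module.Flat W B01]
  {π : O} {ι : Type}
  (h : SameFibre (algebraMap O O') π)
  (hreg : ∀ z : O', algebraMap O O' π * z = 0 → z = 0)
  (hg : NodalGood (c0.baseChange O) π ι)

theorem not_le_transfer_P0 {i j : ι} (hne : ¬ hg.P0 i ≤ hg.P0 j) :
    ¬ (transfer c0 h hreg hg).P0 i ≤ (transfer c0 h hreg hg).P0 j := by
  intro hle
  apply hne
  rw [← comap_transfer_P0 c0 h hreg hg i, ← comap_transfer_P0 c0 h hreg hg j]
  exact Ideal.comap_mono hle

theorem not_le_transfer_P1 {i j : ι} (hne : ¬ hg.P1 i ≤ hg.P1 j) :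
    ¬ (transfer c0 h hreg hg).P1 i ≤ (transfer c0 h hreg hg).P1 j := by
  intro hle
  apply hne
  rw [← comap_transfer_P1 c0 h hreg hg i, ← comap_transfer_P1 c0 h hreg hg j]
  exact Ideal.comap_mono hle

theorem not_le_transfer_Q {i j : ι} (hne : ¬ hg.Q i ≤ hg.Q j) :
    ¬ (transfer c0 h hreg hg).Q i ≤ (transfer c0 h hreg hg).Q j := by
  intro hle
  apply hne
  rw [← comap_transfer_Q c0 h hreg hg i, ← comap_transfer_Q c0 h hreg hg j]
  exact Ideal.comap_mono hle

/-- the same for the variant `transfer'` with a named uniformiser. -/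
theorem not_le_transfer'_P0 {π' : O'} (hπ' : algebraMap O O' π = π')
    (hreg' : ∀ z : O', π' * z = 0 → z = 0) {i j : ι} (hne : ¬ hg.P0 i ≤ hg.P0 j) :
    ¬ (transfer' c0 hπ' h hreg' hg).P0 i ≤ (transfer' c0 hπ' h hreg' hg).P0 j := by
  subst hπ'
  exact not_le_transfer_P0 c0 h hreg' hg hne

theorem not_le_transfer'_P1 {π' : O'} (hπ' : algebraMap O O' π = π')
    (hreg' : ∀ z : O', π' * z = 0 → z = 0) {i j : ι} (hne : ¬ hg.P1 i ≤ hg.P1 j) :
    ¬ (transfer' c0 hπ' h hreg' hg).P1 i ≤ (transfer' c0 hπ' h hreg' hg).P1 j := by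
  subst hπ'
  exact not_le_transfer_P1 c0 h hreg' hg hne

end Fermat.Agent.T1B.NodalBC23.IncompTransfer
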