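/-
Programme T1B (S44), brick N-BC NODAL MODEL-BC (helper23), part 7: the ideal of an `O`-point of a
relative curve over a DVR which is smooth AT THE REDUCTION OF THE POINT is an invertible module.

`T1/PtInv75.invertible_ker_of_smooth` (helper75) assumes the smoothness property at EVERY maximal
ideal containing `π` (true for the good-reduction models of T1A).  On the nodal models only the
points off one of the two branches are smooth (`NodalNumData.smooth0/1`), so the hypothesis is needed
only at the maximal ideal `ptMax π q = q⁻¹(π)`: `invertible_ker_of_smoothAt`.  Same proof.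
-/
import Mathlib
import Fermat.Agent.T1.PtInv75

set_option autoImplicit false

namespace Fermat.Agent.T1B.NodalBC23.PtSmooth

open Fermat.Agent.Jac.LineOps39 Fermat.Agent.T1.PtInv75

universe u

variable {O C : Type u} [CommRing O] [IsDomain O] [CommRing C] [IsDomain C] [IsNoetherianRing C]
  [Algebra O C]

/-- **The ideal of a section through a smooth point of the special fibre is an invertible module.**
The hypothesis `hsm` is the smoothness property (shape of `TwoChartModel.smooth0/1`,
`NodalCore13.SmoothAt`) at the single maximal ideal `ptMax π q`. -/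
theorem invertible_ker_of_smoothAt (π : O) (hπ0 : π ≠ 0)
    (hdvr : ∀ r : O, r ≠ 0 → ∃ (k : ℕ) (v : Oˣ), r = π ^ k * v) (hπnu : ¬ IsUnit π)
    (q : C →ₐ[O] O) (hker : RingHom.ker q.toRingHom ≠ ⊥)
    (hsm : ∃ s ∈ ptMax π q, ∀ y ∈ ptMax π q, ∃ d : C, d ∉ ptMax π q ∧
      d * y ∈ Ideal.span {algebraMap O C π, s}) :
    Module.Invertible C (RingHom.ker q.toRingHom) := by
  obtain ⟨s, hs, hs'⟩ := hsm
  obtain ⟨d, hd, hdP⟩ := exists_mul_ker_le_span π hπ0 hdvr hπnu q s hs hs'
  set x : C := s - algebraMap O C (q s) with hx
  set P : Ideal C := RingHom.ker q.toRingHom with hP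
  have hPmem : ∀ y : C, y ∈ P ↔ q y = 0 := fun y => RingHom.mem_ker
  have hxP : x ∈ P := by
    rw [hPmem, hx, map_sub, AlgHom.commutes, Algebra.algebraMap_self, RingHom.id_apply, sub_self]
  have hd0 : d ≠ 0 := by
    rintro rfl
    exact hd (Ideal.zero_mem _)
  have hx0 : x ≠ 0 := by
    intro h0
    obtain ⟨y, hyP, hy0⟩ := Submodule.exists_mem_ne_zero_of_ne_bot hker
    have h1 := hdP y ((hPmem y).1 hyP)
    rw [h0, Ideal.span_singleton_eq_bot.2 rfl, Ideal.mem_bot] at h1
    exact (mul_ne_zero hd0 hy0) h1
  -- `d` is invertible modulo `P`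
  have hqd : IsUnit (q d) := by
    by_contra h
    exact hd ((mem_ptMax_iff π hdvr hπnu q d).2 h)
  obtain ⟨w, hw⟩ := hqd
  have ht : algebraMap O C (↑w⁻¹ : O) * d - 1 ∈ P := by
    rw [hPmem, map_sub, map_mul, AlgHom.commutes, Algebra.algebraMap_self, RingHom.id_apply,
      map_one, ← hw, Units.inv_mul, sub_self]
  refine ideal_invertible_of_away d (R' := Localization.Away d) P ?_ _ ht
  -- on `D(d)` the ideal is principal
  have hle : Submonoid.powers d ≤ nonZeroDivisors C :=
    powers_le_nonZeroDivisors_of_noZeroDivisors hd0
  have hdom : IsDomain (Localization.Away d) :=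
    IsLocalization.isDomain_localization hle
  have hinj : Function.Injective (algebraMap C (Localization.Away d)) :=
    IsLocalization.injective _ hle
  have hmap : P.map (algebraMap C (Localization.Away d)) =
      Ideal.span {algebraMap C (Localization.Away d) x} := by
    apply le_antisymm
    · rw [Ideal.map_le_iff_le_comap]
      intro y hy
      obtain ⟨c, hc⟩ := Ideal.mem_span_singleton'.1 (hdP y ((hPmem y).1 hy))
      have hdunit : IsUnit (algebraMap C (Localization.Away d) d) :=
        IsLocalization.Away.algebraMap_isUnit d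
      obtain ⟨e, he⟩ := hdunit
      have hy' : algebraMap C (Localization.Away d) y =
          (↑e⁻¹ : Localization.Away d) * algebraMap C (Localization.Away d) (d * y) := by
        rw [map_mul, ← he, ← mul_assoc, Units.inv_mul, one_mul]
      rw [Ideal.mem_comap, hy', ← hc, map_mul, ← mul_assoc]
      exact Ideal.mul_mem_left _ _ (Ideal.subset_span rfl)
    · rw [Ideal.span_le, Set.singleton_subset_iff]
      exact Ideal.mem_map_of_mem _ hxP
  rw [hmap]
  exact invertible_span_singleton _ (fun h => hx0 (hinj (h.trans (map_zero _).symm)))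

end Fermat.Agent.T1B.NodalBC23.PtSmooth
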