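/-
Programme T1B (S44), brick N-BC NODAL MODEL-BC (helper23), part 8: SMOOTH POINTS of the nodal hub.

`W` base ring, `O` a `W`-algebra (a DVR with uniformiser `π'`), `B` a chart over `W`,
`e : O ⊗[W] B ≃ₐ[O] ↥B'` the base change isomorphism onto a chart `B'` of a nodal model over `O`
(`NodalBC23.Model.equiv_j`, `NodalNF.equiv_jNF`).  For an `O`-point `q : B →ₐ[W] O` of the hub chart
whose reduction does NOT lie on the component `i` of the special fibre (some `x ∈ P_j i` with `q(x)` a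
unit), the ideal `ptIdeal q` of the point is an invertible `O ⊗[W] B`-module:

* `invertible_ptIdeal_of_smoothAt` : generic (smoothness only at the reduction of the point);
* `hub_invertible_ptIdeal_of_offBranch` : hub form for one chart `B'` and one component `Oi'`;
* `hub_invertible_ptIdeal0`, `hub_invertible_ptIdeal1` : for `hL : NodalNumData …` (charts `0`, `1`,
  component `i : Fin 2`, hypothesis in the vocabulary of `NodalFacts23` / `RedN3.NodalGood.P_j i`).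
-/
import Mathlib
import Fermat.Agent.T1.PtInvLine75
import Fermat.Agent.T1.ModelFacts62.Transport
import Fermat.Agent.ES.N34.NumData13
import Fermat.Agent.T1B.NodalFacts23.Good
import Fermat.Agent.T1B.NodalBC23.PtSmooth

set_option autoImplicit false
set_option linter.unusedSectionVars false
set_option linter.style.haveILetI false

open TensorProduct

namespace Fermat.Agent.T1B.NodalBC23.HubPt

open Fermat.Agent.T1.PtLine75 Fermat.Agent.T1.PtInv75 Fermat.Agent.T1.ModelFacts62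
open Fermat.Agent.ES.N34.NodalCore13 Fermat.Agent.ES.N34.NodalCL13 Fermat.Agent.ES.N34.NumData13
open Fermat.Agent.T1B.NodalFacts23 Fermat.Agent.T1B.NodalBC23.PtSmooth

universe u

section Generic

variable {W O B : Type u} [CommRing W] [CommRing O] [IsDomain O] [CommRing B] [Algebra W O]
  [Algebra W B] [IsDomain (O ⊗[W] B)] [IsNoetherianRing (O ⊗[W] B)]

/-- The ideal of an `O`-point of a hub chart which is smooth at the reduction of the point is an
invertible module. -/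
theorem invertible_ptIdeal_of_smoothAt (π : O) (hπ0 : π ≠ 0)
    (hdvr : ∀ r : O, r ≠ 0 → ∃ (k : ℕ) (v : Oˣ), r = π ^ k * v) (hπnu : ¬ IsUnit π)
    (q : B →ₐ[W] O) (hker : ptIdeal q ≠ ⊥)
    (hsm : ∃ s ∈ ptMax π (ptEval q), ∀ y ∈ ptMax π (ptEval q),
      ∃ d : O ⊗[W] B, d ∉ ptMax π (ptEval q) ∧
        d * y ∈ Ideal.span {algebraMap O (O ⊗[W] B) π, s}) :
    Module.Invertible (O ⊗[W] B) (ptIdeal q) :=
  invertible_ker_of_smoothAt π hπ0 hdvr hπnu (ptEval q) hker hsm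

end Generic

section Hub

variable {W O B : Type u} [CommRing W] [CommRing O] [CommRing B] [Algebra W O] [Algebra W B]
variable {F' : Type u} [Field F'] [Algebra O F'] {π' : O}

/-- **Hub form.**  `e : O ⊗[W] B ≃ₐ[O] ↥B'`, `B'` a noetherian chart over `O` which is smooth at the
closed points off the component `Oi'`; an `O`-point `q` whose reduction is off `Oi'`
(`hoff`: some `x` with `e x ∈ π' Oi'` and `q(x)` a unit) has an invertible ideal. -/
theorem hub_invertible_ptIdeal_of_offBranch [IsDomain O] (B' : Subalgebra O F')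
    [IsNoetherianRing ↥B'] (Oi' : ValuationSubring F') (e : (O ⊗[W] B) ≃ₐ[O] ↥B')
    (hπ0 : π' ≠ 0) (hdvr : ∀ r : O, r ≠ 0 → ∃ (k : ℕ) (v : Oˣ), r = π' ^ k * v)
    (hπnu : ¬ IsUnit π')
    (hsmooth : ∀ 𝔪 : Ideal ↥B', 𝔪.IsMaximal → algebraMap O ↥B' π' ∈ 𝔪 →
      OffBranch π' B' Oi' 𝔪 → SmoothAt π' B' 𝔪)
    (q : B →ₐ[W] O) (hker : ptIdeal q ≠ ⊥)
    (hoff : ∃ x : O ⊗[W] B, IsUnit (ptEval q x) ∧
      ∃ c ∈ Oi', ((e x : ↥B') : F') = algebraMap O F' π' * c) :
    Module.Invertible (O ⊗[W] B) (ptIdeal q) := by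
  haveI : IsDomain (O ⊗[W] B) := isDomain_of_algEquiv e
  haveI : IsNoetherianRing (O ⊗[W] B) := isNoetherianRing_of_algEquiv e
  refine invertible_ptIdeal_of_smoothAt π' hπ0 hdvr hπnu q hker ?_
  set 𝔫 : Ideal (O ⊗[W] B) := ptMax π' (ptEval q) with h𝔫
  have hmax : 𝔫.IsMaximal := ptMax_isMaximal π' hdvr hπnu (ptEval q)
  have hπ𝔫 : algebraMap O (O ⊗[W] B) π' ∈ 𝔫 := by
    rw [h𝔫, mem_ptMax_iff π' hdvr hπnu (ptEval q), AlgHom.commutes, Algebra.algebraMap_self,
      RingHom.id_apply]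
    exact hπnu
  -- the corresponding maximal ideal of `B'`
  let 𝔪 : Ideal ↥B' := 𝔫.comap (e.symm : ↥B' →+* O ⊗[W] B)
  have h𝔪 : 𝔪.IsMaximal := Ideal.comap_isMaximal_of_surjective _ e.symm.surjective
  have hmem : ∀ c : O ⊗[W] B, e c ∈ 𝔪 ↔ c ∈ 𝔫 := by
    intro c
    show e.symm (e c) ∈ 𝔫 ↔ c ∈ 𝔫
    rw [e.symm_apply_apply]
  have hπ𝔪 : algebraMap O ↥B' π' ∈ 𝔪 := by
    rw [← e.commutes, hmem]
    exact hπ𝔫
  have hoff' : OffBranch π' B' Oi' 𝔪 := by
    obtain ⟨x, hx, c, hc, hxc⟩ := hoff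
    refine ⟨e x, ?_, c, hc, hxc⟩
    rw [hmem, h𝔫, mem_ptMax_iff π' hdvr hπnu (ptEval q), not_not]
    exact hx
  obtain ⟨s', hs', hsm⟩ := hsmooth 𝔪 h𝔪 hπ𝔪 hoff'
  refine ⟨e.symm s', hs', fun y hy => ?_⟩
  obtain ⟨d', hd', hdy⟩ := hsm (e y) ((hmem y).2 hy)
  refine ⟨e.symm d', fun hd => hd' hd, ?_⟩
  obtain ⟨a, b, hab⟩ := Ideal.mem_span_pair.1 hdy
  rw [Ideal.mem_span_pair]
  refine ⟨e.symm a, e.symm b, ?_⟩
  apply e.injective
  rw [map_add, map_mul, map_mul, map_mul, e.apply_symm_apply, e.apply_symm_apply,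
    e.apply_symm_apply, e.apply_symm_apply, e.commutes]
  exact hab

end Hub

section Nodal

variable {W O B : Type u} [CommRing W] [CommRing O] [CommRing B] [Algebra W O] [Algebra W B]
variable {L F' : Type u} [Field L] [Field F'] [Algebra O L] [Algebra L F'] [Algebra O F']
  [IsScalarTower O L F']
  {π' : O} {t' : F'} {B0' B1' : Subalgebra O F'} {O1' O2' : ValuationSubring F'}

theorem isDomain_base (hL : NodalNumData O L F' π' t' B0' B1' O1' O2') : IsDomain O :=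
  haveI := hL.fracR
  (IsFractionRing.injective O L).isDomain (algebraMap O L)

theorem pi_ne_zero (hL : NodalNumData O L F' π' t' B0' B1' O1' O2') : π' ≠ 0 := by
  intro h
  apply hL.model.pi_ne
  rw [h, map_zero]

theorem pi_not_isUnit (hL : NodalNumData O L F' π' t' B0' B1' O1' O2') : ¬ IsUnit π' := by
  rintro ⟨v, hv⟩
  apply hL.model.pi_nonunit1
  have h1 : (algebraMap O F' π')⁻¹ = algebraMap O F' (↑v⁻¹ : O) := by
    rw [← hv]
    apply inv_eq_of_mul_eq_one_right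
    rw [← map_mul, Units.mul_inv, map_one]
  rw [h1]
  exact hL.model.le_O1_0 _ (B0'.algebraMap_mem _)

theorem smooth0_comp (hL : NodalNumData O L F' π' t' B0' B1' O1' O2') (i : Fin 2) :
    ∀ 𝔪 : Ideal ↥B0', 𝔪.IsMaximal → algebraMap O ↥B0' π' ∈ 𝔪 →
      OffBranch π' B0' (comp O1' O2' i) 𝔪 → SmoothAt π' B0' 𝔪 := by
  intro 𝔪 h𝔪 hπ hoff
  fin_cases i
  · exact hL.smooth0 𝔪 h𝔪 hπ (Or.inl hoff)
  · exact hL.smooth0 𝔪 h𝔪 hπ (Or.inr hoff)

theorem smooth1_comp (hL : NodalNumData O L F' π' t' B0' B1' O1' O2') (i : Fin 2) :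
    ∀ 𝔪 : Ideal ↥B1', 𝔪.IsMaximal → algebraMap O ↥B1' π' ∈ 𝔪 →
      OffBranch π' B1' (comp O1' O2' i) 𝔪 → SmoothAt π' B1' 𝔪 := by
  intro 𝔪 h𝔪 hπ hoff
  fin_cases i
  · exact hL.smooth1 𝔪 h𝔪 hπ (Or.inl hoff)
  · exact hL.smooth1 𝔪 h𝔪 hπ (Or.inr hoff)

/-- **Smooth points of the nodal hub, chart `0`.**  If the reduction of the `O`-point `q` is off the
component `i` (`hoff`: some `x` in the prime `P0 i` of the hub chart with `q(x)` a unit), then the
ideal of `q` is an invertible module. -/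
theorem hub_invertible_ptIdeal0 (hL : NodalNumData O L F' π' t' B0' B1' O1' O2')
    (e : (O ⊗[W] B) ≃ₐ[O] ↥B0') (q : B →ₐ[W] O) (hker : ptIdeal q ≠ ⊥) (i : Fin 2)
    (hoff : ∃ x : O ⊗[W] B, IsUnit (ptEval q x) ∧
      ∃ c ∈ comp O1' O2' i, ((e x : ↥B0') : F') = algebraMap O F' π' * c) :
    Module.Invertible (O ⊗[W] B) (ptIdeal q) := by
  haveI : IsDomain O := isDomain_base hL
  haveI : IsNoetherianRing ↥B0' := hL.noeth0
  exact hub_invertible_ptIdeal_of_offBranch B0' (comp O1' O2' i) e (pi_ne_zero hL) hL.dvrR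
    (pi_not_isUnit hL) (smooth0_comp hL i) q hker hoff

/-- **Smooth points of the nodal hub, chart `1`.** -/
theorem hub_invertible_ptIdeal1 (hL : NodalNumData O L F' π' t' B0' B1' O1' O2')
    (e : (O ⊗[W] B) ≃ₐ[O] ↥B1') (q : B →ₐ[W] O) (hker : ptIdeal q ≠ ⊥) (i : Fin 2)
    (hoff : ∃ x : O ⊗[W] B, IsUnit (ptEval q x) ∧
      ∃ c ∈ comp O1' O2' i, ((e x : ↥B1') : F') = algebraMap O F' π' * c) :
    Module.Invertible (O ⊗[W] B) (ptIdeal q) := by
  haveI : IsDomain O := isDomain_base hL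
  haveI : IsNoetherianRing ↥B1' := hL.noeth1
  exact hub_invertible_ptIdeal_of_offBranch B1' (comp O1' O2' i) e (pi_ne_zero hL) hL.dvrR
    (pi_not_isUnit hL) (smooth1_comp hL i) q hker hoff

end Nodal

end Fermat.Agent.T1B.NodalBC23.HubPt
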