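/-
Programme T1B (S44), brick N-BC NODAL MODEL-BC (helper23), part 1: the abstract base change theorem
for charts whose special fibre has TWO components.

Twin of `T1/ModelBC51/Abstract.lean` (helper51): there a chart `B` is `π`-saturated in ONE Gauss
valuation ring `Ov`; here `B` is `π`-saturated in `O1 ⊓ O2` (the special fibre is reduced with the
two components `O1`, `O2`, nodes allowed).  The base change data `D : BCData K L π π' O1 O1'` of
`ModelBC51` is reused verbatim for the first component; for the second one only the linear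
disjointness `LD2 D O2 O2'` is added.

MAIN RESULT (`ChartPair2.mem_spanOf_of_mem`, `ChartPair2.eq_spanOf`): **`B' = R' · B`**.
Step 1 (generic fibre, trace form) is `BCData.coords_mem_invPi` of `ModelBC51`; step 2
(`spanOf_sat`) applies the linear disjointness on EACH component and the saturation of `B` in
`O1 ⊓ O2`.
-/
import Mathlib
import Fermat.Agent.T1.ModelBC51.Abstract

set_option autoImplicit false
set_option linter.unusedSectionVars false
set_option linter.style.haveILetI false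

noncomputable section

namespace Fermat.Agent.T1B.NodalBC23.Abstract

open Polynomial Fermat.Agent.T1.ModelBC51.InvPi Fermat.Agent.T1.ModelBC51.TraceCoord
open Fermat.Agent.T1.ModelBC51.Abstract

variable {R K F : Type*} [CommRing R] [Field K] [Field F] [Algebra R K] [Algebra K F]
  [Algebra R F] [IsScalarTower R K F]
variable {R' L F' : Type*} [CommRing R'] [Field L] [Field F'] [Algebra R' L] [Algebra L F']
  [Algebra R' F'] [IsScalarTower R' L F']
variable {π : R} {π' : R'} {O1 : ValuationSubring F} {O1' : ValuationSubring F'}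
  (D : BCData K L π π' O1 O1') (O2 : ValuationSubring F) (O2' : ValuationSubring F')

/-- **Linear disjointness on the second component**: the family `θ` (spanning `R' / π'` over `R`)
stays linearly independent over the residue field of `O2` inside the residue field of `O2'`. -/
def LD2 : Prop :=
  ∀ y : Fin D.f → F, (∀ i, y i ∈ O2) →
    (∃ z ∈ O2', ∑ i, algebraMap R' F' (D.θ i) * D.iF (y i) = algebraMap R' F' π' * z) →
    ∀ i, ∃ z ∈ O2, y i = algebraMap R F π * z

/-- **A nodal chart pair**: a chart `B` over `R`, saturated in `O1 ⊓ O2`, and a chart `B'` over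
`R'` contained in `O1' ⊓ O2'`. -/
structure ChartPair2 (B : Subalgebra R F) (B' : Subalgebra R' F') : Prop where
  intcl : ∀ x : F, IsIntegral B x → x ∈ B
  le_O1 : ∀ x ∈ B, x ∈ O1
  le_O2 : ∀ x ∈ B, x ∈ O2
  sat : ∀ b ∈ B, ∀ c : F, c ∈ O1 → c ∈ O2 → b = algebraMap R F π * c → c ∈ B
  le_O1' : ∀ x ∈ B', x ∈ O1'
  le_O2' : ∀ x ∈ B', x ∈ O2'
  int' : ∀ x ∈ B', D.IntOverA B x
  map_mem : ∀ x ∈ B, D.iF x ∈ B'

namespace ChartPair2

variable {D O2 O2'} {B : Subalgebra R F} {B' : Subalgebra R' F'} (P : ChartPair2 D O2 O2' B B')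

include P in
theorem spanOf_le : D.spanOf B ≤ Subalgebra.toSubmodule B' := by
  refine Submodule.span_le.mpr ?_
  rintro _ ⟨c, hc, rfl⟩
  exact P.map_mem c hc

include P in
theorem spanOf_le_O1' {y : F'} (hy : y ∈ D.spanOf B) : y ∈ O1' :=
  P.le_O1' y (P.spanOf_le hy)

include P in
theorem spanOf_le_O2' {y : F'} (hy : y ∈ D.spanOf B) : y ∈ O2' :=
  P.le_O2' y (P.spanOf_le hy)

include P in
/-- **Step 1.**  A nonzero multiple of every element of `B'` lies in `R' · B`. -/
theorem exists_smul_mem_spanOf [CharZero K] [IsFractionRing R K] [IsFractionRing R' L]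
    (dvrR : ∀ r : R, r ≠ 0 → ∃ (k : ℕ) (v : Rˣ), r = π ^ k * v)
    (pi_ne : algebraMap R F π ≠ 0) {x : F'} (hx : x ∈ B') :
    ∃ r : R', r ≠ 0 ∧ r • x ∈ D.spanOf B := by
  classical
  have hKA : ∀ c : K, algebraMap K F c ∈ invPi π B := algebraMap_mem_invPi B dvrR
  obtain ⟨a, ha⟩ := D.ω_spanF x
  have hcoord : ∀ j, a j ∈ invPi π B :=
    D.coords_mem_invPi B P.intcl hKA (P.int' x hx) a ha
  obtain ⟨m, hm⟩ := exists_common_pow Finset.univ a (fun i _ => hcoord i)
  obtain ⟨s, hs⟩ := IsLocalization.exist_integer_multiples (nonZeroDivisors R')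
    (Finset.univ : Finset (Fin D.n)) D.ω
  choose u hu using fun i => hs i (Finset.mem_univ i)
  have hinjL : Function.Injective (algebraMap R' L) := IsFractionRing.injective R' L
  have hπ' : D.iR π ≠ 0 := by
    intro h
    apply pi_ne
    have := D.hRF π
    rw [h, map_zero] at this
    exact (map_eq_zero D.iF).mp this.symm
  have hs0 : (s : R') ≠ 0 := by
    haveI : Nontrivial R' := (algebraMap R' L).domain_nontrivial
    exact nonZeroDivisors.ne_zero s.2
  refine ⟨(s : R') * D.iR π ^ m, ?_, ?_⟩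
  · intro h
    have h1 := congrArg (algebraMap R' L) h
    rw [map_mul, map_pow, map_zero] at h1
    rcases mul_eq_zero.mp h1 with h2 | h2
    · exact hs0 (hinjL (by rw [h2, map_zero]))
    · have h3 : algebraMap R' L (D.iR π) ≠ 0 := fun h3 => hπ' (hinjL (by rw [h3, map_zero]))
      exact pow_ne_zero m h3 h2
  · have hexp : ((s : R') * D.iR π ^ m) • x =
        ∑ i, u i • D.iF (algebraMap R F π ^ m * a i) := by
      rw [Algebra.smul_def, ha, Finset.mul_sum]
      refine Finset.sum_congr rfl fun i _ => ?_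
      have h1 : algebraMap R' F' (u i) = algebraMap R' F' (s : R') * algebraMap L F' (D.ω i) := by
        rw [IsScalarTower.algebraMap_apply R' L F', hu i, Algebra.smul_def, map_mul,
          ← IsScalarTower.algebraMap_apply R' L F']
      rw [Algebra.smul_def, h1, map_mul, map_pow, map_mul, map_pow, D.hRF]
      ring
    rw [hexp]
    exact Submodule.sum_mem _ fun i _ =>
      Submodule.smul_mem _ _ (D.map_mem_spanOf B (hm i (Finset.mem_univ i)))

include P in
/-- **Step 2.**  `R' · B` is `π'`-saturated in `O1' ⊓ O2'`. -/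
theorem spanOf_sat (hld2 : LD2 D O2 O2') (pi_ne : algebraMap R F π ≠ 0)
    (pi'_ne : algebraMap R' F' π' ≠ 0) {y z : F'} (hy : y ∈ D.spanOf B)
    (hz1 : z ∈ O1') (hz2 : z ∈ O2') (hyz : y = algebraMap R' F' π' * z) : z ∈ D.spanOf B := by
  classical
  obtain ⟨N, r, g, rfl⟩ := Submodule.mem_span_set'.mp hy
  choose c hcB hc using fun k => (g k).2
  choose γ r' hγ using fun k => D.θ_span (r k)
  obtain ⟨u, hu⟩ := D.pi_dvd
  set yθ : Fin D.f → F := fun i => ∑ k, algebraMap R F (γ k i) * c k with hyθ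
  set y' : F' := ∑ k, r' k • D.iF (c k) with hy'
  have hyθB : ∀ i, yθ i ∈ B := fun i =>
    B.sum_mem fun k _ => B.mul_mem (B.algebraMap_mem _) (hcB k)
  have hy'C : y' ∈ D.spanOf B :=
    Submodule.sum_mem _ fun k _ => Submodule.smul_mem _ _ (D.map_mem_spanOf B (hcB k))
  have hdecomp : ∑ k, r k • ((g k : ↥(D.iF '' (B : Set F))) : F') =
      ∑ i, algebraMap R' F' (D.θ i) * D.iF (yθ i) + algebraMap R' F' π' * y' := by
    have h1 : ∀ k, r k • ((g k : ↥(D.iF '' (B : Set F))) : F') =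
        ∑ i, algebraMap R' F' (D.θ i) * D.iF (algebraMap R F (γ k i) * c k) +
          algebraMap R' F' π' * (r' k • D.iF (c k)) := by
      intro k
      rw [← hc k, Algebra.smul_def, Algebra.smul_def]
      conv_lhs => rw [hγ k]
      rw [map_add, map_sum, add_mul, Finset.sum_mul, map_mul]
      congr 1
      · refine Finset.sum_congr rfl fun i _ => ?_
        rw [map_mul, map_mul, D.hRF]
        ring
      · ring
    simp only [h1, Finset.sum_add_distrib]
    congr 1
    · rw [Finset.sum_comm]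
      refine Finset.sum_congr rfl fun i _ => ?_
      rw [hyθ, map_sum, Finset.mul_sum]
    · rw [hy', Finset.mul_sum]
  -- linear disjointness on both components of the special fibre
  have hrel : ∑ i, algebraMap R' F' (D.θ i) * D.iF (yθ i) = algebraMap R' F' π' * (z - y') := by
    rw [mul_sub, ← hyz, hdecomp]; ring
  have hz1' : z - y' ∈ O1' := sub_mem hz1 (P.spanOf_le_O1' hy'C)
  have hz2' : z - y' ∈ O2' := sub_mem hz2 (P.spanOf_le_O2' hy'C)
  have hldA := D.ld_res yθ (fun i => P.le_O1 _ (hyθB i)) ⟨z - y', hz1', hrel⟩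
  have hldB := hld2 yθ (fun i => P.le_O2 _ (hyθB i)) ⟨z - y', hz2', hrel⟩
  choose zθ hzθO1 hzθ using hldA
  have hzθO2 : ∀ i, zθ i ∈ O2 := by
    intro i
    obtain ⟨w, hw, hyw⟩ := hldB i
    have : zθ i = w := mul_left_cancel₀ pi_ne ((hzθ i).symm.trans hyw)
    rw [this]
    exact hw
  have hzθB : ∀ i, zθ i ∈ B := fun i => P.sat _ (hyθB i) _ (hzθO1 i) (hzθO2 i) (hzθ i)
  -- conclusion
  have hsum : ∑ i, algebraMap R' F' (D.θ i) * D.iF (yθ i) =
      algebraMap R' F' π' * ∑ i, (D.θ i * u) • D.iF (zθ i) := by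
    rw [Finset.mul_sum]
    refine Finset.sum_congr rfl fun i _ => ?_
    rw [hzθ i, map_mul, ← D.hRF, hu, Algebra.smul_def, map_mul, map_mul]
    ring
  have hfinal : algebraMap R' F' π' * z =
      algebraMap R' F' π' * (∑ i, (D.θ i * u) • D.iF (zθ i) + y') := by
    rw [← hyz, hdecomp, hsum, mul_add]
  rw [mul_left_cancel₀ pi'_ne hfinal]
  exact Submodule.add_mem _
    (Submodule.sum_mem _ fun i _ => Submodule.smul_mem _ _ (D.map_mem_spanOf B (hzθB i))) hy'C

include P in
/-- iterated saturation. -/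
theorem spanOf_sat_pow (hld2 : LD2 D O2 O2') (pi_ne : algebraMap R F π ≠ 0)
    (pi'_ne : algebraMap R' F' π' ≠ 0) (hπ'O1 : algebraMap R' F' π' ∈ O1')
    (hπ'O2 : algebraMap R' F' π' ∈ O2')
    (k : ℕ) {w : F'} (hw1 : w ∈ O1') (hw2 : w ∈ O2')
    (h : algebraMap R' F' π' ^ k * w ∈ D.spanOf B) : w ∈ D.spanOf B := by
  induction k with
  | zero => simpa using h
  | succ k ih =>
    apply ih
    refine P.spanOf_sat hld2 pi_ne pi'_ne h (O1'.mul_mem _ _ (O1'.pow_mem hπ'O1 k) hw1)
      (O2'.mul_mem _ _ (O2'.pow_mem hπ'O2 k) hw2) ?_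
    rw [pow_succ]; ring

include P in
/-- **Main theorem: `B' ⊆ R' · B`.** -/
theorem mem_spanOf_of_mem [CharZero K] [IsFractionRing R K] [IsFractionRing R' L]
    (hld2 : LD2 D O2 O2')
    (dvrR : ∀ r : R, r ≠ 0 → ∃ (k : ℕ) (v : Rˣ), r = π ^ k * v)
    (dvrR' : ∀ r : R', r ≠ 0 → ∃ (k : ℕ) (v : R'ˣ), r = π' ^ k * v)
    (pi_ne : algebraMap R F π ≠ 0) (pi'_ne : algebraMap R' F' π' ≠ 0) {x : F'} (hx : x ∈ B') :
    x ∈ D.spanOf B := by
  obtain ⟨r, hr0, hrx⟩ := P.exists_smul_mem_spanOf dvrR pi_ne hx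
  obtain ⟨k, v, rfl⟩ := dvrR' r hr0
  have hπ'O1 : algebraMap R' F' π' ∈ O1' := P.le_O1' _ (B'.algebraMap_mem π')
  have hπ'O2 : algebraMap R' F' π' ∈ O2' := P.le_O2' _ (B'.algebraMap_mem π')
  have hvx1 : (v : R') • x ∈ O1' := P.le_O1' _ (B'.smul_mem hx _)
  have hvx2 : (v : R') • x ∈ O2' := P.le_O2' _ (B'.smul_mem hx _)
  have h1 : algebraMap R' F' π' ^ k * ((v : R') • x) ∈ D.spanOf B := by
    have : algebraMap R' F' π' ^ k * ((v : R') • x) = (π' ^ k * (v : R')) • x := by
      rw [Algebra.smul_def, Algebra.smul_def, map_mul, map_pow]; ring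
    rw [this]; exact hrx
  have h2 := P.spanOf_sat_pow hld2 pi_ne pi'_ne hπ'O1 hπ'O2 k hvx1 hvx2 h1
  have h3 : x = ((v⁻¹ : R'ˣ) : R') • ((v : R') • x) := by
    rw [smul_smul, Units.inv_mul, one_smul]
  rw [h3]
  exact Submodule.smul_mem _ _ h2

include P in
/-- **`B' = R' · B`.** -/
theorem eq_spanOf [CharZero K] [IsFractionRing R K] [IsFractionRing R' L]
    (hld2 : LD2 D O2 O2')
    (dvrR : ∀ r : R, r ≠ 0 → ∃ (k : ℕ) (v : Rˣ), r = π ^ k * v)
    (dvrR' : ∀ r : R', r ≠ 0 → ∃ (k : ℕ) (v : R'ˣ), r = π' ^ k * v)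
    (pi_ne : algebraMap R F π ≠ 0) (pi'_ne : algebraMap R' F' π' ≠ 0) :
    Subalgebra.toSubmodule B' = D.spanOf B :=
  le_antisymm (fun _ hx => P.mem_spanOf_of_mem hld2 dvrR dvrR' pi_ne pi'_ne hx) P.spanOf_le

end ChartPair2

end Fermat.Agent.T1B.NodalBC23.Abstract
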