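/-
Programme T1B (S44), brick N-BC NODAL MODEL-BC (helper23), part 2: base change of NODAL two-chart
models.

`hK : NodalTwoChartModel R F π t B0 B1 O1 O2` (the nodal model over the small field `K = Frac R`),
`hL : NodalTwoChartModel R' F' π' (D.iF t) B0' B1' O1' O2'` (the nodal model over `L = Frac R' ⊇ K`),
`D : BCData K L π π' O1 O1'` (helper51's base change data, first component), `hld2 : LD2 D O2 O2'`
(linear disjointness on the second component).  Then, as `R'`-submodules of `F'`,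

  `B0' = R' · B0`,  `B1' = R' · B1`,  `B0' ⊔ B1' = R' · (B0 ⊔ B1)`

and the multiplication maps are isomorphisms

  `equiv0  : R' ⊗[R] ↥B0 ≃ₐ[R'] ↥B0'`,  `equiv1 : R' ⊗[R] ↥B1 ≃ₐ[R'] ↥B1'`,
  `equiv01 : R' ⊗[R] ↥(B0 ⊔ B1) ≃ₐ[R'] ↥(B0' ⊔ B1')`,   `r ⊗ b ↦ r • D.iF b`,

compatible with the restriction maps.  `L / K` may be ramified at `π`.
-/
import Mathlib
import Fermat.Agent.T1B.NodalBC23.Abstract
import Fermat.Agent.T1.ModelBC51.Model
import Fermat.Agent.T1.ModelBC51.Equiv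
import Fermat.Agent.ES.N34.NodalCore13
import Fermat.Agent.T1.ModelCoh30.Basic

set_option autoImplicit false
set_option linter.unusedSectionVars false
set_option linter.style.haveILetI false

noncomputable section

namespace Fermat.Agent.T1B.NodalBC23.Model

open Polynomial TensorProduct Fermat.Agent.ES.N34.NodalCore13
open Fermat.Agent.RED.PUR.ChartGeneric22 (isIntegral_subalgebra_iff)
open Fermat.Agent.T1.ModelBC51.InvPi Fermat.Agent.T1.ModelBC51.Abstract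
open Fermat.Agent.T1.ModelBC51.Model (map_mem_adjoin intOverA_of_mem_adjoin)
open Fermat.Agent.T1.ModelBC51.Equiv (chartEquiv)
open Fermat.Agent.T1B.NodalBC23.Abstract

variable {R K F : Type*} [CommRing R] [Field K] [Field F] [Algebra R K] [Algebra K F]
  [Algebra R F] [IsScalarTower R K F]
variable {R' L F' : Type*} [CommRing R'] [Field L] [Field F'] [Algebra R' L] [Algebra L F']
  [Algebra R' F'] [IsScalarTower R' L F']
variable {π : R} {π' : R'} {O1 O2 : ValuationSubring F} {O1' O2' : ValuationSubring F'}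
  (D : BCData K L π π' O1 O1')

/-- **A nodal chart pair from integral closures of `R[s]`, `R'[s]`.** -/
theorem chartPair2_of [IsFractionRing R K]
    (dvrR : ∀ r : R, r ≠ 0 → ∃ (k : ℕ) (v : Rˣ), r = π ^ k * v)
    {B : Subalgebra R F} {B' : Subalgebra R' F'} {s : F} (hs : s ∈ B) (hs' : D.iF s ∈ B')
    (intcl : ∀ x : F, IsIntegral B x → x ∈ B) (intcl' : ∀ x : F', IsIntegral B' x → x ∈ B')
    (int : ∀ x ∈ B, IsIntegral (Algebra.adjoin R {s}) x)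
    (int' : ∀ x ∈ B', IsIntegral (Algebra.adjoin R' {D.iF s}) x)
    (le_O1 : ∀ x ∈ B, x ∈ O1) (le_O2 : ∀ x ∈ B, x ∈ O2)
    (le_O1' : ∀ x ∈ B', x ∈ O1') (le_O2' : ∀ x ∈ B', x ∈ O2')
    (sat : ∀ b ∈ B, ∀ c : F, c ∈ O1 → c ∈ O2 → b = algebraMap R F π * c → c ∈ B) :
    ChartPair2 D O2 O2' B B' where
  intcl := intcl
  le_O1 := le_O1
  le_O2 := le_O2
  sat := sat
  le_O1' := le_O1'
  le_O2' := le_O2'
  int' := by
    intro x hx
    have h := int' x hx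
    rw [isIntegral_subalgebra_iff] at h
    obtain ⟨P, hP, hcoeff, hPx⟩ := h
    exact D.intOverA_of_root B P hP
      (fun i => intOverA_of_mem_adjoin D B (algebraMap_mem_invPi B dvrR) hs (hcoeff i)) hPx
  map_mem := by
    intro x hx
    apply intcl'
    have h := int x hx
    rw [isIntegral_subalgebra_iff] at h ⊢
    obtain ⟨P, hP, hcoeff, hPx⟩ := h
    refine ⟨P.map D.iF, hP.map _, fun i => ?_, ?_⟩
    · rw [coeff_map]
      have h1 : Algebra.adjoin R' {D.iF s} ≤ B' :=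
        Algebra.adjoin_le (Set.singleton_subset_iff.mpr hs')
      exact h1 (map_mem_adjoin D s (hcoeff i))
    · rw [eval_map, eval₂_at_apply, hPx, map_zero]

/-- the overlap chart of a nodal model: `B0 ⊔ B1 = B0[1/t]` (universe-polymorphic copy of
`NodalFacts23.mem_sup_iff0`). -/
theorem mem_sup_iff {S : Type*} [CommRing S] {E : Type*} [Field E] [Algebra S E] {ϖ : S} {τ : E}
    {C0 C1 : Subalgebra S E} {V1 V2 : ValuationSubring E}
    (M : NodalTwoChartModel S E ϖ τ C0 C1 V1 V2) {x : E} :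
    x ∈ C0 ⊔ C1 ↔ ∃ k : ℕ, τ ^ k * x ∈ C0 := by
  have hinv : ∀ k : ℕ, τ⁻¹ ^ k * τ ^ k = 1 := fun k => by
    rw [← mul_pow, inv_mul_cancel₀ M.t_ne, one_pow]
  constructor
  · intro hx
    have hle : C0 ⊔ C1 ≤ Fermat.Agent.T1.ModelCoh30.awaySub τ C0 M.t_mem := by
      apply sup_le
      · intro y hy
        exact ⟨0, by simpa using hy⟩
      · intro y hy
        exact M.ov0 y hy
    exact hle hx
  · rintro ⟨k, hk⟩
    have hx : x = τ⁻¹ ^ k * (τ ^ k * x) := by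
      rw [← mul_assoc, hinv, one_mul]
    rw [hx]
    exact (C0 ⊔ C1).mul_mem
      ((C0 ⊔ C1).pow_mem ((le_sup_right : C1 ≤ C0 ⊔ C1) M.tinv_mem) k)
      ((le_sup_left : C0 ≤ C0 ⊔ C1) hk)

section Models

variable {t : F} {B0 B1 : Subalgebra R F} {B0' B1' : Subalgebra R' F'}
  (hK : NodalTwoChartModel R F π t B0 B1 O1 O2)
  (hL : NodalTwoChartModel R' F' π' (D.iF t) B0' B1' O1' O2')
  [IsFractionRing R K] [IsFractionRing R' L]
  (dvrR : ∀ r : R, r ≠ 0 → ∃ (k : ℕ) (v : Rˣ), r = π ^ k * v)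
  (dvrR' : ∀ r : R', r ≠ 0 → ∃ (k : ℕ) (v : R'ˣ), r = π' ^ k * v)
  (hld2 : LD2 D O2 O2')

include hK hL dvrR in
/-- the nodal chart pair `(B0, B0')`. -/
theorem chartPair2_0 : ChartPair2 D O2 O2' B0 B0' :=
  chartPair2_of D dvrR hK.t_mem hL.t_mem hK.intcl0 hL.intcl0 hK.int0 hL.int0 hK.le_O1_0
    hK.le_O2_0 hL.le_O1_0 hL.le_O2_0 hK.sat0

include hK hL dvrR in
/-- the nodal chart pair `(B1, B1')`. -/
theorem chartPair2_1 : ChartPair2 D O2 O2' B1 B1' := by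
  have hinv : D.iF t⁻¹ = (D.iF t)⁻¹ := map_inv₀ D.iF t
  refine chartPair2_of D dvrR hK.tinv_mem (by rw [hinv]; exact hL.tinv_mem) hK.intcl1 hL.intcl1
    hK.int1 (by rw [hinv]; exact hL.int1) hK.le_O1_1 hK.le_O2_1 hL.le_O1_1 hL.le_O2_1 hK.sat1

include hK hL dvrR in
theorem map_mem0 : ∀ x ∈ B0, D.iF x ∈ B0' := (chartPair2_0 D hK hL dvrR).map_mem

include hK hL dvrR in
theorem map_mem1 : ∀ x ∈ B1, D.iF x ∈ B1' := (chartPair2_1 D hK hL dvrR).map_mem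

include hK hL dvrR in
theorem map_mem01 : ∀ x ∈ B0 ⊔ B1, D.iF x ∈ B0' ⊔ B1' := by
  intro x hx
  obtain ⟨k, hk⟩ := (mem_sup_iff hK).1 hx
  rw [mem_sup_iff hL]
  refine ⟨k, ?_⟩
  rw [← map_pow, ← map_mul]
  exact map_mem0 D hK hL dvrR _ hk

include hK hL dvrR dvrR' hld2 in
/-- **`B0' ⊆ R' · B0`.** -/
theorem span0 [CharZero K] : ∀ x ∈ B0', x ∈ D.spanOf B0 := fun _ hx =>
  (chartPair2_0 D hK hL dvrR).mem_spanOf_of_mem hld2 dvrR dvrR' hK.pi_ne hL.pi_ne hx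

include hK hL dvrR dvrR' hld2 in
/-- **`B1' ⊆ R' · B1`.** -/
theorem span1 [CharZero K] : ∀ x ∈ B1', x ∈ D.spanOf B1 := fun _ hx =>
  (chartPair2_1 D hK hL dvrR).mem_spanOf_of_mem hld2 dvrR dvrR' hK.pi_ne hL.pi_ne hx

include hK hL dvrR dvrR' hld2 in
/-- **`B0' ⊔ B1' ⊆ R' · (B0 ⊔ B1)`.** -/
theorem span01 [CharZero K] : ∀ x ∈ B0' ⊔ B1', x ∈ D.spanOf (B0 ⊔ B1) := by
  intro x hx
  obtain ⟨k, hk⟩ := (mem_sup_iff hL).1 hx
  have hk' : D.iF t ^ k * x ∈ D.spanOf B0 := span0 D hK hL dvrR dvrR' hld2 _ hk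
  have ht0 : D.iF t ≠ 0 := fun h => hL.t_ne h
  -- multiplication by `(iF t)⁻¹ ^ k`
  let μ : F' →ₗ[R'] F' := LinearMap.mulLeft R' ((D.iF t)⁻¹ ^ k)
  have hμ : Submodule.map μ (D.spanOf B0) ≤ D.spanOf (B0 ⊔ B1) := by
    rw [BCData.spanOf, Submodule.map_span]
    refine Submodule.span_le.mpr ?_
    rintro _ ⟨_, ⟨c, hc, rfl⟩, rfl⟩
    have : μ (D.iF c) = D.iF (t⁻¹ ^ k * c) := by
      show (D.iF t)⁻¹ ^ k * D.iF c = _
      rw [map_mul, map_pow, map_inv₀]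
    rw [this]
    refine D.map_mem_spanOf _ ?_
    exact (B0 ⊔ B1).mul_mem
      ((B0 ⊔ B1).pow_mem ((le_sup_right : B1 ≤ B0 ⊔ B1) hK.tinv_mem) k)
      ((le_sup_left : B0 ≤ B0 ⊔ B1) hc)
  have hx' : x = μ (D.iF t ^ k * x) := by
    show x = (D.iF t)⁻¹ ^ k * (D.iF t ^ k * x)
    rw [← mul_assoc, ← mul_pow, inv_mul_cancel₀ ht0, one_pow, one_mul]
  rw [hx']
  exact hμ (Submodule.mem_map_of_mem hk')

variable [Algebra R R'] (halg : ∀ r : R, algebraMap R R' r = D.iR r)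

/-- **`R' ⊗[R] B0 ≃ B0'`.** -/
def equiv0 [CharZero K] : R' ⊗[R] ↥B0 ≃ₐ[R'] ↥B0' :=
  chartEquiv D halg (map_mem0 D hK hL dvrR) dvrR hK.pi_ne (span0 D hK hL dvrR dvrR' hld2)

/-- **`R' ⊗[R] B1 ≃ B1'`.** -/
def equiv1 [CharZero K] : R' ⊗[R] ↥B1 ≃ₐ[R'] ↥B1' :=
  chartEquiv D halg (map_mem1 D hK hL dvrR) dvrR hK.pi_ne (span1 D hK hL dvrR dvrR' hld2)

/-- **`R' ⊗[R] (B0 ⊔ B1) ≃ B0' ⊔ B1'`.** -/
def equiv01 [CharZero K] : R' ⊗[R] ↥(B0 ⊔ B1) ≃ₐ[R'] ↥(B0' ⊔ B1') :=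
  chartEquiv D halg (map_mem01 D hK hL dvrR) dvrR hK.pi_ne (span01 D hK hL dvrR dvrR' hld2)

theorem coe_equiv0_tmul [CharZero K] (r : R') (b : ↥B0) :
    ((equiv0 D hK hL dvrR dvrR' hld2 halg (r ⊗ₜ[R] b) : ↥B0') : F') =
      algebraMap R' F' r * D.iF (b : F) := rfl

theorem coe_equiv1_tmul [CharZero K] (r : R') (b : ↥B1) :
    ((equiv1 D hK hL dvrR dvrR' hld2 halg (r ⊗ₜ[R] b) : ↥B1') : F') =
      algebraMap R' F' r * D.iF (b : F) := rfl

theorem coe_equiv01_tmul [CharZero K] (r : R') (b : ↥(B0 ⊔ B1)) :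
    ((equiv01 D hK hL dvrR dvrR' hld2 halg (r ⊗ₜ[R] b) : ↥(B0' ⊔ B1')) : F') =
      algebraMap R' F' r * D.iF (b : F) := rfl

/-- compatibility with the inclusion `B0 ⊆ B0 ⊔ B1`. -/
theorem equiv01_map_inclusion0 [CharZero K] (z : R' ⊗[R] ↥B0) :
    equiv01 D hK hL dvrR dvrR' hld2 halg
        (Algebra.TensorProduct.map (AlgHom.id R' R')
          (Subalgebra.inclusion (le_sup_left : B0 ≤ B0 ⊔ B1)) z) =
      Subalgebra.inclusion (le_sup_left : B0' ≤ B0' ⊔ B1')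
        (equiv0 D hK hL dvrR dvrR' hld2 halg z) := by
  induction z using TensorProduct.induction_on with
  | zero => simp only [map_zero]
  | tmul r b => exact Subtype.ext rfl
  | add z₁ z₂ h₁ h₂ => simp only [map_add, h₁, h₂]

/-- compatibility with the inclusion `B1 ⊆ B0 ⊔ B1`. -/
theorem equiv01_map_inclusion1 [CharZero K] (z : R' ⊗[R] ↥B1) :
    equiv01 D hK hL dvrR dvrR' hld2 halg
        (Algebra.TensorProduct.map (AlgHom.id R' R')
          (Subalgebra.inclusion (le_sup_right : B1 ≤ B0 ⊔ B1)) z) =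
      Subalgebra.inclusion (le_sup_right : B1' ≤ B0' ⊔ B1')
        (equiv1 D hK hL dvrR dvrR' hld2 halg z) := by
  induction z using TensorProduct.induction_on with
  | zero => simp only [map_zero]
  | tmul r b => exact Subtype.ext rfl
  | add z₁ z₂ h₁ h₂ => simp only [map_add, h₁, h₂]

/-- the images of `1 ⊗ t` and `1 ⊗ t⁻¹`. -/
theorem coe_equiv0_t [CharZero K] :
    ((equiv0 D hK hL dvrR dvrR' hld2 halg (1 ⊗ₜ[R] ⟨t, hK.t_mem⟩) : ↥B0') : F') = D.iF t := by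
  rw [coe_equiv0_tmul, map_one, one_mul]

theorem coe_equiv1_tinv [CharZero K] :
    ((equiv1 D hK hL dvrR dvrR' hld2 halg (1 ⊗ₜ[R] ⟨t⁻¹, hK.tinv_mem⟩) : ↥B1') : F') =
      (D.iF t)⁻¹ := by
  rw [coe_equiv1_tmul, map_one, one_mul, map_inv₀]

end Models

end Fermat.Agent.T1B.NodalBC23.Model
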