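/-
Programme T1B (S44), brick N-BC NODAL MODEL-BC (helper23), part 3: the hub form.

For nodal two-chart models `hK` over `R` and `hL` over `R'` related by base change data
(`D : BCData K L π π' O1 O1'`, `hld2 : LD2 D O2 O2'`), the base change `(nodalChart hK).baseChange R'`
of the two-chart ring of `hK` satisfies helper3's `RedN3.NodalGood` with the two components
`O1'`, `O2'` of the special fibre of `hL`:

  `nodalGood_baseChange : NodalGood ((nodalChart hK).baseChange R') π' (Fin 2)`,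

with `x ∈ P_j i ↔ (equiv_j x : F') ∈ π' O_i'` (`mem_P0_baseChange`, ...).
-/
import Mathlib
import Fermat.Agent.T1B.NodalBC23.Model
import Fermat.Agent.T1B.NodalFacts23.BaseChange

set_option autoImplicit false
set_option linter.unusedSectionVars false
set_option linter.style.haveILetI false

universe u

noncomputable section

namespace Fermat.Agent.T1B.NodalBC23.Good

open TensorProduct Fermat.Agent.ES.N34.NodalCore13 Fermat.Agent.Jac Fermat.Agent.T1B.RedN3
open Fermat.Agent.Jac.BaseChange75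
open scoped Fermat.Agent.Jac.BaseChange75
open Fermat.Agent.T1.ModelBC51.Abstract Fermat.Agent.T1B.NodalBC23.Abstract
open Fermat.Agent.T1B.NodalBC23.Model Fermat.Agent.T1B.NodalFacts23
open Fermat.Agent.T1.ModelCoh30 (ρ0 ρ1)
open Fermat.Agent.T1.Coh60 (algebra0 algebra1 isScalarTower0 isScalarTower1)

variable {R F R' F' : Type u} {K L : Type*} [CommRing R] [Field K] [Field F] [Algebra R K]
  [Algebra K F] [Algebra R F] [IsScalarTower R K F]
  [CommRing R'] [Field L] [Field F'] [Algebra R' L] [Algebra L F'] [Algebra R' F']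
  [IsScalarTower R' L F']
variable {π : R} {π' : R'} {O1 O2 : ValuationSubring F} {O1' O2' : ValuationSubring F'}
  (D : BCData K L π π' O1 O1')
  {t : F} {B0 B1 : Subalgebra R F} {B0' B1' : Subalgebra R' F'}
  (hK : NodalTwoChartModel R F π t B0 B1 O1 O2)
  (hL : NodalTwoChartModel R' F' π' (D.iF t) B0' B1' O1' O2')
  [IsFractionRing R K] [IsFractionRing R' L]
  (dvrR : ∀ r : R, r ≠ 0 → ∃ (k : ℕ) (v : Rˣ), r = π ^ k * v)
  (dvrR' : ∀ r : R', r ≠ 0 → ∃ (k : ℕ) (v : R'ˣ), r = π' ^ k * v)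
  (hld2 : LD2 D O2 O2')
  [Algebra R R'] (halg : ∀ r : R, algebraMap R R' r = D.iR r) [CharZero K]

attribute [local instance] algebra0 algebra1 isScalarTower0 isScalarTower1

theorem compat0 (x : R' ⊗[R] ↥B0) :
    equiv01 D hK hL dvrR dvrR' hld2 halg
        (algebraMap (R' ⊗[R] ↥B0) (R' ⊗[R] ↥(B0 ⊔ B1)) x) =
      ρ0 B0' B1' (equiv0 D hK hL dvrR dvrR' hld2 halg x) := by
  induction x using TensorProduct.induction_on with
  | zero => simp only [map_zero]
  | tmul r b =>
    rw [algebraMap_right_tmul]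
    exact Subtype.ext rfl
  | add z₁ z₂ h₁ h₂ => simp only [map_add, h₁, h₂]

theorem compat1 (x : R' ⊗[R] ↥B1) :
    equiv01 D hK hL dvrR dvrR' hld2 halg
        (algebraMap (R' ⊗[R] ↥B1) (R' ⊗[R] ↥(B0 ⊔ B1)) x) =
      ρ1 B0' B1' (equiv1 D hK hL dvrR dvrR' hld2 halg x) := by
  induction x using TensorProduct.induction_on with
  | zero => simp only [map_zero]
  | tmul r b =>
    rw [algebraMap_right_tmul]
    exact Subtype.ext rfl
  | add z₁ z₂ h₁ h₂ => simp only [map_add, h₁, h₂]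

/-- **`NodalGood` for the base change of the nodal chart of `hK` to `R'`**, components `O1'`, `O2'`. -/
def nodalGood_baseChange : NodalGood ((nodalChart hK).baseChange R') π' (Fin 2) :=
  nodalGood_of_equiv (W := R) (O := R') (B0 := ↥B0) (B1 := ↥B1) (B01 := ↥(B0 ⊔ B1))
    (F' := F') (π' := π') (t' := D.iF t) (B0' := B0') (B1' := B1') (O1' := O1') (O2' := O2')
    (nodalChart hK) hL (equiv0 D hK hL dvrR dvrR' hld2 halg)
    (equiv1 D hK hL dvrR dvrR' hld2 halg) (equiv01 D hK hL dvrR dvrR' hld2 halg)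
    (compat0 D hK hL dvrR dvrR' hld2 halg) (compat1 D hK hL dvrR dvrR' hld2 halg)

theorem mem_P0_baseChange (i : Fin 2) (x : R' ⊗[R] ↥B0) :
    x ∈ (nodalGood_baseChange D hK hL dvrR dvrR' hld2 halg).P0 i ↔
      ∃ c ∈ comp O1' O2' i,
        ((equiv0 D hK hL dvrR dvrR' hld2 halg x : ↥B0') : F') = algebraMap R' F' π' * c :=
  Iff.rfl

theorem mem_P1_baseChange (i : Fin 2) (x : R' ⊗[R] ↥B1) :
    x ∈ (nodalGood_baseChange D hK hL dvrR dvrR' hld2 halg).P1 i ↔
      ∃ c ∈ comp O1' O2' i,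
        ((equiv1 D hK hL dvrR dvrR' hld2 halg x : ↥B1') : F') = algebraMap R' F' π' * c :=
  Iff.rfl

theorem mem_Q_baseChange (i : Fin 2) (x : R' ⊗[R] ↥(B0 ⊔ B1)) :
    x ∈ (nodalGood_baseChange D hK hL dvrR dvrR' hld2 halg).Q i ↔
      ∃ c ∈ comp O1' O2' i,
        ((equiv01 D hK hL dvrR dvrR' hld2 halg x : ↥(B0' ⊔ B1')) : F') =
          algebraMap R' F' π' * c :=
  Iff.rfl

end Fermat.Agent.T1B.NodalBC23.Good
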