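/-
Programme T1B (S44), brick N-BC NODAL MODEL-BC (helper23), part 5: the CONCRETE base change data for
number fields `K ≤ L ⊂ ℚ̄`.

* `R = ↥(AK A K) ⊂ R' = ↥(AK A L)` (`A` a valuation subring of `ℚ̄` over a prime `ℓ`),
* `F = ↥(FK N K) ⊂ F' = ↥(FK N L)` (ANY level `N`; coefficientwise inclusion `cF`),
* `O1 = gaussVS hπ (FK N K) hE`, `O1' = gaussVS hπ' (FK N L) hE'` (the Gauss valuation rings of the
  `q`-expansion at `∞`).

`nonempty_bcData_numField` is helper51's `ModelBC51.Concrete.nonempty_bcData` with its five hypotheses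
(`hOO'`, `hEE'`, `hgen`, `hfinL`, `hfinRes`) discharged; it serves the smooth models (T1A, G2) as well
as the nodal ones.  The second half of the file adds the Fricke involution (`frickeFK` commutes with
the coefficient extension) and gives `LD2` for `O2 = O1.comap W_N`.
-/
import Mathlib
import Fermat.Agent.RED.DESC.CoeffDescent1
import Fermat.Agent.RED.DESC.NumberFieldDVR27
import Fermat.Agent.T1.ModelBC51.Concrete
import Fermat.Agent.T1.HubInst98.Incl
import Fermat.Agent.ES.N34.FrickeFK8
import Fermat.Agent.T1B.NodalBC23.Comap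

set_option autoImplicit false
set_option linter.unusedSectionVars false
set_option linter.style.haveILetI false

noncomputable section

namespace Fermat.Agent.T1B.NodalBC23.NumField

open HahnSeries ModularCurve IntermediateField
open Fermat.Agent.RED.Interface4 Fermat.Agent.RED.PUR.GaussGen8
open Fermat.Agent.RED.DESC.CoeffDescent1 Fermat.Agent.RED.DESC.NumberFieldDVR27
open Fermat.Agent.RED.DESC.PlaceExtend27
open Fermat.Agent.T1.ModelBC51.Abstract Fermat.Agent.T1.ModelBC51.Concrete
open Fermat.Agent.T1.HubInst98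
open Fermat.Agent.ES.N34.FrickeFK8
open Fermat.Agent.T1B.NodalBC23.Abstract Fermat.Agent.T1B.NodalBC23.Comap

/-! ### Local shortcut instances (instance search at `↥(AK A K)`, `↥(FK N K)` is slow) -/

local instance (priority := high) scAlgKF (K : IntermediateField ℚ Qbar) (N : ℕ) [NeZero N] :
    Algebra ↥K ↥(FK N K) := inferInstance

local instance (priority := high) scAlgAK (A : ValuationSubring Qbar)
    (K : IntermediateField ℚ Qbar) : Algebra ↥(AK A K) ↥K := inferInstance

local instance (priority := high) scAlgAF (A : ValuationSubring Qbar)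
    (K : IntermediateField ℚ Qbar) (N : ℕ) [NeZero N] : Algebra ↥(AK A K) ↥(FK N K) :=
  inferInstance

local instance (priority := high) scTower (A : ValuationSubring Qbar)
    (K : IntermediateField ℚ Qbar) (N : ℕ) [NeZero N] :
    IsScalarTower ↥(AK A K) ↥K ↥(FK N K) := inferInstance

variable (A : ValuationSubring Qbar) {K L : IntermediateField ℚ Qbar} (h : K ≤ L)

/-- the inclusion `K → L` as a ring homomorphism. -/
def phi : K →+* L := (IntermediateField.inclusion h : K →+* L)

theorem phi_apply (x : K) : phi h x = IntermediateField.inclusion h x := rfl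

theorem coe_phi (x : K) : ((phi h x : L) : Qbar) = (x : Qbar) := rfl

/-- `hOO'`: `A ∩ K = (A ∩ L) ∩ K`. -/
theorem mem_AK_iff_phi (x : K) : x ∈ AK A K ↔ phi h x ∈ AK A L :=
  (AK_mono_mem A K h x).symm

theorem iR_eq_inclAK : iR (phi h) (mem_AK_iff_phi A h) = inclAK A h := rfl

section Level

variable (N : ℕ) [NeZero N]

/-- `hEE'`: the coefficient extension maps `K · F_N` into `L · F_N`. -/
theorem coeffMap_phi_mem {x : LaurentSeries K} (hx : x ∈ FK N K) :
    coeffMap (phi h) x ∈ FK N L :=
  coeffMap_mem_laurentBaseChange_of_algHom (phi h) (modularFunctionFieldFull N) hx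

/-- `hgen`: `L · F_N` is generated over `L` by the image of `K · F_N`. -/
theorem FK_le_adjoin :
    FK N L ≤ IntermediateField.adjoin L (⇑(coeffMap (phi h)) '' ((FK N K : Set (LaurentSeries K)))) := by
  show laurentBaseChange L (modularFunctionFieldFull N) ≤ _
  unfold laurentBaseChange
  rw [IntermediateField.adjoin_le_iff]
  rintro _ ⟨x, hx, rfl⟩
  refine IntermediateField.subset_adjoin L _ ⟨coeffEmb K x, ?_, ?_⟩
  · exact coeffEmb_mem_laurentBaseChange K hx
  · exact coeffMap_coeffEmb_of_algHom (phi h) x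

/-- the coefficientwise inclusion `K · F_N → L · F_N`. -/
def cF : ↥(FK N K) →+* ↥(FK N L) := iF (phi h) (fun _ hx => coeffMap_phi_mem h N hx)

theorem coe_cF (x : ↥(FK N K)) :
    ((cF h N x : ↥(FK N L)) : LaurentSeries L) = coeffMap (phi h) (x : LaurentSeries K) := rfl

end Level

/-- `hfinL`: `L` is finite over `K`. -/
theorem finite_phi [FiniteDimensional ℚ L] :
    @Module.Finite K L _ _ (phi h).toAlgebra.toModule := by
  letI : Algebra K L := (phi h).toAlgebra
  haveI : IsScalarTower ℚ K L := IsScalarTower.of_algebraMap_eq (fun x => by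
    rw [RingHom.algebraMap_toAlgebra]
    exact ((phi h).map_rat_algebraMap x).symm)
  exact Module.Finite.of_restrictScalars_finite ℚ K L

/-- `hfinRes`: the residue field extension is finite. -/
theorem finite_resMap {ℓ : ℕ} (hℓ : ℓ ≠ 0) (hA : A.LiesOverPrime ℓ) [FiniteDimensional ℚ L] :
    @Module.Finite (Res (AK A K)) (Res (AK A L)) _ _
      (resMap (phi h) (mem_AK_iff_phi A h)).toAlgebra.toModule := by
  letI : Algebra (Res (AK A K)) (Res (AK A L)) := (resMap (phi h) (mem_AK_iff_phi A h)).toAlgebra
  haveI : Finite (Res (AK A L)) := finite_residueField_AK A L hℓ hA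
  exact Module.Finite.of_finite

section Data

variable (N : ℕ) [NeZero N] [FiniteDimensional ℚ L]
  {π : ↥(AK A K)} {π' : ↥(AK A L)} (hπ : IsUnif (AK A K) π) (hπ' : IsUnif (AK A L) π')
  (hE : FK N K ≤ fracField (AK A K)) (hE' : FK N L ≤ fracField (AK A L))

/-- **The base change data for number fields `K ≤ L`** (any level `N`, Gauss valuation rings at `∞`). -/
theorem nonempty_bcData_numField {ℓ : ℕ} (hℓ : ℓ ≠ 0) (hA : A.LiesOverPrime ℓ) :
    ∃ D : BCData K L π π' (gaussVS hπ (FK N K) hE) (gaussVS hπ' (FK N L) hE'),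
      D.iR = inclAK A h ∧ D.iK = phi h ∧ D.iF = cF h N :=
  nonempty_bcData (phi h) (mem_AK_iff_phi A h) hπ hπ' hE hE'
    (fun _ hx => coeffMap_phi_mem h N hx) (FK_le_adjoin h N) (finite_phi h)
    (finite_resMap A h hℓ hA)

end Data

/-! ### The Fricke involution commutes with the coefficient extension -/

section Fricke

variable (N : ℕ) [NeZero N]

theorem baseChangeHom_cF (x : ↥(FK N K)) :
    baseChangeHom N L (cF h N x) = baseChangeHom N K x := by
  apply Subtype.ext
  rw [coe_baseChangeHom, coe_baseChangeHom, coe_cF, coeffMap_coeffMap]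
  rfl

/-- **`W_N` over `L` extends `W_N` over `K`.** -/
theorem frickeFK_cF (x : ↥(FK N K)) :
    frickeFK N L (cF h N x) = cF h N (frickeFK N K x) := by
  apply baseChangeHom_injective N L
  rw [baseChangeHom_frickeFK, baseChangeHom_cF, baseChangeHom_cF, baseChangeHom_frickeFK]

theorem algebraMap_AK_FK (a : ↥(AK A K)) :
    algebraMap ↥(AK A K) ↥(FK N K) a = algebraMap K ↥(FK N K) (a : K) := rfl

theorem frickeFK_algebraMap_AK (a : ↥(AK A K)) :
    frickeFK N K (algebraMap ↥(AK A K) ↥(FK N K) a) = algebraMap ↥(AK A K) ↥(FK N K) a := by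
  rw [algebraMap_AK_FK]
  exact (frickeFK N K).commutes _

variable {π : ↥(AK A K)} {π' : ↥(AK A L)} (hπ : IsUnif (AK A K) π) (hπ' : IsUnif (AK A L) π')
  (hE : FK N K ≤ fracField (AK A K)) (hE' : FK N L ≤ fracField (AK A L))

/-- the coefficient extension maps the Gauss ring at `∞` into the Gauss ring at `∞`. -/
theorem cF_mem_gaussVS {x : ↥(FK N K)} (hx : x ∈ gaussVS hπ (FK N K) hE) :
    cF h N x ∈ gaussVS hπ' (FK N L) hE' := by
  rw [mem_gaussVS_iff] at hx ⊢
  exact map_mem_gaussRing (phi h) (mem_AK_iff_phi A h) hx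

/-- the coefficient extension maps the Gauss ring at `0` into the Gauss ring at `0`. -/
theorem cF_mem_comap {x : ↥(FK N K)}
    (hx : x ∈ (gaussVS hπ (FK N K) hE).comap (frickeFK N K).toRingHom) :
    cF h N x ∈ (gaussVS hπ' (FK N L) hE').comap (frickeFK N L).toRingHom := by
  show frickeFK N L (cF h N x) ∈ gaussVS hπ' (FK N L) hE'
  rw [frickeFK_cF]
  exact cF_mem_gaussVS A h N hπ hπ' hE hE' hx

/-- **`LD2` for the second Gauss valuation ring `O2 = O1.comap W_N`.** -/
theorem ld2_numField (D : BCData K L π π' (gaussVS hπ (FK N K) hE) (gaussVS hπ' (FK N L) hE'))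
    (hD : D.iF = cF h N) :
    LD2 D ((gaussVS hπ (FK N K) hE).comap (frickeFK N K).toRingHom)
      ((gaussVS hπ' (FK N L) hE').comap (frickeFK N L).toRingHom) := by
  refine LD2_of_comap D (frickeFK N K).toRingHom (frickeFK N L).toRingHom
    (fun x => frickeFK_frickeFK N K x) (frickeFK_algebraMap_AK A N π)
    (fun r => frickeFK_algebraMap_AK A N r) (fun x => ?_)
  rw [hD]
  exact frickeFK_cF h N x

end Fricke

end Fermat.Agent.T1B.NodalBC23.NumField
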