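/-
Programme T1B (S44), brick N-BC NODAL MODEL-BC (helper23), part 6: the CONCRETE nodal instance.

`K ≤ L` number fields in `ℚ̄`, `A` a valuation subring of `ℚ̄` over a prime `ℓ`, bad level
`N' = M' * q`, the nodal two-chart models of ES/N34 (`ModelDefs9`): `R = ↥(AK A K)`,
`F = ↥(FK (M' * q) K)`, `t = tN q ht`, charts `B0 A q ht`, `B1 A q ht`, the two Gauss valuation rings
`O1 M' q hπ hE` (cusp `∞`), `O2 M' q hπ hE = O1.comap W_{N'}` (cusp `0`); the same over `L`.

Given the MODEL bundles `hK`, `hL : NodalNumData …` over `K` and over `L` (ES/P36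
`ModelQAt4.nodalNumData_at` provides them for every normal number field containing `ζ_{M'}`):

* `bcD` : the base change data (helper51's `BCData`, first component), `ld2` : the linear
  disjointness on the second component;
* exports for the node transport (helper37): `cF_tN`, `cF_mem_O1`, `cF_mem_O2`;
* continued in `NodalNFEquiv.lean`: `equiv0NF`, `equiv1NF`, `equiv01NF` :
  `↥(AK A L) ⊗[↥(AK A K)] B_j^K ≃ₐ B_j^L`, `nodalGood_numField`, `cF_mem_B0/B1`.
-/
import Mathlib
import Fermat.Agent.ES.N34.ModelDefs9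
import Fermat.Agent.ES.N34.NumData13
import Fermat.Agent.T1B.NodalBC23.NumField
import Fermat.Agent.T1B.NodalBC23.Good

set_option autoImplicit false
set_option linter.unusedSectionVars false
set_option linter.style.haveILetI false

noncomputable section

namespace Fermat.Agent.T1B.NodalBC23.NodalNF

open TensorProduct HahnSeries ModularCurve IntermediateField
open Fermat.Agent.RED.Interface4 Fermat.Agent.RED.PUR.GaussGen8
open Fermat.Agent.RED.BASE.EtaQuot12
open Fermat.Agent.ES.N34.ModelDefs9 Fermat.Agent.ES.N34.NumData13 Fermat.Agent.ES.N34.NodalCore13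
open Fermat.Agent.T1.ModelBC51.Abstract
open Fermat.Agent.T1.HubInst98
open Fermat.Agent.T1B.RedN3 Fermat.Agent.T1B.NodalFacts23
open Fermat.Agent.T1B.NodalBC23.Abstract Fermat.Agent.T1B.NodalBC23.NumField
open Fermat.Agent.T1B.NodalBC23.Model Fermat.Agent.T1B.NodalBC23.Good
open Fermat.Agent.Jac Fermat.Agent.Jac.BaseChange75
open scoped Fermat.Agent.Jac.BaseChange75
open Fermat.Agent.T1.Coh60 (algebra0 algebra1 isScalarTower0 isScalarTower1)

/-! ### Local shortcut instances (instance search at `↥(AK A K)`, `↥(FK N K)` is slow) -/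

local instance (priority := high) scAlgKF (K : IntermediateField ℚ Qbar) (N : ℕ) [NeZero N] :
    Algebra ↥K ↥(FK N K) := inferInstance

local instance (priority := high) scAlgAK (A : ValuationSubring Qbar)
    (K : IntermediateField ℚ Qbar) : Algebra ↥(AK A K) ↥K := inferInstance

local instance (priority := high) scAlgAF (A : ValuationSubring Qbar)
    (K : IntermediateField ℚ Qbar) (N : ℕ) [NeZero N] : Algebra ↥(AK A K) ↥(FK N K) :=
  inferInstance

local instance (priority := high) scTower (A : ValuationSubring Qbar)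
    (K : IntermediateField ℚ Qbar) (N : ℕ) [NeZero N] :
    IsScalarTower ↥(AK A K) ↥K ↥(FK N K) := inferInstance

variable (A : ValuationSubring Qbar) {K L : IntermediateField ℚ Qbar} (h : K ≤ L)
  (M' q : ℕ) [NeZero M'] [NeZero q] {n e : ℕ} [NeZero n]
  {ℓ : ℕ} (hℓ : ℓ ≠ 0) (hA : A.LiesOverPrime ℓ) [FiniteDimensional ℚ L]
  {π : ↥(AK A K)} {π' : ↥(AK A L)} (hπ : IsUnif (AK A K) π) (hπ' : IsUnif (AK A L) π')
  (hE : FK (M' * q) K ≤ fracField (AK A K)) (hE' : FK (M' * q) L ≤ fracField (AK A L))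
  (htK : tq ↥K n e ∈ FK M' K) (htL : tq ↥L n e ∈ FK M' L)

/-! ### The base change data -/

/-- **The base change data between the nodal models over `K` and over `L`** (first component). -/
def bcD : BCData K L π π' (O1 M' q hπ hE) (O1 M' q hπ' hE') :=
  (nonempty_bcData_numField A h (M' * q) hπ hπ' hE hE' hℓ hA).choose

theorem bcD_iR : (bcD A h M' q hℓ hA hπ hπ' hE hE').iR = inclAK A h :=
  (nonempty_bcData_numField A h (M' * q) hπ hπ' hE hE' hℓ hA).choose_spec.1

theorem bcD_iK : (bcD A h M' q hℓ hA hπ hπ' hE hE').iK = phi h :=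
  (nonempty_bcData_numField A h (M' * q) hπ hπ' hE hE' hℓ hA).choose_spec.2.1

theorem bcD_iF : (bcD A h M' q hℓ hA hπ hπ' hE hE').iF = cF h (M' * q) :=
  (nonempty_bcData_numField A h (M' * q) hπ hπ' hE hE' hℓ hA).choose_spec.2.2

theorem bcD_iF_apply (x : ↥(FK (M' * q) K)) :
    (bcD A h M' q hℓ hA hπ hπ' hE hE').iF x = cF h (M' * q) x := by
  rw [bcD_iF]

/-- the coefficient extension maps the Hauptmodul to the Hauptmodul. -/
theorem cF_tN : cF h (M' * q) (tN q htK) = tN q htL := by
  apply Subtype.ext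
  rw [coe_cF, coe_tN, coe_tN, coeffMap_tq]

theorem bcD_iF_tN : (bcD A h M' q hℓ hA hπ hπ' hE hE').iF (tN q htK) = tN q htL := by
  rw [bcD_iF_apply, cF_tN]

/-- **Linear disjointness on the second component** (`O2 = O1.comap W_{N'}`). -/
theorem ld2 : LD2 (bcD A h M' q hℓ hA hπ hπ' hE hE') (O2 M' q hπ hE) (O2 M' q hπ' hE') :=
  ld2_numField A h (M' * q) hπ hπ' hE hE' _ (bcD_iF A h M' q hℓ hA hπ hπ' hE hE')

theorem halg :
    letI := algAK A h
    ∀ r : ↥(AK A K), algebraMap ↥(AK A K) ↥(AK A L) r =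
      (bcD A h M' q hℓ hA hπ hπ' hE hE').iR r := by
  intro r
  rw [bcD_iR]
  rfl

/-! ### Exports for the node transport -/

theorem cF_mem_O1 {x : ↥(FK (M' * q) K)} (hx : x ∈ O1 M' q hπ hE) :
    cF h (M' * q) x ∈ O1 M' q hπ' hE' :=
  cF_mem_gaussVS A h (M' * q) hπ hπ' hE hE' hx

theorem cF_mem_O2 {x : ↥(FK (M' * q) K)} (hx : x ∈ O2 M' q hπ hE) :
    cF h (M' * q) x ∈ O2 M' q hπ' hE' :=
  cF_mem_comap A h (M' * q) hπ hπ' hE hE' hx

end Fermat.Agent.T1B.NodalBC23.NodalNF
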