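/-
Programme T1B (S44), brick N-BC NODAL MODEL-BC (helper23), part 6b: the CONCRETE nodal instance,
chart equivalences and `NodalGood` (continuation of `NodalNF.lean`).

* `equiv0NF`, `equiv1NF`, `equiv01NF` : `↥(AK A L) ⊗[↥(AK A K)] B_j^K ≃ₐ B_j^L` (algebra structure
  `HubInst98.algAK A h`, to be activated with `letI`), `coe_equiv_jNF_tmul`;
* `nodalGood_numField` : helper3's `RedN3.NodalGood` for the base change to `↥(AK A L)` of the FIXED
  two-chart ring `nodalChart hK.model` over `W = ↥(AK A K)`, `mem_P0/P1/Q_numField`;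
* `cF_mem_B0`, `cF_mem_B1`.
-/
import Mathlib
import Fermat.Agent.T1B.NodalBC23.NodalNF

set_option autoImplicit false
set_option linter.unusedSectionVars false
set_option linter.style.haveILetI false

noncomputable section

namespace Fermat.Agent.T1B.NodalBC23.NodalNFEquiv

open TensorProduct HahnSeries ModularCurve IntermediateField
open Fermat.Agent.RED.Interface4 Fermat.Agent.RED.PUR.GaussGen8
open Fermat.Agent.RED.BASE.EtaQuot12
open Fermat.Agent.ES.N34.ModelDefs9 Fermat.Agent.ES.N34.NumData13 Fermat.Agent.ES.N34.NodalCore13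
open Fermat.Agent.T1.ModelBC51.Abstract
open Fermat.Agent.T1.HubInst98
open Fermat.Agent.T1B.RedN3 Fermat.Agent.T1B.NodalFacts23
open Fermat.Agent.T1B.NodalBC23.Abstract Fermat.Agent.T1B.NodalBC23.NumField
open Fermat.Agent.T1B.NodalBC23.Model Fermat.Agent.T1B.NodalBC23.Good
open Fermat.Agent.T1B.NodalBC23.NodalNF
open Fermat.Agent.Jac Fermat.Agent.Jac.BaseChange75
open scoped Fermat.Agent.Jac.BaseChange75
open Fermat.Agent.T1.Coh60 (algebra0 algebra1 isScalarTower0 isScalarTower1)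

/-! ### Local shortcut instances (instance search at `↥(AK A K)`, `↥(FK N K)` is slow) -/

local instance (priority := high) scAlgKF (K : IntermediateField ℚ Qbar) (N : ℕ) [NeZero N] :
    Algebra ↥K ↥(FK N K) := inferInstance

local instance (priority := high) scAlgAK (A : ValuationSubring Qbar)
    (K : IntermediateField ℚ Qbar) : Algebra ↥(AK A K) ↥K := inferInstance

local instance (priority := high) scAlgAF (A : ValuationSubring Qbar)
    (K : IntermediateField ℚ Qbar) (N : ℕ) [NeZero N] : Algebra ↥(AK A K) ↥(FK N K) :=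
  inferInstance

local instance (priority := high) scTower (A : ValuationSubring Qbar)
    (K : IntermediateField ℚ Qbar) (N : ℕ) [NeZero N] :
    IsScalarTower ↥(AK A K) ↥K ↥(FK N K) := inferInstance

variable (A : ValuationSubring Qbar) {K L : IntermediateField ℚ Qbar} (h : K ≤ L)
  (M' q : ℕ) [NeZero M'] [NeZero q] {n e : ℕ} [NeZero n]
  {ℓ : ℕ} (hℓ : ℓ ≠ 0) (hA : A.LiesOverPrime ℓ) [FiniteDimensional ℚ L]
  {π : ↥(AK A K)} {π' : ↥(AK A L)} (hπ : IsUnif (AK A K) π) (hπ' : IsUnif (AK A L) π')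
  (hE : FK (M' * q) K ≤ fracField (AK A K)) (hE' : FK (M' * q) L ≤ fracField (AK A L))
  (htK : tq ↥K n e ∈ FK M' K) (htL : tq ↥L n e ∈ FK M' L)

/-! ### The chart equivalences and `NodalGood` -/

variable
  (hK : NodalNumData ↥(AK A K) ↥K ↥(FK (M' * q) K) π (tN q htK) (B0 A q htK) (B1 A q htK)
    (O1 M' q hπ hE) (O2 M' q hπ hE))
  (hL : NodalNumData ↥(AK A L) ↥L ↥(FK (M' * q) L) π' (tN q htL) (B0 A q htL) (B1 A q htL)
    (O1 M' q hπ' hE') (O2 M' q hπ' hE'))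

include hL in
/-- the model over `L`, with the Hauptmodul written as the image of the Hauptmodul over `K`. -/
theorem modelL :
    NodalTwoChartModel ↥(AK A L) ↥(FK (M' * q) L) π'
      ((bcD A h M' q hℓ hA hπ hπ' hE hE').iF (tN q htK)) (B0 A q htL) (B1 A q htL)
      (O1 M' q hπ' hE') (O2 M' q hπ' hE') := by
  rw [bcD_iF_tN A h M' q hℓ hA hπ hπ' hE hE' htK htL]
  exact hL.model

include hK hL hℓ hA in
theorem cF_mem_B0 {x : ↥(FK (M' * q) K)} (hx : x ∈ B0 A q htK) :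
    cF h (M' * q) x ∈ B0 A q htL := by
  rw [← bcD_iF_apply A h M' q hℓ hA hπ hπ' hE hE']
  exact map_mem0 (bcD A h M' q hℓ hA hπ hπ' hE hE') hK.model
    (modelL A h M' q hℓ hA hπ hπ' hE hE' htK htL hL) hK.dvrR x hx

include hK hL hℓ hA in
theorem cF_mem_B1 {x : ↥(FK (M' * q) K)} (hx : x ∈ B1 A q htK) :
    cF h (M' * q) x ∈ B1 A q htL := by
  rw [← bcD_iF_apply A h M' q hℓ hA hπ hπ' hE hE']
  exact map_mem1 (bcD A h M' q hℓ hA hπ hπ' hE hE') hK.model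
    (modelL A h M' q hℓ hA hπ hπ' hE hE' htK htL hL) hK.dvrR x hx

/-- **`↥(AK A L) ⊗[↥(AK A K)] B0^K ≃ B0^L`.** -/
def equiv0NF :
    letI := algAK A h
    ↥(AK A L) ⊗[↥(AK A K)] ↥(B0 A q htK) ≃ₐ[↥(AK A L)] ↥(B0 A q htL) :=
  letI := algAK A h
  equiv0 (bcD A h M' q hℓ hA hπ hπ' hE hE') hK.model
    (modelL A h M' q hℓ hA hπ hπ' hE hE' htK htL hL) hK.dvrR hL.dvrR
    (ld2 A h M' q hℓ hA hπ hπ' hE hE') (halg A h M' q hℓ hA hπ hπ' hE hE')

/-- **`↥(AK A L) ⊗[↥(AK A K)] B1^K ≃ B1^L`.** -/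
def equiv1NF :
    letI := algAK A h
    ↥(AK A L) ⊗[↥(AK A K)] ↥(B1 A q htK) ≃ₐ[↥(AK A L)] ↥(B1 A q htL) :=
  letI := algAK A h
  equiv1 (bcD A h M' q hℓ hA hπ hπ' hE hE') hK.model
    (modelL A h M' q hℓ hA hπ hπ' hE hE' htK htL hL) hK.dvrR hL.dvrR
    (ld2 A h M' q hℓ hA hπ hπ' hE hE') (halg A h M' q hℓ hA hπ hπ' hE hE')

/-- **`↥(AK A L) ⊗[↥(AK A K)] (B0^K ⊔ B1^K) ≃ B0^L ⊔ B1^L`.** -/
def equiv01NF :
    letI := algAK A h
    ↥(AK A L) ⊗[↥(AK A K)] ↥(B0 A q htK ⊔ B1 A q htK) ≃ₐ[↥(AK A L)]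
      ↥(B0 A q htL ⊔ B1 A q htL) :=
  letI := algAK A h
  equiv01 (bcD A h M' q hℓ hA hπ hπ' hE hE') hK.model
    (modelL A h M' q hℓ hA hπ hπ' hE hE' htK htL hL) hK.dvrR hL.dvrR
    (ld2 A h M' q hℓ hA hπ hπ' hE hE') (halg A h M' q hℓ hA hπ hπ' hE hE')

theorem coe_equiv0NF_tmul (r : ↥(AK A L)) (b : ↥(B0 A q htK)) :
    letI := algAK A h
    ((equiv0NF A h M' q hℓ hA hπ hπ' hE hE' htK htL hK hL (r ⊗ₜ b) : ↥(B0 A q htL)) :
        ↥(FK (M' * q) L)) =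
      algebraMap ↥(AK A L) ↥(FK (M' * q) L) r * cF h (M' * q) (b : ↥(FK (M' * q) K)) := by
  letI := algAK A h
  rw [← bcD_iF_apply A h M' q hℓ hA hπ hπ' hE hE']
  rfl

theorem coe_equiv1NF_tmul (r : ↥(AK A L)) (b : ↥(B1 A q htK)) :
    letI := algAK A h
    ((equiv1NF A h M' q hℓ hA hπ hπ' hE hE' htK htL hK hL (r ⊗ₜ b) : ↥(B1 A q htL)) :
        ↥(FK (M' * q) L)) =
      algebraMap ↥(AK A L) ↥(FK (M' * q) L) r * cF h (M' * q) (b : ↥(FK (M' * q) K)) := by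
  letI := algAK A h
  rw [← bcD_iF_apply A h M' q hℓ hA hπ hπ' hE hE']
  rfl

theorem coe_equiv01NF_tmul (r : ↥(AK A L)) (b : ↥(B0 A q htK ⊔ B1 A q htK)) :
    letI := algAK A h
    ((equiv01NF A h M' q hℓ hA hπ hπ' hE hE' htK htL hK hL (r ⊗ₜ b) :
        ↥(B0 A q htL ⊔ B1 A q htL)) : ↥(FK (M' * q) L)) =
      algebraMap ↥(AK A L) ↥(FK (M' * q) L) r * cF h (M' * q) (b : ↥(FK (M' * q) K)) := by
  letI := algAK A h
  rw [← bcD_iF_apply A h M' q hℓ hA hπ hπ' hE hE']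
  rfl

attribute [local instance] algebra0 algebra1 isScalarTower0 isScalarTower1

/-- **`NodalGood` for the base change to `↥(AK A L)` of the nodal chart over `↥(AK A K)`.** -/
def nodalGood_numField :
    letI := algAK A h
    NodalGood ((nodalChart hK.model).baseChange ↥(AK A L)) π' (Fin 2) :=
  letI := algAK A h
  nodalGood_baseChange (bcD A h M' q hℓ hA hπ hπ' hE hE') hK.model
    (modelL A h M' q hℓ hA hπ hπ' hE hE' htK htL hL) hK.dvrR hL.dvrR
    (ld2 A h M' q hℓ hA hπ hπ' hE hE') (halg A h M' q hℓ hA hπ hπ' hE hE')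

theorem mem_P0_numField (i : Fin 2) :
    letI := algAK A h
    ∀ x : ↥(AK A L) ⊗[↥(AK A K)] ↥(B0 A q htK),
      x ∈ (nodalGood_numField A h M' q hℓ hA hπ hπ' hE hE' htK htL hK hL).P0 i ↔
        ∃ c ∈ comp (O1 M' q hπ' hE') (O2 M' q hπ' hE') i,
          ((equiv0NF A h M' q hℓ hA hπ hπ' hE hE' htK htL hK hL x : ↥(B0 A q htL)) :
            ↥(FK (M' * q) L)) = algebraMap ↥(AK A L) ↥(FK (M' * q) L) π' * c :=
  fun _ => Iff.rfl

theorem mem_P1_numField (i : Fin 2) :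
    letI := algAK A h
    ∀ x : ↥(AK A L) ⊗[↥(AK A K)] ↥(B1 A q htK),
      x ∈ (nodalGood_numField A h M' q hℓ hA hπ hπ' hE hE' htK htL hK hL).P1 i ↔
        ∃ c ∈ comp (O1 M' q hπ' hE') (O2 M' q hπ' hE') i,
          ((equiv1NF A h M' q hℓ hA hπ hπ' hE hE' htK htL hK hL x : ↥(B1 A q htL)) :
            ↥(FK (M' * q) L)) = algebraMap ↥(AK A L) ↥(FK (M' * q) L) π' * c :=
  fun _ => Iff.rfl

theorem mem_Q_numField (i : Fin 2) :
    letI := algAK A h
    ∀ x : ↥(AK A L) ⊗[↥(AK A K)] ↥(B0 A q htK ⊔ B1 A q htK),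
      x ∈ (nodalGood_numField A h M' q hℓ hA hπ hπ' hE hE' htK htL hK hL).Q i ↔
        ∃ c ∈ comp (O1 M' q hπ' hE') (O2 M' q hπ' hE') i,
          ((equiv01NF A h M' q hℓ hA hπ hπ' hE hE' htK htL hK hL x :
            ↥(B0 A q htL ⊔ B1 A q htL)) : ↥(FK (M' * q) L)) =
              algebraMap ↥(AK A L) ↥(FK (M' * q) L) π' * c :=
  fun _ => Iff.rfl

end Fermat.Agent.T1B.NodalBC23.NodalNFEquiv
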