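/-
Programme T1B (S44), brick N-BC NODAL MODEL-BC (helper23), part 9: BASE CHANGE OF THE VERTICAL PRIMES.

For a further extension `O → O'` of discrete valuation rings (uniformisers `π`, `π'`) the prime
`P_j'(i)` of the hub chart `O' ⊗[W] B_j` cutting out the component `i` of the special fibre is

  `P_j'(i) = (P_j(i)).map (O ⊗[W] B_j → O' ⊗[W] B_j) ⊔ (π')`

("the component stays integral after base change").  This is the input of helper60's
`Bal60.CompBC` (functoriality `hPP` of the multidegree-zero subgroup `P00`).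

* `theta_decomp`, `vert_decomp` : inside `F'`: every element of `R' · B` is
  `Σ θ_a · iF (y_a) + π' y'` with `y_a ∈ B`; if it lies in `π' O_i'` then all `y_a ∈ π O_i`
  (linear disjointness on the component `i`);
* `hub_vert_eq` : the hub form for ONE chart and ONE component.
-/
import Mathlib
import Fermat.Agent.T1B.NodalBC23.Abstract
import Fermat.Agent.Jac.BaseChange75.Rings

set_option autoImplicit false
set_option linter.unusedSectionVars false
set_option linter.style.haveILetI false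

open TensorProduct

noncomputable section

namespace Fermat.Agent.T1B.NodalBC23.VertSpan

open Fermat.Agent.T1.ModelBC51.Abstract Fermat.Agent.T1B.NodalBC23.Abstract
open Fermat.Agent.Jac.BaseChange75
open scoped Fermat.Agent.Jac.BaseChange75

section Field

variable {R K F : Type*} [CommRing R] [Field K] [Field F] [Algebra R K] [Algebra K F]
  [Algebra R F] [IsScalarTower R K F]
variable {R' L F' : Type*} [CommRing R'] [Field L] [Field F'] [Algebra R' L] [Algebra L F']
  [Algebra R' F'] [IsScalarTower R' L F']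
variable {π : R} {π' : R'} {O1 : ValuationSubring F} {O1' : ValuationSubring F'}
  (D : BCData K L π π' O1 O1')

/-- `LD2` for the first component is the field `ld_res` of the base change data. -/
theorem ld2_self : LD2 D O1 O1' := D.ld_res

/-- **`θ`-expansion**: every element of `R' · B` is `Σ θ_a · iF (y_a) + π' y'` with `y_a ∈ B`,
`y' ∈ R' · B`. -/
theorem theta_decomp (B : Subalgebra R F) {y : F'} (hy : y ∈ D.spanOf B) :
    ∃ (yθ : Fin D.f → F) (y' : F'), (∀ i, yθ i ∈ B) ∧ y' ∈ D.spanOf B ∧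
      y = ∑ i, algebraMap R' F' (D.θ i) * D.iF (yθ i) + algebraMap R' F' π' * y' := by
  classical
  obtain ⟨N, r, g, rfl⟩ := Submodule.mem_span_set'.mp hy
  choose c hcB hc using fun k => (g k).2
  choose γ r' hγ using fun k => D.θ_span (r k)
  refine ⟨fun i => ∑ k, algebraMap R F (γ k i) * c k, ∑ k, r' k • D.iF (c k),
    fun i => B.sum_mem fun k _ => B.mul_mem (B.algebraMap_mem _) (hcB k),
    Submodule.sum_mem _ fun k _ => Submodule.smul_mem _ _ (D.map_mem_spanOf B (hcB k)), ?_⟩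
  have h1 : ∀ k, r k • ((g k : ↥(D.iF '' (B : Set F))) : F') =
      ∑ i, algebraMap R' F' (D.θ i) * D.iF (algebraMap R F (γ k i) * c k) +
        algebraMap R' F' π' * (r' k • D.iF (c k)) := by
    intro k
    rw [← hc k, Algebra.smul_def, Algebra.smul_def]
    conv_lhs => rw [hγ k]
    rw [map_add, map_sum, add_mul, Finset.sum_mul, map_mul]
    congr 1
    · refine Finset.sum_congr rfl fun i _ => ?_
      rw [map_mul, map_mul, D.hRF]
      ring
    · ring
  simp only [h1, Finset.sum_add_distrib]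
  congr 1
  · rw [Finset.sum_comm]
    refine Finset.sum_congr rfl fun i _ => ?_
    rw [map_sum, Finset.mul_sum]
  · rw [Finset.mul_sum]

/-- **Vertical elements of `R' · B`**: an element of `R' · B` lying in `π' O_i'` is
`Σ θ_a · iF (y_a) + π' y'` with `y_a ∈ B ∩ π O_i`. -/
theorem vert_decomp {Oi : ValuationSubring F} {Oi' : ValuationSubring F'} (hld : LD2 D Oi Oi')
    (B : Subalgebra R F) (hle : ∀ x ∈ B, x ∈ Oi) (hle' : ∀ y ∈ D.spanOf B, y ∈ Oi')
    {x : F'} (hx : x ∈ D.spanOf B) (hv : ∃ c ∈ Oi', x = algebraMap R' F' π' * c) :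
    ∃ (yθ : Fin D.f → F) (y' : F'),
      (∀ i, yθ i ∈ B ∧ ∃ c ∈ Oi, yθ i = algebraMap R F π * c) ∧ y' ∈ D.spanOf B ∧
      x = ∑ i, algebraMap R' F' (D.θ i) * D.iF (yθ i) + algebraMap R' F' π' * y' := by
  obtain ⟨yθ, y', hyθ, hy', hxy⟩ := theta_decomp D B hx
  obtain ⟨c, hc, hxc⟩ := hv
  have hrel : ∑ i, algebraMap R' F' (D.θ i) * D.iF (yθ i) = algebraMap R' F' π' * (c - y') := by
    rw [mul_sub, ← hxc, hxy]; ring
  have h := hld yθ (fun i => hle _ (hyθ i)) ⟨c - y', sub_mem hc (hle' _ hy'), hrel⟩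
  exact ⟨yθ, y', fun i => ⟨hyθ i, h i⟩, hy', hxy⟩

end Field

section Hub

universe u

variable {W O O' B : Type u} [CommRing W] [CommRing O] [CommRing O'] [CommRing B]
  [Algebra W O] [Algebra W O'] [Algebra W B] [Algebra O O'] [IsScalarTower W O O']
variable {K₁ K₂ : Type*} {F₁ F₂ : Type u} [Field K₁] [Field F₁] [Algebra O K₁] [Algebra K₁ F₁]
  [Algebra O F₁] [IsScalarTower O K₁ F₁]
  [Field K₂] [Field F₂] [Algebra O' K₂] [Algebra K₂ F₂] [Algebra O' F₂] [IsScalarTower O' K₂ F₂]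
variable {π : O} {π' : O'} {O1 : ValuationSubring F₁} {O1' : ValuationSubring F₂}
  (D : BCData K₁ K₂ π π' O1 O1')

/-- **Base change of a vertical prime, one chart, one component.**  `e`, `e'` identify the hub
charts `O ⊗[W] B`, `O' ⊗[W] B` with charts `B₁ ⊂ F₁`, `B₂ ⊂ F₂` of models over `O`, `O'`
(`B₂ = O' · B₁`); `P`, `P'` are the ideals of the elements whose image lies in `π O_i`, `π' O_i'`.
Then `P' = P · (O' ⊗[W] B) + (π')`. -/
theorem hub_vert_eq {Oi : ValuationSubring F₁} {Oi' : ValuationSubring F₂} (hld : LD2 D Oi Oi')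
    (hO : ∀ x ∈ Oi, D.iF x ∈ Oi')
    (B₁ : Subalgebra O F₁) (B₂ : Subalgebra O' F₂)
    (hle : ∀ x ∈ B₁, x ∈ Oi) (hle' : ∀ x ∈ B₂, x ∈ Oi')
    (hmap : ∀ x ∈ B₁, D.iF x ∈ B₂) (hspan : ∀ x ∈ B₂, x ∈ D.spanOf B₁)
    (e : (O ⊗[W] B) ≃ₐ[O] ↥B₁) (e' : (O' ⊗[W] B) ≃ₐ[O'] ↥B₂)
    (hee' : ∀ x : O ⊗[W] B,
      ((e' (algebraMap (O ⊗[W] B) (O' ⊗[W] B) x) : ↥B₂) : F₂) = D.iF ((e x : ↥B₁) : F₁))
    (P : Ideal (O ⊗[W] B))
    (hP : ∀ x, x ∈ P ↔ ∃ c ∈ Oi, ((e x : ↥B₁) : F₁) = algebraMap O F₁ π * c)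
    (P' : Ideal (O' ⊗[W] B))
    (hP' : ∀ x, x ∈ P' ↔ ∃ c ∈ Oi', ((e' x : ↥B₂) : F₂) = algebraMap O' F₂ π' * c) :
    P' = P.map (algebraMap (O ⊗[W] B) (O' ⊗[W] B)) ⊔
      Ideal.span {algebraMap O' (O' ⊗[W] B) π'} := by
  apply le_antisymm
  · intro x' hx'
    have hsp : ∀ y ∈ D.spanOf B₁, y ∈ B₂ := fun y hy => by
      refine (Submodule.span_le (p := Subalgebra.toSubmodule B₂)).mpr ?_ hy
      rintro _ ⟨c, hc, rfl⟩
      exact hmap c hc
    obtain ⟨yθ, y', hyθ, hy', hxy⟩ := vert_decomp D hld B₁ hle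
      (fun y hy => hle' y (hsp y hy)) (hspan _ (e' x').2) ((hP' x').1 hx')
    -- pull back
    set xθ : Fin D.f → O ⊗[W] B := fun a => e.symm ⟨yθ a, (hyθ a).1⟩ with hxθ
    set z' : O' ⊗[W] B := e'.symm ⟨y', hsp y' hy'⟩ with hz'
    have hxθP : ∀ a, xθ a ∈ P := by
      intro a
      rw [hP, hxθ]
      simp only [AlgEquiv.apply_symm_apply]
      exact (hyθ a).2
    have hx'eq : x' = ∑ a, algebraMap O' (O' ⊗[W] B) (D.θ a) *
        algebraMap (O ⊗[W] B) (O' ⊗[W] B) (xθ a) + algebraMap O' (O' ⊗[W] B) π' * z' := by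
      apply e'.injective
      apply Subtype.ext
      rw [map_add, map_sum, map_mul, e'.commutes]
      push_cast
      rw [hxy]
      congr 1
      · refine Finset.sum_congr rfl fun a _ => ?_
        rw [map_mul, e'.commutes]
        push_cast
        rw [hee', hxθ]
        simp only [AlgEquiv.apply_symm_apply]
      · rw [hz']
        simp only [AlgEquiv.apply_symm_apply]
    rw [hx'eq]
    refine Submodule.add_mem_sup ?_ ?_
    · exact Ideal.sum_mem _ fun a _ => Ideal.mul_mem_left _ _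
        (Ideal.mem_map_of_mem _ (hxθP a))
    · exact Ideal.mul_mem_right _ _ (Ideal.subset_span rfl)
  · refine sup_le ?_ ?_
    · rw [Ideal.map_le_iff_le_comap]
      intro x hx
      rw [Ideal.mem_comap, hP']
      obtain ⟨c, hc, hxc⟩ := (hP x).1 hx
      obtain ⟨u, hu⟩ := D.pi_dvd
      refine ⟨algebraMap O' F₂ u * D.iF c, Oi'.mul_mem _ _ (hle' _ (B₂.algebraMap_mem u)) (hO c hc),
        ?_⟩
      rw [hee', hxc, map_mul, ← D.hRF, hu, map_mul]
      ring
    · rw [Ideal.span_le, Set.singleton_subset_iff]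
      show algebraMap O' (O' ⊗[W] B) π' ∈ P'
      rw [hP', e'.commutes]
      refine ⟨1, Oi'.one_mem, ?_⟩
      rw [mul_one]
      rfl

end Hub

end Fermat.Agent.T1B.NodalBC23.VertSpan
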