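/-
Programme T1B (S44), brick N-BC NODAL MODEL-BC (helper23), part 10: base change of the vertical
primes of `RedN3.NodalGood` along a tower `W → O → O'`.

`c0 : TwoChart W B0 B1 B01` the fixed hub over `W`; `M₁`, `M₂` nodal two-chart models over `O`, `O'`;
`hg := nodalGood_of_equiv c0 M₁ e0 e1 e01 h0 h1`, `hg' := nodalGood_of_equiv c0 M₂ e0' e1' e01' h0' h1'`;
`D` base change data between the two models (`hld2`, `hO1`, `hO2`, `B_j'' = O' · B_j'`), compatible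
with the chart isomorphisms (`hee_j`).  Then for `i : Fin 2`:

  `hg'.P0 i = (hg.P0 i).map (algebraMap (O ⊗[W] B0) (O' ⊗[W] B0)) ⊔ span {π'}`   (`P0_eq`),

and the same for `P1` (`P1_eq`) and `Q` (`Q_eq`): the hypotheses `hP0`, `hP1` of helper60's
`Bal60.CompBCQuot`.
-/
import Mathlib
import Fermat.Agent.T1B.NodalBC23.VertSpan
import Fermat.Agent.T1B.NodalFacts23.BaseChange

set_option autoImplicit false
set_option linter.unusedSectionVars false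
set_option linter.style.haveILetI false

universe u

open TensorProduct

noncomputable section

namespace Fermat.Agent.T1B.NodalBC23.VertGood

open Fermat.Agent.ES.N34.NodalCore13 Fermat.Agent.Jac Fermat.Agent.T1B.RedN3
open Fermat.Agent.Jac.BaseChange75
open scoped Fermat.Agent.Jac.BaseChange75
open Fermat.Agent.T1.ModelBC51.Abstract Fermat.Agent.T1B.NodalBC23.Abstract
open Fermat.Agent.T1B.NodalBC23.VertSpan Fermat.Agent.T1B.NodalFacts23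
open Fermat.Agent.T1.ModelCoh30 (ρ0 ρ1)

variable {W O O' : Type u} [CommRing W] [CommRing O] [CommRing O'] [Algebra W O] [Algebra W O']
  [Algebra O O'] [IsScalarTower W O O']
  {B0 B1 B01 : Type u} [CommRing B0] [CommRing B1] [CommRing B01]
  [Algebra W B0] [Algebra W B1] [Algebra W B01] [Algebra B0 B01] [Algebra B1 B01]
  [IsScalarTower W B0 B01] [IsScalarTower W B1 B01]
variable {K₁ K₂ : Type*} {F₁ F₂ : Type u} [Field K₁] [Field F₁] [Algebra O K₁] [Algebra K₁ F₁]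
  [Algebra O F₁] [IsScalarTower O K₁ F₁]
  [Field K₂] [Field F₂] [Algebra O' K₂] [Algebra K₂ F₂] [Algebra O' F₂] [IsScalarTower O' K₂ F₂]
variable {π : O} {π' : O'} {O1 O2 : ValuationSubring F₁} {O1' O2' : ValuationSubring F₂}
  {t₁ : F₁} {t₂ : F₂} {B0₁ B1₁ : Subalgebra O F₁} {B0₂ B1₂ : Subalgebra O' F₂}
  (D : BCData K₁ K₂ π π' O1 O1') (hld2 : LD2 D O2 O2')
  (hO1 : ∀ x ∈ O1, D.iF x ∈ O1') (hO2 : ∀ x ∈ O2, D.iF x ∈ O2')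
  (c0 : TwoChart W B0 B1 B01)
  (M₁ : NodalTwoChartModel O F₁ π t₁ B0₁ B1₁ O1 O2)
  (M₂ : NodalTwoChartModel O' F₂ π' t₂ B0₂ B1₂ O1' O2')
  (e0 : (O ⊗[W] B0) ≃ₐ[O] ↥B0₁) (e1 : (O ⊗[W] B1) ≃ₐ[O] ↥B1₁)
  (e01 : (O ⊗[W] B01) ≃ₐ[O] ↥(B0₁ ⊔ B1₁))
  (h0 : ∀ x : O ⊗[W] B0, e01 (algebraMap (O ⊗[W] B0) (O ⊗[W] B01) x) = ρ0 B0₁ B1₁ (e0 x))
  (h1 : ∀ x : O ⊗[W] B1, e01 (algebraMap (O ⊗[W] B1) (O ⊗[W] B01) x) = ρ1 B0₁ B1₁ (e1 x))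
  (e0' : (O' ⊗[W] B0) ≃ₐ[O'] ↥B0₂) (e1' : (O' ⊗[W] B1) ≃ₐ[O'] ↥B1₂)
  (e01' : (O' ⊗[W] B01) ≃ₐ[O'] ↥(B0₂ ⊔ B1₂))
  (h0' : ∀ x : O' ⊗[W] B0, e01' (algebraMap (O' ⊗[W] B0) (O' ⊗[W] B01) x) = ρ0 B0₂ B1₂ (e0' x))
  (h1' : ∀ x : O' ⊗[W] B1, e01' (algebraMap (O' ⊗[W] B1) (O' ⊗[W] B01) x) = ρ1 B0₂ B1₂ (e1' x))

include hld2 in
theorem ld_comp (i : Fin 2) : LD2 D (comp O1 O2 i) (comp O1' O2' i) := by
  fin_cases i
  · exact D.ld_res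
  · exact hld2

include hO1 hO2 in
theorem hO_comp (i : Fin 2) : ∀ x ∈ comp O1 O2 i, D.iF x ∈ comp O1' O2' i := by
  fin_cases i
  · exact hO1
  · exact hO2

include hld2 hO1 hO2 in
/-- **`P0'' i = P0' i · (O' ⊗ B0) + (π')`.** -/
theorem P0_eq (hmap : ∀ x ∈ B0₁, D.iF x ∈ B0₂) (hspan : ∀ x ∈ B0₂, x ∈ D.spanOf B0₁)
    (hee : ∀ x : O ⊗[W] B0,
      ((e0' (algebraMap (O ⊗[W] B0) (O' ⊗[W] B0) x) : ↥B0₂) : F₂) = D.iF ((e0 x : ↥B0₁) : F₁))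
    (i : Fin 2) :
    (nodalGood_of_equiv c0 M₂ e0' e1' e01' h0' h1').P0 i =
      ((nodalGood_of_equiv c0 M₁ e0 e1 e01 h0 h1).P0 i).map
          (algebraMap (O ⊗[W] B0) (O' ⊗[W] B0)) ⊔
        Ideal.span {algebraMap O' (O' ⊗[W] B0) π'} :=
  hub_vert_eq D (ld_comp D hld2 i) (hO_comp D hO1 hO2 i) B0₁ B0₂ (le_comp0 M₁ i) (le_comp0 M₂ i)
    hmap hspan e0 e0' hee _ (fun _ => Iff.rfl) _ (fun _ => Iff.rfl)

include hld2 hO1 hO2 in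
/-- **`P1'' i = P1' i · (O' ⊗ B1) + (π')`.** -/
theorem P1_eq (hmap : ∀ x ∈ B1₁, D.iF x ∈ B1₂) (hspan : ∀ x ∈ B1₂, x ∈ D.spanOf B1₁)
    (hee : ∀ x : O ⊗[W] B1,
      ((e1' (algebraMap (O ⊗[W] B1) (O' ⊗[W] B1) x) : ↥B1₂) : F₂) = D.iF ((e1 x : ↥B1₁) : F₁))
    (i : Fin 2) :
    (nodalGood_of_equiv c0 M₂ e0' e1' e01' h0' h1').P1 i =
      ((nodalGood_of_equiv c0 M₁ e0 e1 e01 h0 h1).P1 i).map
          (algebraMap (O ⊗[W] B1) (O' ⊗[W] B1)) ⊔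
        Ideal.span {algebraMap O' (O' ⊗[W] B1) π'} :=
  hub_vert_eq D (ld_comp D hld2 i) (hO_comp D hO1 hO2 i) B1₁ B1₂ (le_comp1 M₁ i) (le_comp1 M₂ i)
    hmap hspan e1 e1' hee _ (fun _ => Iff.rfl) _ (fun _ => Iff.rfl)

include hld2 hO1 hO2 in
/-- **`Q'' i = Q' i · (O' ⊗ B01) + (π')`.** -/
theorem Q_eq (hmap : ∀ x ∈ B0₁ ⊔ B1₁, D.iF x ∈ B0₂ ⊔ B1₂)
    (hspan : ∀ x ∈ B0₂ ⊔ B1₂, x ∈ D.spanOf (B0₁ ⊔ B1₁))
    (hee : ∀ x : O ⊗[W] B01,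
      ((e01' (algebraMap (O ⊗[W] B01) (O' ⊗[W] B01) x) : ↥(B0₂ ⊔ B1₂)) : F₂) =
        D.iF ((e01 x : ↥(B0₁ ⊔ B1₁)) : F₁))
    (i : Fin 2) :
    (nodalGood_of_equiv c0 M₂ e0' e1' e01' h0' h1').Q i =
      ((nodalGood_of_equiv c0 M₁ e0 e1 e01 h0 h1).Q i).map
          (algebraMap (O ⊗[W] B01) (O' ⊗[W] B01)) ⊔
        Ideal.span {algebraMap O' (O' ⊗[W] B01) π'} :=
  hub_vert_eq D (ld_comp D hld2 i) (hO_comp D hO1 hO2 i) (B0₁ ⊔ B1₁) (B0₂ ⊔ B1₂)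
    (le_comp01 M₁ i) (le_comp01 M₂ i) hmap hspan e01 e01' hee _ (fun _ => Iff.rfl) _
    (fun _ => Iff.rfl)

end Fermat.Agent.T1B.NodalBC23.VertGood
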