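/-
Programme T1B (S44), brick N-BC NODAL MODEL-BC (helper23), part 11: base change of the vertical
primes for the CONCRETE number-field tower `K ≤ L ≤ L'`.

Hub `c0 = nodalChart hK.model` over `W = ↥(AK A K)`; `hg = nodalGood_numField` for `K ≤ L`,
`hg' = nodalGood_numField` for `K ≤ L'`.  Then (algebra structures `HubInst98.algAK`):

  `hg'.P0 i = (hg.P0 i).map (algebraMap (O_L ⊗[W] B0) (O_L' ⊗[W] B0)) ⊔ span {π_L'}`,

and the same for `P1`, `Q` (`P0_numField`, `P1_numField`, `Q_numField`).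
-/
import Mathlib
import Fermat.Agent.T1B.NodalBC23.NodalNFEquiv
import Fermat.Agent.T1B.NodalBC23.VertGood

set_option autoImplicit false
set_option linter.unusedSectionVars false
set_option linter.style.haveILetI false

noncomputable section

namespace Fermat.Agent.T1B.NodalBC23.VertNF

open TensorProduct HahnSeries ModularCurve IntermediateField
open Fermat.Agent.RED.Interface4 Fermat.Agent.RED.PUR.GaussGen8
open Fermat.Agent.RED.BASE.EtaQuot12
open Fermat.Agent.ES.N34.ModelDefs9 Fermat.Agent.ES.N34.NumData13 Fermat.Agent.ES.N34.NodalCore13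
open Fermat.Agent.T1.ModelBC51.Abstract
open Fermat.Agent.T1.HubInst98
open Fermat.Agent.T1B.RedN3 Fermat.Agent.T1B.NodalFacts23
open Fermat.Agent.T1B.NodalBC23.Abstract Fermat.Agent.T1B.NodalBC23.NumField
open Fermat.Agent.T1B.NodalBC23.Model Fermat.Agent.T1B.NodalBC23.Good
open Fermat.Agent.T1B.NodalBC23.NodalNF Fermat.Agent.T1B.NodalBC23.NodalNFEquiv
open Fermat.Agent.T1B.NodalBC23.VertGood
open Fermat.Agent.Jac Fermat.Agent.Jac.BaseChange75
open scoped Fermat.Agent.Jac.BaseChange75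
open Fermat.Agent.T1.Coh60 (algebra0 algebra1 isScalarTower0 isScalarTower1)

/-! ### Local shortcut instances (instance search at `↥(AK A K)`, `↥(FK N K)` is slow) -/

local instance (priority := high) scAlgKF (K : IntermediateField ℚ Qbar) (N : ℕ) [NeZero N] :
    Algebra ↥K ↥(FK N K) := inferInstance

local instance (priority := high) scAlgAK (A : ValuationSubring Qbar)
    (K : IntermediateField ℚ Qbar) : Algebra ↥(AK A K) ↥K := inferInstance

local instance (priority := high) scAlgAF (A : ValuationSubring Qbar)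
    (K : IntermediateField ℚ Qbar) (N : ℕ) [NeZero N] : Algebra ↥(AK A K) ↥(FK N K) :=
  inferInstance

local instance (priority := high) scTower (A : ValuationSubring Qbar)
    (K : IntermediateField ℚ Qbar) (N : ℕ) [NeZero N] :
    IsScalarTower ↥(AK A K) ↥K ↥(FK N K) := inferInstance

variable (A : ValuationSubring Qbar) {K L L' : IntermediateField ℚ Qbar} (h : K ≤ L) (h' : L ≤ L')

/-- transitivity of the coefficient extensions. -/
theorem cF_trans (N : ℕ) [NeZero N] (x : ↥(FK N K)) :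
    cF h' N (cF h N x) = cF (h.trans h') N x := by
  apply Subtype.ext
  rw [coe_cF, coe_cF, coe_cF, ModularCurve.coeffMap_coeffMap]
  rfl

/-- the scalar tower `A ∩ K → A ∩ L → A ∩ L'`. -/
theorem isScalarTower_AK3 :
    letI := algAK A h
    letI := algAK A h'
    letI := algAK A (h.trans h')
    IsScalarTower ↥(AK A K) ↥(AK A L) ↥(AK A L') := by
  letI := algAK A h
  letI := algAK A h'
  letI := algAK A (h.trans h')
  exact IsScalarTower.of_algebraMap_eq (fun x => (inclAK_trans A h h' x).symm)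

variable (M' q : ℕ) [NeZero M'] [NeZero q] {n e : ℕ} [NeZero n]
  {ℓ : ℕ} (hℓ : ℓ ≠ 0) (hA : A.LiesOverPrime ℓ) [FiniteDimensional ℚ L] [FiniteDimensional ℚ L']
  {π : ↥(AK A K)} {π₁ : ↥(AK A L)} {π₂ : ↥(AK A L')}
  (hπ : IsUnif (AK A K) π) (hπ₁ : IsUnif (AK A L) π₁) (hπ₂ : IsUnif (AK A L') π₂)
  (hE : FK (M' * q) K ≤ fracField (AK A K)) (hE₁ : FK (M' * q) L ≤ fracField (AK A L))
  (hE₂ : FK (M' * q) L' ≤ fracField (AK A L'))
  (htK : tq ↥K n e ∈ FK M' K) (htL : tq ↥L n e ∈ FK M' L) (htL' : tq ↥L' n e ∈ FK M' L')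
  (hK : NodalNumData ↥(AK A K) ↥K ↥(FK (M' * q) K) π (tN q htK) (B0 A q htK) (B1 A q htK)
    (O1 M' q hπ hE) (O2 M' q hπ hE))
  (hL : NodalNumData ↥(AK A L) ↥L ↥(FK (M' * q) L) π₁ (tN q htL) (B0 A q htL) (B1 A q htL)
    (O1 M' q hπ₁ hE₁) (O2 M' q hπ₁ hE₁))
  (hL' : NodalNumData ↥(AK A L') ↥L' ↥(FK (M' * q) L') π₂ (tN q htL') (B0 A q htL')
    (B1 A q htL') (O1 M' q hπ₂ hE₂) (O2 M' q hπ₂ hE₂))

theorem hO1 : ∀ x ∈ O1 M' q hπ₁ hE₁,
    (bcD A h' M' q hℓ hA hπ₁ hπ₂ hE₁ hE₂).iF x ∈ O1 M' q hπ₂ hE₂ := by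
  intro x hx
  rw [bcD_iF_apply]
  exact cF_mem_O1 A h' M' q hπ₁ hπ₂ hE₁ hE₂ hx

theorem hO2 : ∀ x ∈ O2 M' q hπ₁ hE₁,
    (bcD A h' M' q hℓ hA hπ₁ hπ₂ hE₁ hE₂).iF x ∈ O2 M' q hπ₂ hE₂ := by
  intro x hx
  rw [bcD_iF_apply]
  exact cF_mem_O2 A h' M' q hπ₁ hπ₂ hE₁ hE₂ hx

/-- compatibility of the chart isomorphisms with the tower, chart `0`. -/
theorem hee0 :
    letI := algAK A h
    letI := algAK A h'
    letI := algAK A (h.trans h')
    haveI := isScalarTower_AK3 A h h'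
    ∀ x : ↥(AK A L) ⊗[↥(AK A K)] ↥(B0 A q htK),
      ((equiv0NF A (h.trans h') M' q hℓ hA hπ hπ₂ hE hE₂ htK htL' hK hL'
          (algebraMap (↥(AK A L) ⊗[↥(AK A K)] ↥(B0 A q htK))
            (↥(AK A L') ⊗[↥(AK A K)] ↥(B0 A q htK)) x) : ↥(B0 A q htL')) : ↥(FK (M' * q) L')) =
        (bcD A h' M' q hℓ hA hπ₁ hπ₂ hE₁ hE₂).iF
          ((equiv0NF A h M' q hℓ hA hπ hπ₁ hE hE₁ htK htL hK hL x : ↥(B0 A q htL)) :
            ↥(FK (M' * q) L)) := by
  letI := algAK A h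
  letI := algAK A h'
  letI := algAK A (h.trans h')
  haveI := isScalarTower_AK3 A h h'
  intro x
  induction x using TensorProduct.induction_on with
  | zero => simp only [map_zero, ZeroMemClass.coe_zero]
  | tmul r b =>
    rw [algebraMap_left_tmul, coe_equiv0NF_tmul, coe_equiv0NF_tmul, map_mul,
      ← (bcD A h' M' q hℓ hA hπ₁ hπ₂ hE₁ hE₂).hRF, bcD_iR, bcD_iF_apply, cF_trans]
    rfl
  | add z₁ z₂ h₁ h₂ =>
    simp only [map_add, AddMemClass.coe_add, h₁, h₂]

/-- compatibility of the chart isomorphisms with the tower, chart `1`. -/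
theorem hee1 :
    letI := algAK A h
    letI := algAK A h'
    letI := algAK A (h.trans h')
    haveI := isScalarTower_AK3 A h h'
    ∀ x : ↥(AK A L) ⊗[↥(AK A K)] ↥(B1 A q htK),
      ((equiv1NF A (h.trans h') M' q hℓ hA hπ hπ₂ hE hE₂ htK htL' hK hL'
          (algebraMap (↥(AK A L) ⊗[↥(AK A K)] ↥(B1 A q htK))
            (↥(AK A L') ⊗[↥(AK A K)] ↥(B1 A q htK)) x) : ↥(B1 A q htL')) : ↥(FK (M' * q) L')) =
        (bcD A h' M' q hℓ hA hπ₁ hπ₂ hE₁ hE₂).iF
          ((equiv1NF A h M' q hℓ hA hπ hπ₁ hE hE₁ htK htL hK hL x : ↥(B1 A q htL)) :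
            ↥(FK (M' * q) L)) := by
  letI := algAK A h
  letI := algAK A h'
  letI := algAK A (h.trans h')
  haveI := isScalarTower_AK3 A h h'
  intro x
  induction x using TensorProduct.induction_on with
  | zero => simp only [map_zero, ZeroMemClass.coe_zero]
  | tmul r b =>
    rw [algebraMap_left_tmul, coe_equiv1NF_tmul, coe_equiv1NF_tmul, map_mul,
      ← (bcD A h' M' q hℓ hA hπ₁ hπ₂ hE₁ hE₂).hRF, bcD_iR, bcD_iF_apply, cF_trans]
    rfl
  | add z₁ z₂ h₁ h₂ =>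
    simp only [map_add, AddMemClass.coe_add, h₁, h₂]

/-- compatibility of the chart isomorphisms with the tower, the overlap. -/
theorem hee01 :
    letI := algAK A h
    letI := algAK A h'
    letI := algAK A (h.trans h')
    haveI := isScalarTower_AK3 A h h'
    ∀ x : ↥(AK A L) ⊗[↥(AK A K)] ↥(B0 A q htK ⊔ B1 A q htK),
      ((equiv01NF A (h.trans h') M' q hℓ hA hπ hπ₂ hE hE₂ htK htL' hK hL'
          (algebraMap (↥(AK A L) ⊗[↥(AK A K)] ↥(B0 A q htK ⊔ B1 A q htK))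
            (↥(AK A L') ⊗[↥(AK A K)] ↥(B0 A q htK ⊔ B1 A q htK)) x) : ↥(B0 A q htL' ⊔ B1 A q htL')) : ↥(FK (M' * q) L')) =
        (bcD A h' M' q hℓ hA hπ₁ hπ₂ hE₁ hE₂).iF
          ((equiv01NF A h M' q hℓ hA hπ hπ₁ hE hE₁ htK htL hK hL x : ↥(B0 A q htL ⊔ B1 A q htL)) :
            ↥(FK (M' * q) L)) := by
  letI := algAK A h
  letI := algAK A h'
  letI := algAK A (h.trans h')
  haveI := isScalarTower_AK3 A h h'
  intro x
  induction x using TensorProduct.induction_on with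
  | zero => simp only [map_zero, ZeroMemClass.coe_zero]
  | tmul r b =>
    rw [algebraMap_left_tmul, coe_equiv01NF_tmul, coe_equiv01NF_tmul, map_mul,
      ← (bcD A h' M' q hℓ hA hπ₁ hπ₂ hE₁ hE₂).hRF, bcD_iR, bcD_iF_apply, cF_trans]
    rfl
  | add z₁ z₂ h₁ h₂ =>
    simp only [map_add, AddMemClass.coe_add, h₁, h₂]

end Fermat.Agent.T1B.NodalBC23.VertNF
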