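/-
Programme T1B (S44), brick N-BC NODAL MODEL-BC (helper23), part 4: the linear disjointness on the
second component when the second valuation ring is the transform of the first one under an
involution (the Fricke involution `W_N` in the application: `O2 = O1.comap W`).

`LD2_of_comap`: if `w : F →+* F` is an involution fixing `π`, `w' : F' →+* F'` fixes the constants
of `R'` and `w' ∘ iF = iF ∘ w`, then `LD2 D (O1.comap w) (O1'.comap w')` follows from `D.ld_res`.
-/
import Mathlib
import Fermat.Agent.T1B.NodalBC23.Abstract

set_option autoImplicit false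
set_option linter.unusedSectionVars false

noncomputable section

namespace Fermat.Agent.T1B.NodalBC23.Comap

open Fermat.Agent.T1.ModelBC51.Abstract Fermat.Agent.T1B.NodalBC23.Abstract

variable {R K F : Type*} [CommRing R] [Field K] [Field F] [Algebra R K] [Algebra K F]
  [Algebra R F] [IsScalarTower R K F]
variable {R' L F' : Type*} [CommRing R'] [Field L] [Field F'] [Algebra R' L] [Algebra L F']
  [Algebra R' F'] [IsScalarTower R' L F']
variable {π : R} {π' : R'} {O1 : ValuationSubring F} {O1' : ValuationSubring F'}
  (D : BCData K L π π' O1 O1')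

/-- **`LD2` for a second component obtained by transport along an involution.** -/
theorem LD2_of_comap (w : F →+* F) (w' : F' →+* F')
    (hw : ∀ x : F, w (w x) = x)
    (hwπ : w (algebraMap R F π) = algebraMap R F π)
    (hw'R : ∀ r : R', w' (algebraMap R' F' r) = algebraMap R' F' r)
    (hww' : ∀ x : F, w' (D.iF x) = D.iF (w x)) :
    LD2 D (O1.comap w) (O1'.comap w') := by
  intro y hy hz i
  obtain ⟨z, hzO, hz⟩ := hz
  have h1 : ∃ z' ∈ O1', ∑ j, algebraMap R' F' (D.θ j) * D.iF (w (y j)) =
      algebraMap R' F' π' * z' := by
    refine ⟨w' z, hzO, ?_⟩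
    have h2 := congrArg w' hz
    rw [map_sum, map_mul, hw'R] at h2
    rw [← h2]
    refine Finset.sum_congr rfl fun j _ => ?_
    rw [map_mul, hw'R, hww']
  obtain ⟨c, hc, hyc⟩ := D.ld_res (fun j => w (y j)) (fun j => hy j) h1 i
  refine ⟨w c, ?_, ?_⟩
  · show w (w c) ∈ O1
    rw [hw]
    exact hc
  · have h3 : w (w (y i)) = w (algebraMap R F π * c) := congrArg w hyc
    rw [hw, map_mul, hwπ] at h3
    exact h3

end Fermat.Agent.T1B.NodalBC23.Comap
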