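/-
Programme T1B (S44), brick RAT-NODES concrete (helper23), parts (b) + (v): node contraction and the
rationality assembly, on top of helper50's abstract `Toric50/RatNodes.lean`.

Setting of `NodalBC23/Model.lean`: nodal two-chart models `hK` over `R`, `hL` over `R'`, base change
data `D`, `hld2`, and `hO1`, `hO2` (`D.iF` maps `O_i` into `O_i'`).  `C = ↥(B0 ⊔ B1)`,
`C' = ↥(B0' ⊔ B1')`, `phi01 : C →+* C'` the restriction of `D.iF`.

* `fg_sup`, `finiteType_sup` : `B0 ⊔ B1 = B0[t⁻¹]` is a finitely generated `R`-algebra;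
* `adjoin_range_phi01` : `C' = R' · C` as an algebra (`hgen` of helper50);
* `comap_mem_nodeSet` : **(b)** the contraction of a node of `C'` is a node of `C`;
* `rational_of_embedding`, `rational_of_root` : **(v)** if the residue field `R' / π'` contains a
  primitive `N`-th root of unity with `#k(m) - 1 ∣ N` for every node `m` of `C`, then every node of
  `C'` is `R'`-rational.
-/
import Mathlib
import Fermat.Agent.T1B.Toric50.RatNodes
import Fermat.Agent.T1B.Toric98.NodeLG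
import Fermat.Agent.T1B.NodalFacts23.Good
import Fermat.Agent.T1B.NodalBC23.Model

set_option autoImplicit false
set_option linter.unusedSectionVars false
set_option linter.style.haveILetI false

noncomputable section

namespace Fermat.Agent.T1B.NodalBC23.RatNodes

open Polynomial Fermat.Agent.ES.N34.NodalCore13
open Fermat.Agent.T1.ModelBC51.Abstract Fermat.Agent.T1B.NodalBC23.Abstract
open Fermat.Agent.T1B.NodalBC23.Model
open Fermat.Agent.T1B.Toric98 (nodeSet pi_mem_of_mem_nodeSet)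
open Fermat.Agent.T1B.Toric50.RatNodes

/-! ### The overlap chart is a finitely generated algebra -/

section FG

variable {R F : Type*} [CommRing R] [Field F] [Algebra R F]
  {π : R} {t : F} {B0 B1 : Subalgebra R F} {O1 O2 : ValuationSubring F}

theorem fg_chart0 (M : NodalTwoChartModel R F π t B0 B1 O1 O2) : B0.FG := by
  classical
  obtain ⟨r, e, heB, hspan⟩ := M.fin0
  rw [Subalgebra.fg_def]
  refine ⟨{t} ∪ Set.range e, (Set.finite_singleton t).union (Set.finite_range e), ?_⟩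
  apply le_antisymm
  · rw [Algebra.adjoin_le_iff]
    rintro x (hx | ⟨i, rfl⟩)
    · rw [Set.mem_singleton_iff] at hx
      rw [hx]; exact M.t_mem
    · exact heB i
  · intro x hx
    obtain ⟨P, rfl⟩ := hspan x hx
    apply Subalgebra.sum_mem
    intro i _
    apply Subalgebra.mul_mem
    · rw [← Polynomial.aeval_subalgebra_coe (P i) (Algebra.adjoin R ({t} ∪ Set.range e))
        ⟨t, Algebra.subset_adjoin (Or.inl rfl)⟩]
      exact Subtype.property _
    · exact Algebra.subset_adjoin (Or.inr ⟨i, rfl⟩)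

theorem fg_sup (M : NodalTwoChartModel R F π t B0 B1 O1 O2) : (B0 ⊔ B1).FG := by
  obtain ⟨s, hs, hs0⟩ := Subalgebra.fg_def.1 (fg_chart0 M)
  rw [Subalgebra.fg_def]
  refine ⟨s ∪ {t⁻¹}, hs.union (Set.finite_singleton _), ?_⟩
  apply le_antisymm
  · rw [Algebra.adjoin_le_iff]
    rintro x (hx | hx)
    · have hx0 : x ∈ Algebra.adjoin R s := Algebra.subset_adjoin hx
      rw [hs0] at hx0
      exact (le_sup_left : B0 ≤ B0 ⊔ B1) hx0
    · rw [Set.mem_singleton_iff] at hx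
      rw [hx]
      exact (le_sup_right : B1 ≤ B0 ⊔ B1) M.tinv_mem
  · intro y hy
    obtain ⟨k, hk⟩ := (Fermat.Agent.T1B.NodalBC23.Model.mem_sup_iff M).1 hy
    have hy' : y = t⁻¹ ^ k * (t ^ k * y) := by
      rw [← mul_assoc, ← mul_pow, inv_mul_cancel₀ M.t_ne, one_pow, one_mul]
    rw [hy']
    apply Subalgebra.mul_mem
    · exact Subalgebra.pow_mem _
        (Algebra.subset_adjoin (Set.mem_union_right _ (Set.mem_singleton _))) k
    · have : t ^ k * y ∈ Algebra.adjoin R s := by rw [hs0]; exact hk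
      exact Algebra.adjoin_mono Set.subset_union_left this

theorem finiteType_sup (M : NodalTwoChartModel R F π t B0 B1 O1 O2) :
    Algebra.FiniteType R ↥(B0 ⊔ B1) :=
  ⟨(Subalgebra.fg_top (B0 ⊔ B1)).2 (fg_sup M)⟩

end FG

/-! ### Contraction of nodes and rationality -/

variable {R K F : Type*} [CommRing R] [Field K] [Field F] [Algebra R K] [Algebra K F]
  [Algebra R F] [IsScalarTower R K F]
variable {R' L F' : Type*} [CommRing R'] [Field L] [Field F'] [Algebra R' L] [Algebra L F']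
  [Algebra R' F'] [IsScalarTower R' L F']
variable {π : R} {π' : R'} {O1 O2 : ValuationSubring F} {O1' O2' : ValuationSubring F'}
  (D : BCData K L π π' O1 O1')
  {t : F} {B0 B1 : Subalgebra R F} {B0' B1' : Subalgebra R' F'}
  (hK : NodalTwoChartModel R F π t B0 B1 O1 O2)
  (hL : NodalTwoChartModel R' F' π' (D.iF t) B0' B1' O1' O2')
  [IsFractionRing R K] [IsFractionRing R' L]
  (dvrR : ∀ r : R, r ≠ 0 → ∃ (k : ℕ) (v : Rˣ), r = π ^ k * v)
  (dvrR' : ∀ r : R', r ≠ 0 → ∃ (k : ℕ) (v : R'ˣ), r = π' ^ k * v)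
  (hld2 : LD2 D O2 O2')
  (hO1 : ∀ x ∈ O1, D.iF x ∈ O1') (hO2 : ∀ x ∈ O2, D.iF x ∈ O2')
  (le1 : ∀ x ∈ B0 ⊔ B1, x ∈ O1) (le2 : ∀ x ∈ B0 ⊔ B1, x ∈ O2)
  (le1' : ∀ x ∈ B0' ⊔ B1', x ∈ O1') (le2' : ∀ x ∈ B0' ⊔ B1', x ∈ O2')

/-- the restriction of `D.iF` to the overlap charts. -/
def phi01 : ↥(B0 ⊔ B1) →+* ↥(B0' ⊔ B1') :=
  (D.iF.comp (B0 ⊔ B1).val.toRingHom).codRestrict (B0' ⊔ B1')
    (fun x => map_mem01 D hK hL dvrR x x.2)

theorem coe_phi01 (x : ↥(B0 ⊔ B1)) :
    ((phi01 D hK hL dvrR x : ↥(B0' ⊔ B1')) : F') = D.iF (x : F) := rfl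

include dvrR' hld2 in
/-- **`C' = R' · C`** as an algebra. -/
theorem adjoin_range_phi01 [CharZero K] :
    Algebra.adjoin R' (Set.range (phi01 D hK hL dvrR)) = ⊤ := by
  rw [eq_top_iff]
  rintro ⟨y, hy⟩ -
  have hsp := span01 D hK hL dvrR dvrR' hld2 y hy
  -- the image of the adjoin in `F'` contains `R' · iF (B0 ⊔ B1)`
  let S : Submodule R' F' :=
    (Subalgebra.toSubmodule (Algebra.adjoin R' (Set.range (phi01 D hK hL dvrR)))).map
      (B0' ⊔ B1').val.toLinearMap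
  have hle : D.spanOf (B0 ⊔ B1) ≤ S := by
    refine Submodule.span_le.mpr ?_
    rintro _ ⟨c, hc, rfl⟩
    exact ⟨phi01 D hK hL dvrR ⟨c, hc⟩, Algebra.subset_adjoin ⟨⟨c, hc⟩, rfl⟩, rfl⟩
  obtain ⟨z, hz, hzy⟩ := hle hsp
  have : z = ⟨y, hy⟩ := Subtype.ext hzy
  rw [← this]
  exact hz

include hO1 hO2 in
/-- **(b)** the contraction of a node of `C'` (with finite residue field) is a node of `C`. -/
theorem comap_mem_nodeSet {m' : Ideal ↥(B0' ⊔ B1')}
    (hm' : m' ∈ nodeSet π' (B0' ⊔ B1') O1' O2' le1' le2') (hfin : Finite (↥(B0' ⊔ B1') ⧸ m')) :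
    m'.comap (phi01 D hK hL dvrR) ∈ nodeSet π (B0 ⊔ B1) O1 O2 le1 le2 := by
  haveI := hm'.1
  obtain ⟨u, hu⟩ := D.pi_dvd
  have key : ∀ (Oi : ValuationSubring F) (Oi' : ValuationSubring F')
      (hO : ∀ x ∈ Oi, D.iF x ∈ Oi') (hle' : ∀ x ∈ B0' ⊔ B1', x ∈ Oi') (x : ↥(B0 ⊔ B1)),
      (∃ c ∈ Oi, (x : F) = algebraMap R F π * c) →
        ∃ c' ∈ Oi', ((phi01 D hK hL dvrR x : ↥(B0' ⊔ B1')) : F') = algebraMap R' F' π' * c' := by
    intro Oi Oi' hO hle' x hx
    obtain ⟨c, hc, hxc⟩ := hx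
    refine ⟨algebraMap R' F' u * D.iF c,
      Oi'.mul_mem _ _ (hle' _ ((B0' ⊔ B1').algebraMap_mem u)) (hO c hc), ?_⟩
    rw [coe_phi01, hxc, map_mul, ← D.hRF, hu, map_mul]
    ring
  refine ⟨(isMaximal_comap_of_finite (phi01 D hK hL dvrR) m' hfin).1, ?_, ?_⟩
  · intro x hx
    exact hm'.2.1 (key O1 O1' hO1 le1' x hx)
  · intro x hx
    exact hm'.2.2 (key O2 O2' hO2 le2' x hx)

/-- the contraction of a node to the base is `(π')`. -/
theorem comap_algebraMap_eq {m' : Ideal ↥(B0' ⊔ B1')}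
    (hm' : m' ∈ nodeSet π' (B0' ⊔ B1') O1' O2' le1' le2')
    (hπmax : (Ideal.span {π'} : Ideal R').IsMaximal) :
    m'.comap (algebraMap R' ↥(B0' ⊔ B1')) = Ideal.span {π'} := by
  haveI := hm'.1
  symm
  refine hπmax.eq_of_le (Ideal.comap_ne_top _ hm'.1.ne_top) ?_
  rw [Ideal.span_le, Set.singleton_subset_iff]
  exact pi_mem_of_mem_nodeSet hm'

include hL dvrR' hld2 in
/-- **(v), embedding form.** -/
theorem rational_of_embedding [CharZero K] {m' : Ideal ↥(B0' ⊔ B1')}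
    (hm' : m' ∈ nodeSet π' (B0' ⊔ B1') O1' O2' le1' le2')
    (hπmax : (Ideal.span {π'} : Ideal R').IsMaximal) (hfinR' : Finite (R' ⧸ Ideal.span {π'}))
    (h : Nonempty ((↥(B0 ⊔ B1) ⧸ m'.comap (phi01 D hK hL dvrR)) →+* (R' ⧸ Ideal.span {π'}))) :
    Function.Surjective (algebraMap R' (↥(B0' ⊔ B1') ⧸ m')) := by
  haveI := hm'.1
  haveI : Algebra.FiniteType R' ↥(B0' ⊔ B1') := finiteType_sup hL
  have hc := comap_algebraMap_eq le1' le2' hm' hπmax
  refine surjective_algebraMap_quotient (phi01 D hK hL dvrR) m'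
    (adjoin_range_phi01 D hK hL dvrR dvrR' hld2) (by rw [hc]; exact hπmax)
    (by rw [hc]; exact hfinR') ?_
  rw [hc]
  exact h

/-- a field quotient in which the prime `q` vanishes has characteristic `q`. -/
theorem charP_quotient_of_mem {S : Type*} [CommRing S] (m : Ideal S) (hm : m ≠ ⊤) (q : ℕ)
    (hq : q.Prime) (hqm : (q : S) ∈ m) : CharP (S ⧸ m) q := by
  haveI : Nontrivial (S ⧸ m) := Ideal.Quotient.nontrivial_iff.2 hm
  rw [CharP.charP_iff_prime_eq_zero hq]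
  have : ((q : S ⧸ m)) = Ideal.Quotient.mk m (q : S) := by simp
  rw [this, Ideal.Quotient.eq_zero_iff_mem]
  exact hqm

include hK hL dvrR dvrR' hld2 hO1 hO2 in
/-- **(v), root of unity form.**  `q` is the residue characteristic (`π ∣ q`, `π' ∣ q`); the
residue field `R' ⧸ (π')` is finite and contains a primitive `N`-th root of unity, where
`#k(m) - 1 ∣ N` for every node `m` of `C = ↥(B0 ⊔ B1)` with finite residue field.  Then every
node of `C' = ↥(B0' ⊔ B1')` is `R'`-rational. -/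
theorem rational_of_root [CharZero K] (q : ℕ) [hqp : Fact q.Prime]
    (hπmax : (Ideal.span {π'} : Ideal R').IsMaximal) (hfinR' : Finite (R' ⧸ Ideal.span {π'}))
    (hq : π ∣ (q : R)) (hq' : π' ∣ (q : R'))
    {N : ℕ} (hN : N ≠ 0) {ζ : R' ⧸ Ideal.span {π'}} (hζ : IsPrimitiveRoot ζ N)
    (hdvd : ∀ m ∈ nodeSet π (B0 ⊔ B1) O1 O2 le1 le2, ∀ _ : Finite (↥(B0 ⊔ B1) ⧸ m),
      Nat.card (↥(B0 ⊔ B1) ⧸ m) - 1 ∣ N)
    {m' : Ideal ↥(B0' ⊔ B1')}
    (hm' : m' ∈ nodeSet π' (B0' ⊔ B1') O1' O2' le1' le2') :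
    Function.Surjective (algebraMap R' (↥(B0' ⊔ B1') ⧸ m')) := by
  haveI := hm'.1
  haveI : Algebra.FiniteType R' ↥(B0' ⊔ B1') := finiteType_sup hL
  have hc := comap_algebraMap_eq le1' le2' hm' hπmax
  -- the residue field of the node is finite
  have hfin' : Finite (↥(B0' ⊔ B1') ⧸ m') :=
    finite_quotient_of_finiteType m' (by rw [hc]; exact hπmax) (by rw [hc]; exact hfinR')
  have hnode := comap_mem_nodeSet D hK hL dvrR hO1 hO2 le1 le2 le1' le2' hm' hfin'
  obtain ⟨hmC, hfC⟩ := isMaximal_comap_of_finite (phi01 D hK hL dvrR) m' hfin'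
  refine rational_of_embedding D hK hL dvrR dvrR' hld2 le1' le2' hm' hπmax hfinR' ?_
  letI : Field (↥(B0 ⊔ B1) ⧸ m'.comap (phi01 D hK hL dvrR)) := Ideal.Quotient.field _
  letI : Field (R' ⧸ Ideal.span {π'}) := Ideal.Quotient.field _
  haveI : CharP (↥(B0 ⊔ B1) ⧸ m'.comap (phi01 D hK hL dvrR)) q := by
    refine charP_quotient_of_mem _ hmC.ne_top q hqp.out ?_
    obtain ⟨c, hc⟩ := hq
    have h1 : ((q : ℕ) : ↥(B0 ⊔ B1)) = algebraMap R ↥(B0 ⊔ B1) π * algebraMap R ↥(B0 ⊔ B1) c := by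
      rw [← map_mul, ← hc, map_natCast]
    rw [h1]
    exact Ideal.mul_mem_right _ _ (pi_mem_of_mem_nodeSet hnode)
  haveI : CharP (R' ⧸ Ideal.span {π'}) q := by
    refine charP_quotient_of_mem _ hπmax.ne_top q hqp.out ?_
    exact Ideal.mem_span_singleton.2 hq'
  exact nonempty_ringHom_of_primitiveRoot q hN hζ (hdvd _ hnode hfC)

/-! ### The choice of the level `N` -/

section ChooseN

/-- for a finite field `k` of characteristic `q`, `#k - 1` is nonzero and prime to `q`. -/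
theorem card_sub_one_coprime {k : Type*} [Field k] [Finite k] (q : ℕ) [hq : Fact q.Prime]
    [CharP k q] : Nat.card k - 1 ≠ 0 ∧ Nat.Coprime (Nat.card k - 1) q := by
  classical
  haveI := Fintype.ofFinite k
  obtain ⟨n, -, hn⟩ := FiniteField.card k q
  rw [Nat.card_eq_fintype_card, hn]
  have h1 : 1 < q ^ (n : ℕ) := Nat.one_lt_pow n.pos.ne' hq.out.one_lt
  refine ⟨by omega, ?_⟩
  apply Nat.Coprime.symm
  rw [Nat.Prime.coprime_iff_not_dvd hq.out]
  intro hdvd
  have h2 : q ∣ q ^ (n : ℕ) := dvd_pow_self q n.pos.ne'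
  have h3 : q ∣ q ^ (n : ℕ) - (q ^ (n : ℕ) - 1) := Nat.dvd_sub h2 hdvd
  have h4 : q ^ (n : ℕ) - (q ^ (n : ℕ) - 1) = 1 := by omega
  rw [h4] at h3
  exact hq.out.one_lt.ne' (Nat.dvd_one.1 h3)

variable {R₀ F₀ : Type*} [CommRing R₀] [Field F₀] [Algebra R₀ F₀]
  {ϖ : R₀} {B : Subalgebra R₀ F₀} {V1 V2 : ValuationSubring F₀}
  {hle1 : ∀ x ∈ B, x ∈ V1} {hle2 : ∀ x ∈ B, x ∈ V2}

/-- **(c), abstract part**: if the node set is finite, there is a level `N ≠ 0` prime to the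
residue characteristic `q` with `#k(m) - 1 ∣ N` for every node `m` with finite residue field. -/
theorem exists_level (hfin : (nodeSet ϖ B V1 V2 hle1 hle2).Finite) (q : ℕ) [hq : Fact q.Prime]
    (hqπ : ϖ ∣ (q : R₀)) :
    ∃ N : ℕ, N ≠ 0 ∧ Nat.Coprime N q ∧
      ∀ m ∈ nodeSet ϖ B V1 V2 hle1 hle2, ∀ _ : Finite (↥B ⧸ m), Nat.card (↥B ⧸ m) - 1 ∣ N := by
  classical
  let f : Ideal ↥B → ℕ := fun m => if Finite (↥B ⧸ m) then Nat.card (↥B ⧸ m) - 1 else 1
  have hf : ∀ m ∈ nodeSet ϖ B V1 V2 hle1 hle2, f m ≠ 0 ∧ Nat.Coprime (f m) q := by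
    intro m hm
    by_cases hF : Finite (↥B ⧸ m)
    · have hfm : f m = Nat.card (↥B ⧸ m) - 1 := if_pos hF
      rw [hfm]
      haveI := hm.1
      letI : Field (↥B ⧸ m) := Ideal.Quotient.field m
      haveI : CharP (↥B ⧸ m) q := by
        refine charP_quotient_of_mem _ hm.1.ne_top q hq.out ?_
        obtain ⟨c, hc⟩ := hqπ
        have h1 : ((q : ℕ) : ↥B) = algebraMap R₀ ↥B ϖ * algebraMap R₀ ↥B c := by
          rw [← map_mul, ← hc, map_natCast]
        rw [h1]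
        exact Ideal.mul_mem_right _ _ (pi_mem_of_mem_nodeSet hm)
      exact card_sub_one_coprime q
    · have hfm : f m = 1 := if_neg hF
      rw [hfm]
      exact ⟨one_ne_zero, Nat.coprime_one_left q⟩
  refine ⟨∏ m ∈ hfin.toFinset, f m, ?_, ?_, ?_⟩
  · rw [Finset.prod_ne_zero_iff]
    intro m hm
    exact (hf m (hfin.mem_toFinset.1 hm)).1
  · apply Nat.Coprime.prod_left
    intro m hm
    exact (hf m (hfin.mem_toFinset.1 hm)).2
  · intro m hm hF
    have hfm : f m = Nat.card (↥B ⧸ m) - 1 := if_pos hF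
    rw [← hfm]
    exact Finset.dvd_prod_of_mem f (hfin.mem_toFinset.2 hm)

end ChooseN

end Fermat.Agent.T1B.NodalBC23.RatNodes
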