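/-
Programme T1B (S44), brick RAT-NODES concrete (helper23): the number field instance of
`NodalBC23/RatNodes.lean`.

`K ≤ L` number fields in `ℚ̄`, `A` over the prime `q`, the nodal models `hK`, `hL` of ES/N34
(`ModelDefs9`) at level `M' * q` over `↥(AK A K)` and `↥(AK A L)`:

* `rational_numField` : if the residue field of `↥(AK A L)` contains a primitive `N`-th root of unity
  and `#k(m) - 1 ∣ N` for every node `m` of the model over `K` (with finite residue field), then every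
  node of the model over `L` is `↥(AK A L)`-rational:
  `Function.Surjective (algebraMap ↥(AK A L) (↥(B0 ⊔ B1) ⧸ m'))`  (= `hrat` of `Toric98`);
* `comap_mem_nodeSet_numField` : the contraction of a node over `L` is a node over `K`;
* `exists_level_numField` : the level `N` from the finiteness of the node set over `K`.
-/
import Mathlib
import Fermat.Agent.T1B.NodalBC23.RatNodes
import Fermat.Agent.T1B.NodalBC23.NodalNFEquiv

set_option autoImplicit false
set_option linter.unusedSectionVars false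
set_option linter.style.haveILetI false

noncomputable section

namespace Fermat.Agent.T1B.NodalBC23.RatNodesNF

open TensorProduct HahnSeries ModularCurve IntermediateField
open Fermat.Agent.RED.Interface4 Fermat.Agent.RED.PUR.GaussGen8
open Fermat.Agent.RED.BASE.EtaQuot12
open Fermat.Agent.ES.N34.ModelDefs9 Fermat.Agent.ES.N34.NumData13 Fermat.Agent.ES.N34.NodalCore13
open Fermat.Agent.T1.ModelBC51.Abstract
open Fermat.Agent.T1.HubInst98
open Fermat.Agent.T1B.NodalBC23.Abstract Fermat.Agent.T1B.NodalBC23.NumField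
open Fermat.Agent.T1B.NodalBC23.Model
open Fermat.Agent.T1B.NodalBC23.NodalNF Fermat.Agent.T1B.NodalBC23.NodalNFEquiv
open Fermat.Agent.T1B.Toric98 (nodeSet pi_mem_of_mem_nodeSet)
open Fermat.Agent.RED.DESC.NumberFieldDVR27

/-! ### Local shortcut instances (instance search at `↥(AK A K)`, `↥(FK N K)` is slow) -/

local instance (priority := high) scAlgKF (K : IntermediateField ℚ Qbar) (N : ℕ) [NeZero N] :
    Algebra ↥K ↥(FK N K) := inferInstance

local instance (priority := high) scAlgAK (A : ValuationSubring Qbar)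
    (K : IntermediateField ℚ Qbar) : Algebra ↥(AK A K) ↥K := inferInstance

local instance (priority := high) scAlgAF (A : ValuationSubring Qbar)
    (K : IntermediateField ℚ Qbar) (N : ℕ) [NeZero N] : Algebra ↥(AK A K) ↥(FK N K) :=
  inferInstance

local instance (priority := high) scTower (A : ValuationSubring Qbar)
    (K : IntermediateField ℚ Qbar) (N : ℕ) [NeZero N] :
    IsScalarTower ↥(AK A K) ↥K ↥(FK N K) := inferInstance

variable (A : ValuationSubring Qbar) {K L : IntermediateField ℚ Qbar} (h : K ≤ L)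
  (M' q : ℕ) [NeZero M'] [NeZero q] {n e : ℕ} [NeZero n]
  (hq : q.Prime) (hA : A.LiesOverPrime q) [FiniteDimensional ℚ L]
  {π : ↥(AK A K)} {π' : ↥(AK A L)} (hπ : IsUnif (AK A K) π) (hπ' : IsUnif (AK A L) π')
  (hE : FK (M' * q) K ≤ fracField (AK A K)) (hE' : FK (M' * q) L ≤ fracField (AK A L))
  (htK : tq ↥K n e ∈ FK M' K) (htL : tq ↥L n e ∈ FK M' L)
  (hK : NodalNumData ↥(AK A K) ↥K ↥(FK (M' * q) K) π (tN q htK) (B0 A q htK) (B1 A q htK)
    (O1 M' q hπ hE) (O2 M' q hπ hE))
  (hL : NodalNumData ↥(AK A L) ↥L ↥(FK (M' * q) L) π' (tN q htL) (B0 A q htL) (B1 A q htL)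
    (O1 M' q hπ' hE') (O2 M' q hπ' hE'))
  (le1 : ∀ x ∈ B0 A q htK ⊔ B1 A q htK, x ∈ O1 M' q hπ hE)
  (le2 : ∀ x ∈ B0 A q htK ⊔ B1 A q htK, x ∈ O2 M' q hπ hE)
  (le1' : ∀ x ∈ B0 A q htL ⊔ B1 A q htL, x ∈ O1 M' q hπ' hE')
  (le2' : ∀ x ∈ B0 A q htL ⊔ B1 A q htL, x ∈ O2 M' q hπ' hE')

/-! ### Facts on the base -/

include hA hπ in
omit [NeZero q] in
/-- a uniformiser of `↥(AK A K)` divides the residue characteristic. -/
theorem pi_dvd_natCast : π ∣ ((q : ℕ) : ↥(AK A K)) := by
  have h1 := natCast_mem_maximalIdeal A K hA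
  rw [hπ.max_eq] at h1
  exact Ideal.mem_span_singleton.1 h1

include hπ in
theorem isMaximal_span_pi : (Ideal.span {π} : Ideal ↥(AK A K)).IsMaximal := by
  rw [← hπ.max_eq]
  exact IsLocalRing.maximalIdeal.isMaximal _

/-! ### Contraction of nodes -/

include hq hA hK hL in
/-- **(b)** the contraction along `cF` of a node over `L` (with finite residue field) is a node
over `K`. -/
theorem comap_mem_nodeSet_numField {m' : Ideal ↥(B0 A q htL ⊔ B1 A q htL)}
    (hm' : m' ∈ nodeSet π' (B0 A q htL ⊔ B1 A q htL) (O1 M' q hπ' hE') (O2 M' q hπ' hE') le1' le2')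
    (hfin : Finite (↥(B0 A q htL ⊔ B1 A q htL) ⧸ m')) :
    m'.comap (RatNodes.phi01 (bcD A h M' q hq.ne_zero hA hπ hπ' hE hE') hK.model
        (modelL A h M' q hq.ne_zero hA hπ hπ' hE hE' htK htL hL) hK.dvrR) ∈
      nodeSet π (B0 A q htK ⊔ B1 A q htK) (O1 M' q hπ hE) (O2 M' q hπ hE) le1 le2 := by
  refine RatNodes.comap_mem_nodeSet (bcD A h M' q hq.ne_zero hA hπ hπ' hE hE') hK.model
    (modelL A h M' q hq.ne_zero hA hπ hπ' hE hE' htK htL hL) hK.dvrR ?_ ?_ le1 le2 le1' le2' hm' hfin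
  · intro x hx
    rw [bcD_iF_apply]
    exact cF_mem_O1 A h M' q hπ hπ' hE hE' hx
  · intro x hx
    rw [bcD_iF_apply]
    exact cF_mem_O2 A h M' q hπ hπ' hE hE' hx

/-! ### Rationality of the nodes over `L` -/

include h hq hA hK hL in
/-- **RAT-NODES, number field instance.**  If the residue field of `↥(AK A L)` contains a primitive
`N`-th root of unity, where `#k(m) - 1 ∣ N` for every node `m` of the model over `K` with finite
residue field, then every node of the model over `L` is `↥(AK A L)`-rational. -/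
theorem rational_numField {N : ℕ} (hN : N ≠ 0) {ζ : IsLocalRing.ResidueField ↥(AK A L)}
    (hζ : IsPrimitiveRoot ζ N)
    (hdvd : ∀ m ∈ nodeSet π (B0 A q htK ⊔ B1 A q htK) (O1 M' q hπ hE) (O2 M' q hπ hE) le1 le2,
      ∀ _ : Finite (↥(B0 A q htK ⊔ B1 A q htK) ⧸ m),
        Nat.card (↥(B0 A q htK ⊔ B1 A q htK) ⧸ m) - 1 ∣ N)
    {m' : Ideal ↥(B0 A q htL ⊔ B1 A q htL)}
    (hm' : m' ∈ nodeSet π' (B0 A q htL ⊔ B1 A q htL) (O1 M' q hπ' hE') (O2 M' q hπ' hE')
      le1' le2') :
    Function.Surjective (algebraMap ↥(AK A L) (↥(B0 A q htL ⊔ B1 A q htL) ⧸ m')) := by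
  haveI : Fact q.Prime := ⟨hq⟩
  haveI := hK.fracR
  haveI := hL.fracR
  have hmax : (Ideal.span {π'} : Ideal ↥(AK A L)).IsMaximal := isMaximal_span_pi A hπ'
  have hfinR : Finite (↥(AK A L) ⧸ Ideal.span {π'}) := by
    haveI h1 : Finite (↥(AK A L) ⧸ IsLocalRing.maximalIdeal ↥(AK A L)) :=
      finite_residueField_AK A L hq.ne_zero hA
    exact Finite.of_equiv _ (Ideal.quotEquivOfEq hπ'.max_eq).toEquiv
  have hζ' : IsPrimitiveRoot (Ideal.quotEquivOfEq hπ'.max_eq ζ) N :=
    hζ.map_of_injective (Ideal.quotEquivOfEq hπ'.max_eq).injective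
  refine RatNodes.rational_of_root (bcD A h M' q hq.ne_zero hA hπ hπ' hE hE') hK.model
    (modelL A h M' q hq.ne_zero hA hπ hπ' hE hE' htK htL hL) hK.dvrR hL.dvrR
    (ld2 A h M' q hq.ne_zero hA hπ hπ' hE hE') ?_ ?_ le1 le2 le1' le2' q hmax hfinR
    (pi_dvd_natCast A q hA hπ) (pi_dvd_natCast A q hA hπ') hN hζ' hdvd hm'
  · intro x hx
    rw [bcD_iF_apply]
    exact cF_mem_O1 A h M' q hπ hπ' hE hE' hx
  · intro x hx
    rw [bcD_iF_apply]
    exact cF_mem_O2 A h M' q hπ hπ' hE hE' hx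

/-! ### The level `N` -/

include hq hA in
/-- **(c), number field instance**: a level `N` from the finiteness of the node set over `K`. -/
theorem exists_level_numField
    (hfin : (nodeSet π (B0 A q htK ⊔ B1 A q htK) (O1 M' q hπ hE) (O2 M' q hπ hE) le1 le2).Finite) :
    ∃ N : ℕ, N ≠ 0 ∧ Nat.Coprime N q ∧
      ∀ m ∈ nodeSet π (B0 A q htK ⊔ B1 A q htK) (O1 M' q hπ hE) (O2 M' q hπ hE) le1 le2,
        ∀ _ : Finite (↥(B0 A q htK ⊔ B1 A q htK) ⧸ m),
          Nat.card (↥(B0 A q htK ⊔ B1 A q htK) ⧸ m) - 1 ∣ N := by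
  haveI : Fact q.Prime := ⟨hq⟩
  exact RatNodes.exists_level hfin q (pi_dvd_natCast A q hA hπ)

end Fermat.Agent.T1B.NodalBC23.RatNodesNF
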