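/-
Programme T1B (S44), brick RAT-NODES concrete (helper23), part (a): roots of unity in the residue
field.

`A` a valuation subring of `ℚ̄` over the prime `q`, `L ⊆ ℚ̄` a field containing a primitive `N`-th
root of unity `z` with `q ∤ N`.  Then the residue class of `z` in the residue field of `↥(AK A L)` is
a primitive `N`-th root of unity (`X ^ N - 1` is separable in characteristic `q`, in the form: roots
of the cyclotomic polynomial `Φ_N` in a domain where `N ≠ 0` are primitive).

* `isPrimitiveRoot_residue` (abstract: local domain `R`, `N` nonzero in the residue field);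
* `exists_primitiveRoot_residue_AK` : the instance for `↥(AK A L)`;
* `exists_primitiveRoot_residue_of_le` : the same for every `L' ⊇ L`.
-/
import Mathlib
import Fermat.Agent.RED.DESC.NumberFieldDVR27

set_option autoImplicit false
set_option linter.unusedSectionVars false
set_option linter.style.haveILetI false

noncomputable section

namespace Fermat.Agent.T1B.NodalBC23.RatRoot

open Polynomial
open Fermat.Agent.RED.Interface4 Fermat.Agent.RED.DESC.NumberFieldDVR27

/-- in a local domain `R` whose residue field does not kill `N`, the residue class of a primitive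
`N`-th root of unity is a primitive `N`-th root of unity. -/
theorem isPrimitiveRoot_residue {R : Type*} [CommRing R] [IsDomain R] [IsLocalRing R] {N : ℕ}
    (hN : ((N : ℕ) : IsLocalRing.ResidueField R) ≠ 0) {z : R} (hz : IsPrimitiveRoot z N) :
    IsPrimitiveRoot (IsLocalRing.residue R z) N := by
  have hN0 : 0 < N := by
    rcases Nat.eq_zero_or_pos N with h | h
    · exact absurd (by rw [h, Nat.cast_zero]) hN
    · exact h
  haveI : NeZero ((N : ℕ) : IsLocalRing.ResidueField R) := ⟨hN⟩
  rw [← Polynomial.isRoot_cyclotomic_iff]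
  have h1 : IsRoot (cyclotomic N R) z := hz.isRoot_cyclotomic hN0
  have h2 := h1.map (f := IsLocalRing.residue R)
  rwa [map_cyclotomic] at h2

variable (A : ValuationSubring Qbar) (L : IntermediateField ℚ Qbar)

/-- **(a)** `L ∋ z` a primitive `N`-th root of unity, `q ∤ N`: the residue field of `↥(AK A L)`
contains a primitive `N`-th root of unity. -/
theorem exists_primitiveRoot_residue_AK {q : ℕ} (hq : q.Prime) (hA : A.LiesOverPrime q) {N : ℕ}
    (hN : N ≠ 0) (hNq : Nat.Coprime N q) {z : ↥L} (hz : IsPrimitiveRoot z N) :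
    ∃ ζ : IsLocalRing.ResidueField ↥(AK A L), IsPrimitiveRoot ζ N := by
  -- `z` is integral, hence lies in `A ∩ L`
  have hzint : IsIntegral ℤ ((z : ↥L) : Qbar) := by
    have h1 : IsIntegral ℤ z := hz.isIntegral (Nat.pos_of_ne_zero hN)
    exact map_isIntegral_int (algebraMap ↥L Qbar) h1
  have hzA : z ∈ AK A L := (mem_AK_iff A L z).2 (mem_of_isIntegral A hzint)
  have hz' : IsPrimitiveRoot (⟨z, hzA⟩ : ↥(AK A L)) N := by
    refine IsPrimitiveRoot.of_map_of_injective (f := (AK A L).subtype) ?_ ?_
    · exact hz
    · exact Subtype.val_injective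
  haveI : CharP (IsLocalRing.ResidueField ↥(AK A L)) q := charP_residueField_AK A L hq hA
  refine ⟨_, isPrimitiveRoot_residue ?_ hz'⟩
  rw [Ne, CharP.cast_eq_zero_iff (IsLocalRing.ResidueField ↥(AK A L)) q]
  intro hdvd
  have h1 : q ∣ Nat.gcd N q := Nat.dvd_gcd hdvd dvd_rfl
  rw [hNq.gcd_eq_one] at h1
  exact hq.one_lt.ne' (Nat.dvd_one.1 h1)

/-- the same over every `L' ⊇ L`. -/
theorem exists_primitiveRoot_residue_of_le {L' : IntermediateField ℚ Qbar} (h : L ≤ L') {q : ℕ}
    (hq : q.Prime) (hA : A.LiesOverPrime q) {N : ℕ} (hN : N ≠ 0) (hNq : Nat.Coprime N q) {z : ↥L}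
    (hz : IsPrimitiveRoot z N) :
    ∃ ζ : IsLocalRing.ResidueField ↥(AK A L'), IsPrimitiveRoot ζ N :=
  exists_primitiveRoot_residue_AK A L' hq hA hN hNq
    (hz.map_of_injective (IntermediateField.inclusion h).injective)

/-- `ℚ̄` contains primitive `N`-th roots of unity, and `ℚ(z)` is a number field: a finite
subextension containing one. -/
theorem exists_field_primitiveRoot {N : ℕ} (hN : N ≠ 0) :
    ∃ (L₀ : IntermediateField ℚ Qbar) (_ : FiniteDimensional ℚ ↥L₀) (z : ↥L₀),
      IsPrimitiveRoot z N := by
  haveI : NeZero ((N : ℕ) : Qbar) := ⟨by exact_mod_cast hN⟩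
  obtain ⟨z, hz⟩ := HasEnoughRootsOfUnity.exists_primitiveRoot Qbar N
  have hzint : IsIntegral ℚ z := (hz.isIntegral (Nat.pos_of_ne_zero hN)).tower_top
  refine ⟨IntermediateField.adjoin ℚ {z}, IntermediateField.adjoin.finiteDimensional hzint,
    ⟨z, IntermediateField.mem_adjoin_simple_self ℚ z⟩, ?_⟩
  refine IsPrimitiveRoot.of_map_of_injective
    (f := (IntermediateField.adjoin ℚ {z}).val) ?_ ?_
  · exact hz
  · exact Subtype.val_injective

end Fermat.Agent.T1B.NodalBC23.RatRoot
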