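/-
Programme T1B (S44), brick RAT-NODES / HubRat (helper23): the choice of the INERTIAL base field with
rational nodes, in `ModelDefs9` vocabulary (valid for every valuation ring `A` of `ℚ̄` over `q`; the
hub is the case `A = padicPlace p`, see `HubRat.lean`).

`K₀` inertial at `A` carrying the nodal model at level `M' * q` with FINITELY many nodes.  Then there
is a finite inertial `K₁ ⊇ K₀` (namely `K₀(ζ_N)`, `N` prime to `q`) such that over EVERY number field
`K ⊇ K₁` carrying the model all nodes are `↥(AK A K)`-rational.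
-/
import Mathlib
import Fermat.Agent.T1B.NodalBC23.RatNodesNF
import Fermat.Agent.T1B.NodalBC23.RatRoot
import Fermat.Agent.ES.P36.InertField27
import Fermat.Agent.ES.P36.ZetaUnr26

set_option autoImplicit false
set_option linter.unusedSectionVars false
set_option linter.style.haveILetI false

noncomputable section

namespace Fermat.Agent.T1B.NodalBC23.HubRatAbs

open TensorProduct HahnSeries ModularCurve IntermediateField
open Fermat.Agent.RED.Interface4 Fermat.Agent.RED.PUR.GaussGen8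
open Fermat.Agent.RED.BASE.EtaQuot12
open Fermat.Agent.ES.N34.ModelDefs9 Fermat.Agent.ES.N34.NumData13 Fermat.Agent.ES.N34.NodalCore13
open Fermat.Agent.ES.P36.InertField27
open Fermat.Agent.T1B.Toric98 (nodeSet pi_mem_of_mem_nodeSet)
open Fermat.Agent.T1B.NodalBC23.RatNodesNF Fermat.Agent.T1B.NodalBC23.RatRoot

/-! ### Local shortcut instances (instance search at `↥(AK A K)`, `↥(FK N K)` is slow) -/

local instance (priority := high) scAlgKF (K : IntermediateField ℚ Qbar) (N : ℕ) [NeZero N] :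
    Algebra ↥K ↥(FK N K) := inferInstance

local instance (priority := high) scAlgAK (A : ValuationSubring Qbar)
    (K : IntermediateField ℚ Qbar) : Algebra ↥(AK A K) ↥K := inferInstance

local instance (priority := high) scAlgAF (A : ValuationSubring Qbar)
    (K : IntermediateField ℚ Qbar) (N : ℕ) [NeZero N] : Algebra ↥(AK A K) ↥(FK N K) :=
  inferInstance

local instance (priority := high) scTower (A : ValuationSubring Qbar)
    (K : IntermediateField ℚ Qbar) (N : ℕ) [NeZero N] :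
    IsScalarTower ↥(AK A K) ↥K ↥(FK N K) := inferInstance

variable (A : ValuationSubring Qbar) {K₀ : IntermediateField ℚ Qbar}
  (M' q : ℕ) [NeZero M'] [NeZero q] {n e : ℕ} [NeZero n]
  (hq : q.Prime) (hA : A.LiesOverPrime q) [FiniteDimensional ℚ K₀]
  {π : ↥(AK A K₀)} (hπ : IsUnif (AK A K₀) π)
  (hE : FK (M' * q) K₀ ≤ fracField (AK A K₀))
  (htK : tq ↥K₀ n e ∈ FK M' K₀)
  (hK : NodalNumData ↥(AK A K₀) ↥K₀ ↥(FK (M' * q) K₀) π (tN q htK) (B0 A q htK) (B1 A q htK)
    (O1 M' q hπ hE) (O2 M' q hπ hE))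
  (le1 : ∀ x ∈ B0 A q htK ⊔ B1 A q htK, x ∈ O1 M' q hπ hE)
  (le2 : ∀ x ∈ B0 A q htK ⊔ B1 A q htK, x ∈ O2 M' q hπ hE)

include hq hA hK in
/-- **HubRat, abstract form.** -/
theorem exists_inertial_hrat (hK₀ : IsInertial A K₀)
    (hfin : (nodeSet π (B0 A q htK ⊔ B1 A q htK) (O1 M' q hπ hE) (O2 M' q hπ hE) le1 le2).Finite) :
    ∃ K₁ : IntermediateField ℚ Qbar, FiniteDimensional ℚ ↥K₁ ∧ K₀ ≤ K₁ ∧ IsInertial A K₁ ∧
      ∀ (K : IntermediateField ℚ Qbar) [FiniteDimensional ℚ ↥K] (_ : K₁ ≤ K)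
        {π' : ↥(AK A K)} (hπ' : IsUnif (AK A K) π') (hE' : FK (M' * q) K ≤ fracField (AK A K))
        (htL : tq ↥K n e ∈ FK M' K)
        (_ : NodalNumData ↥(AK A K) ↥K ↥(FK (M' * q) K) π' (tN q htL) (B0 A q htL) (B1 A q htL)
          (O1 M' q hπ' hE') (O2 M' q hπ' hE'))
        (le1' : ∀ x ∈ B0 A q htL ⊔ B1 A q htL, x ∈ O1 M' q hπ' hE')
        (le2' : ∀ x ∈ B0 A q htL ⊔ B1 A q htL, x ∈ O2 M' q hπ' hE'),
        ∀ m' ∈ nodeSet π' (B0 A q htL ⊔ B1 A q htL) (O1 M' q hπ' hE') (O2 M' q hπ' hE') le1' le2',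
          Function.Surjective (algebraMap ↥(AK A K) (↥(B0 A q htL ⊔ B1 A q htL) ⧸ m')) := by
  obtain ⟨N, hN, hNq, hdvd⟩ := exists_level_numField A M' q hq hA hπ hE htK le1 le2 hfin
  haveI : NeZero N := ⟨hN⟩
  have hqN : ¬ q ∣ N := by
    intro hdvdN
    have h1 : q ∣ Nat.gcd N q := Nat.dvd_gcd hdvdN dvd_rfl
    rw [hNq.gcd_eq_one] at h1
    exact hq.one_lt.ne' (Nat.dvd_one.1 h1)
  -- the inertial field `ℚ(ζ_N)`
  obtain ⟨L₀, hL₀fin, hζL₀, hL₀fix, hL₀st⟩ :=
    Fermat.Agent.ES.P36.ZetaUnr26.exists_zeta_field_unr hq hA N hqN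
  have hL₀ : IsInertial A L₀ := ⟨hL₀fix, fun σ _ x hx => hL₀st σ x hx⟩
  haveI := hL₀fin
  refine ⟨K₀ ⊔ L₀, inferInstance, le_sup_left, hK₀.sup hL₀, ?_⟩
  intro K _ hK₁K π' hπ' hE' htL hL le1' le2' m' hm'
  have hζK : Fermat.Agent.X0.zetaK N ∈ K := hK₁K ((le_sup_right : L₀ ≤ K₀ ⊔ L₀) hζL₀)
  have hz : IsPrimitiveRoot (⟨Fermat.Agent.X0.zetaK N, hζK⟩ : ↥K) N := by
    refine IsPrimitiveRoot.of_map_of_injective (f := K.val) ?_ ?_
    · exact Fermat.Agent.X0.isPrimitiveRoot_zetaK N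
    · exact Subtype.val_injective
  obtain ⟨ζ, hζ⟩ := exists_primitiveRoot_residue_AK A K hq hA hN hNq hz
  exact rational_numField A (le_trans le_sup_left hK₁K) M' q hq hA hπ hπ' hE hE' htK htL hK hL
    le1 le2 le1' le2' hN hζ hdvd hm'

end Fermat.Agent.T1B.NodalBC23.HubRatAbs
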