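/-
Programme T1B / MAZ U3'-MODEL (c) (helper23): INCOMPARABILITY of the two vertical primes of the nodal
two-chart model, on both charts, and its base change.

`Wit π B Oa Ob` : a witness `c ∈ B`, `c ∈ π Oa`, `c ∉ π Ob` (the fields `w12`, `w21` of helper37's
`NodeNF37.ToricBaseInst.Hyp` are `Wit π B0 O1 O2`, `Wit π B0 O2 O1`, verbatim).

* `not_le_vertIdeal` : a witness gives `¬ vertIdeal π B Oa _ ≤ vertIdeal π B Ob _`;
* `Wit.chart1_12`, `Wit.chart1_21` : witnesses on chart `0` give witnesses on chart `1`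
  (multiply by `t⁻¹ ^ k`, `t` is a unit of both valuation rings);
* `not_le_P0`, `not_le_P1` : `¬ (nodalGood M).P_j i ≤ (nodalGood M).P_j j'` for `i ≠ j'`;
* `not_le_P0_of_equiv`, `not_le_P1_of_equiv` : the same for `nodalGood_of_equiv` (any hub presented by
  chart isomorphisms);
* `Wit.map` : witnesses are preserved by base change data `D : BCData` (ANY extension, ramified
  allowed), hence `not_le_P0_baseChange`, `not_le_P1_baseChange` for `nodalGood_baseChange` from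
  witnesses over the SMALL field.
-/
import Mathlib
import Fermat.Agent.T1B.NodalBC23.Good

set_option autoImplicit false
set_option linter.unusedSectionVars false
set_option linter.style.haveILetI false

universe u

noncomputable section

namespace Fermat.Agent.T1B.NodalBC23.Incomp

open TensorProduct Fermat.Agent.ES.N34.NodalCore13 Fermat.Agent.Jac Fermat.Agent.T1B.RedN3
open Fermat.Agent.Jac.BaseChange75
open scoped Fermat.Agent.Jac.BaseChange75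
open Fermat.Agent.T1.ModelBC51.Abstract Fermat.Agent.T1B.NodalBC23.Abstract
open Fermat.Agent.T1B.NodalBC23.Model Fermat.Agent.T1B.NodalFacts23
open Fermat.Agent.T1B.NodalBC23.Good
open Fermat.Agent.T1.ModelCoh30 (ρ0 ρ1)
open Fermat.Agent.T1.Coh60 (algebra0 algebra1 isScalarTower0 isScalarTower1)

attribute [local instance] algebra0 algebra1 isScalarTower0 isScalarTower1

/-! ### Witnesses -/

section Wit

variable {R F : Type*} [CommRing R] [Field F] [Algebra R F]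

/-- `c ∈ B` with `c ∈ π Oa` and `c ∉ π Ob`. -/
def Wit (π : R) (B : Subalgebra R F) (Oa Ob : ValuationSubring F) : Prop :=
  ∃ c ∈ B, (∃ o ∈ Oa, c = algebraMap R F π * o) ∧ ¬ ∃ o ∈ Ob, c = algebraMap R F π * o

theorem not_le_vertIdeal {π : R} {B : Subalgebra R F} {Oa Ob : ValuationSubring F}
    (hlea : ∀ x ∈ B, x ∈ Oa) (hleb : ∀ x ∈ B, x ∈ Ob) (w : Wit π B Oa Ob) :
    ¬ vertIdeal π B Oa hlea ≤ vertIdeal π B Ob hleb := by
  obtain ⟨c, hcB, hca, hcb⟩ := w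
  intro hle
  exact hcb (hle (show (⟨c, hcB⟩ : ↥B) ∈ vertIdeal π B Oa hlea from hca))

/-- multiplying a witness by `s` with `s ∈ Oa`, `s⁻¹ ∈ Ob`. -/
theorem Wit.mul {π : R} {B B' : Subalgebra R F} {Oa Ob : ValuationSubring F}
    (w : Wit π B Oa Ob) (hB : ∀ c ∈ B, ∃ s : F, s ≠ 0 ∧ s ∈ Oa ∧ s⁻¹ ∈ Ob ∧ s * c ∈ B') :
    Wit π B' Oa Ob := by
  obtain ⟨c, hcB, ⟨o, ho, hco⟩, hcb⟩ := w
  obtain ⟨s, hs0, hsa, hsb, hsc⟩ := hB c hcB
  refine ⟨s * c, hsc, ⟨s * o, Oa.mul_mem _ _ hsa ho, by rw [hco]; ring⟩, ?_⟩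
  rintro ⟨o', ho', hco'⟩
  refine hcb ⟨s⁻¹ * o', Ob.mul_mem _ _ hsb ho', ?_⟩
  have : c = s⁻¹ * (s * c) := by rw [← mul_assoc, inv_mul_cancel₀ hs0, one_mul]
  rw [this, hco']
  ring

variable {π : R} {t : F} {B0 B1 : Subalgebra R F} {O1 O2 : ValuationSubring F}

/-- `t ^ k` is a unit of both valuation rings. -/
theorem tinv_pow_data (M : NodalTwoChartModel R F π t B0 B1 O1 O2) (k : ℕ) :
    t⁻¹ ^ k ≠ 0 ∧ t⁻¹ ^ k ∈ O1 ∧ t⁻¹ ^ k ∈ O2 ∧ (t⁻¹ ^ k)⁻¹ ∈ O1 ∧ (t⁻¹ ^ k)⁻¹ ∈ O2 := by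
  have h1 : (t⁻¹ ^ k)⁻¹ = t ^ k := by rw [inv_pow, inv_inv]
  refine ⟨pow_ne_zero k (inv_ne_zero M.t_ne), O1.pow_mem M.tinv_mem_O1 k, O2.pow_mem M.tinv_mem_O2 k,
    ?_, ?_⟩
  · rw [h1]; exact O1.pow_mem (M.le_O1_0 t M.t_mem) k
  · rw [h1]; exact O2.pow_mem (M.le_O2_0 t M.t_mem) k

theorem Wit.chart1_12 (M : NodalTwoChartModel R F π t B0 B1 O1 O2) (w : Wit π B0 O1 O2) :
    Wit π B1 O1 O2 := by
  refine w.mul fun c hc => ?_
  obtain ⟨k, hk⟩ := M.ov1 c hc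
  obtain ⟨h0, h1, -, -, h4⟩ := tinv_pow_data M k
  exact ⟨t⁻¹ ^ k, h0, h1, h4, hk⟩

theorem Wit.chart1_21 (M : NodalTwoChartModel R F π t B0 B1 O1 O2) (w : Wit π B0 O2 O1) :
    Wit π B1 O2 O1 := by
  refine w.mul fun c hc => ?_
  obtain ⟨k, hk⟩ := M.ov1 c hc
  obtain ⟨h0, -, h2, h3, -⟩ := tinv_pow_data M k
  exact ⟨t⁻¹ ^ k, h0, h2, h3, hk⟩

/-- the witnesses in `comp` form. -/
theorem wit_comp {B : Subalgebra R F} (w21 : Wit π B O2 O1) (w12 : Wit π B O1 O2) {i j : Fin 2}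
    (hij : i ≠ j) : Wit π B (comp O1 O2 i) (comp O1 O2 j) := by
  fin_cases i <;> fin_cases j
  · exact absurd rfl hij
  · exact w12
  · exact w21
  · exact absurd rfl hij

end Wit

/-! ### The nodal model itself -/

section Self

variable {R F : Type u} [CommRing R] [Field F] [Algebra R F]
variable {π : R} {t : F} {B0 B1 : Subalgebra R F} {O1 O2 : ValuationSubring F}

theorem not_le_P0 (M : NodalTwoChartModel R F π t B0 B1 O1 O2) (w21 : Wit π B0 O2 O1)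
    (w12 : Wit π B0 O1 O2) {i j : Fin 2} (hij : i ≠ j) :
    ¬ (nodalGood M).P0 i ≤ (nodalGood M).P0 j :=
  not_le_vertIdeal (le_comp0 M i) (le_comp0 M j) (wit_comp w21 w12 hij)

theorem not_le_P1 (M : NodalTwoChartModel R F π t B0 B1 O1 O2) (w21 : Wit π B0 O2 O1)
    (w12 : Wit π B0 O1 O2) {i j : Fin 2} (hij : i ≠ j) :
    ¬ (nodalGood M).P1 i ≤ (nodalGood M).P1 j :=
  not_le_vertIdeal (le_comp1 M i) (le_comp1 M j)
    (wit_comp (w21.chart1_21 M) (w12.chart1_12 M) hij)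

end Self

/-! ### Hubs presented by chart isomorphisms -/

section OfEquiv

variable {W O : Type u} [CommRing W] [CommRing O] [Algebra W O]
  {B0 B1 B01 : Type u} [CommRing B0] [CommRing B1] [CommRing B01]
  [Algebra W B0] [Algebra W B1] [Algebra W B01] [Algebra B0 B01] [Algebra B1 B01]
  [IsScalarTower W B0 B01] [IsScalarTower W B1 B01]
  {F' : Type u} [Field F'] [Algebra O F']
  {π' : O} {t' : F'} {B0' B1' : Subalgebra O F'} {O1' O2' : ValuationSubring F'}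

theorem not_le_P0_of_equiv (c0 : TwoChart W B0 B1 B01)
    (M' : NodalTwoChartModel O F' π' t' B0' B1' O1' O2')
    (e0 : (O ⊗[W] B0) ≃ₐ[O] ↥B0') (e1 : (O ⊗[W] B1) ≃ₐ[O] ↥B1')
    (e01 : (O ⊗[W] B01) ≃ₐ[O] ↥(B0' ⊔ B1'))
    (h0 : ∀ x : O ⊗[W] B0, e01 (algebraMap (O ⊗[W] B0) (O ⊗[W] B01) x) = ρ0 B0' B1' (e0 x))
    (h1 : ∀ x : O ⊗[W] B1, e01 (algebraMap (O ⊗[W] B1) (O ⊗[W] B01) x) = ρ1 B0' B1' (e1 x))
    (w21 : Wit π' B0' O2' O1') (w12 : Wit π' B0' O1' O2') {i j : Fin 2} (hij : i ≠ j) :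
    ¬ (nodalGood_of_equiv c0 M' e0 e1 e01 h0 h1).P0 i ≤
      (nodalGood_of_equiv c0 M' e0 e1 e01 h0 h1).P0 j := by
  obtain ⟨c, hcB, hca, hcb⟩ := wit_comp w21 w12 hij
  intro hle
  have hx : e0.symm ⟨c, hcB⟩ ∈ (nodalGood_of_equiv c0 M' e0 e1 e01 h0 h1).P0 i := by
    rw [mem_P0_of_equiv, AlgEquiv.apply_symm_apply]
    exact hca
  have hx' := hle hx
  rw [mem_P0_of_equiv, AlgEquiv.apply_symm_apply] at hx'
  exact hcb hx'

theorem not_le_P1_of_equiv (c0 : TwoChart W B0 B1 B01)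
    (M' : NodalTwoChartModel O F' π' t' B0' B1' O1' O2')
    (e0 : (O ⊗[W] B0) ≃ₐ[O] ↥B0') (e1 : (O ⊗[W] B1) ≃ₐ[O] ↥B1')
    (e01 : (O ⊗[W] B01) ≃ₐ[O] ↥(B0' ⊔ B1'))
    (h0 : ∀ x : O ⊗[W] B0, e01 (algebraMap (O ⊗[W] B0) (O ⊗[W] B01) x) = ρ0 B0' B1' (e0 x))
    (h1 : ∀ x : O ⊗[W] B1, e01 (algebraMap (O ⊗[W] B1) (O ⊗[W] B01) x) = ρ1 B0' B1' (e1 x))
    (w21 : Wit π' B0' O2' O1') (w12 : Wit π' B0' O1' O2') {i j : Fin 2} (hij : i ≠ j) :
    ¬ (nodalGood_of_equiv c0 M' e0 e1 e01 h0 h1).P1 i ≤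
      (nodalGood_of_equiv c0 M' e0 e1 e01 h0 h1).P1 j := by
  obtain ⟨c, hcB, hca, hcb⟩ := wit_comp (w21.chart1_21 M') (w12.chart1_12 M') hij
  intro hle
  have hx : e1.symm ⟨c, hcB⟩ ∈ (nodalGood_of_equiv c0 M' e0 e1 e01 h0 h1).P1 i := by
    rw [mem_P1_of_equiv, AlgEquiv.apply_symm_apply]
    exact hca
  have hx' := hle hx
  rw [mem_P1_of_equiv, AlgEquiv.apply_symm_apply] at hx'
  exact hcb hx'

end OfEquiv

/-! ### Base change of witnesses -/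

section BaseChange

variable {R F R' F' : Type u} {K L : Type*} [CommRing R] [Field K] [Field F] [Algebra R K]
  [Algebra K F] [Algebra R F] [IsScalarTower R K F]
  [CommRing R'] [Field L] [Field F'] [Algebra R' L] [Algebra L F'] [Algebra R' F']
  [IsScalarTower R' L F']
variable {π : R} {π' : R'} {O1 O2 : ValuationSubring F} {O1' O2' : ValuationSubring F'}
  (D : BCData K L π π' O1 O1')
  {t : F} {B0 B1 : Subalgebra R F} {B0' B1' : Subalgebra R' F'}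
  (hK : NodalTwoChartModel R F π t B0 B1 O1 O2)
  (hL : NodalTwoChartModel R' F' π' (D.iF t) B0' B1' O1' O2')
  [IsFractionRing R K] [IsFractionRing R' L]
  (dvrR : ∀ r : R, r ≠ 0 → ∃ (k : ℕ) (v : Rˣ), r = π ^ k * v)
  (dvrR' : ∀ r : R', r ≠ 0 → ∃ (k : ℕ) (v : R'ˣ), r = π' ^ k * v)
  (hld2 : LD2 D O2 O2')
  [Algebra R R'] (halg : ∀ r : R, algebraMap R R' r = D.iR r) [CharZero K]
  (hO1 : ∀ x ∈ O1, D.iF x ∈ O1') (hO2 : ∀ x ∈ O2, D.iF x ∈ O2')

omit [IsFractionRing R K] [IsFractionRing R' L] [Algebra R R'] [CharZero K] in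
/-- **Witnesses survive base change** (`Oa ↦ Oa'`, `Ob ↦ Ob'` under `D.iF`; `π` is a uniformiser of
`Ob`, `π'` a nonunit of `Ob'`). -/
theorem Wit.map {B : Subalgebra R F} {B' : Subalgebra R' F'} {Oa Ob : ValuationSubring F}
    {Oa' Ob' : ValuationSubring F'} (hB : ∀ x ∈ B, D.iF x ∈ B') (hBa' : ∀ x ∈ B', x ∈ Oa')
    (hBb : ∀ x ∈ B, x ∈ Ob)
    (hOa : ∀ x ∈ Oa, D.iF x ∈ Oa') (hOb : ∀ x ∈ Ob, D.iF x ∈ Ob')
    (unifb : ∀ x ∈ Ob, x⁻¹ ∉ Ob → ∃ c ∈ Ob, x = algebraMap R F π * c)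
    (nonunitb' : (algebraMap R' F' π')⁻¹ ∉ Ob')
    (w : Wit π B Oa Ob) : Wit π' B' Oa' Ob' := by
  obtain ⟨c, hcB, ⟨o, ho, hco⟩, hcb⟩ := w
  obtain ⟨u, hu⟩ := D.pi_dvd
  refine ⟨D.iF c, hB c hcB, ⟨algebraMap R' F' u * D.iF o,
    Oa'.mul_mem _ _ (hBa' _ (B'.algebraMap_mem u)) (hOa o ho), ?_⟩, ?_⟩
  · rw [hco, map_mul, ← D.hRF, hu, map_mul]
    ring
  · rintro ⟨o', ho', hco'⟩
    -- `c` is a unit of `Ob`
    have hcinv : c⁻¹ ∈ Ob := by
      by_contra hn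
      exact hcb (by
        obtain ⟨d, hd, hcd⟩ := unifb c (hBb c hcB) hn
        exact ⟨d, hd, hcd⟩)
    have hc0 : c ≠ 0 := by
      rintro rfl
      exact hcb ⟨0, Ob.zero_mem, by rw [mul_zero]⟩
    have h1 : D.iF c * D.iF c⁻¹ = 1 := by
      rw [← map_mul, mul_inv_cancel₀ hc0, map_one]
    apply nonunitb'
    have h2 : (algebraMap R' F' π')⁻¹ = o' * D.iF c⁻¹ := by
      rw [inv_eq_iff_eq_inv, eq_comm, inv_eq_iff_eq_inv.symm.symm]
      have h3 : algebraMap R' F' π' * (o' * D.iF c⁻¹) = 1 := by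
        rw [← mul_assoc, ← hco', h1]
      exact (eq_inv_of_mul_eq_one_right h3)
    rw [h2]
    exact Ob'.mul_mem _ _ ho' (hOb _ hcinv)

include hK hL dvrR hO1 hO2 in
omit [Algebra R R'] [CharZero K] in
/-- chart-`0` witnesses over the big field from those over the small field. -/
theorem wit21_map (w21 : Wit π B0 O2 O1) : Wit π' B0' O2' O1' :=
  Wit.map D (map_mem0 D hK hL dvrR) hL.le_O2_0 hK.le_O1_0 hO2 hO1 hK.unif1
    hL.pi_nonunit1 w21

include hK hL dvrR hO1 hO2 in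
omit [Algebra R R'] [CharZero K] in
theorem wit12_map (w12 : Wit π B0 O1 O2) : Wit π' B0' O1' O2' :=
  Wit.map D (map_mem0 D hK hL dvrR) hL.le_O1_0 hK.le_O2_0 hO1 hO2 hK.unif2
    hL.pi_nonunit2 w12

include hO1 hO2 in
/-- **Incomparability on chart `0` of the base change**, from witnesses over the small field. -/
theorem not_le_P0_baseChange (w21 : Wit π B0 O2 O1) (w12 : Wit π B0 O1 O2) {i j : Fin 2}
    (hij : i ≠ j) :
    ¬ (nodalGood_baseChange D hK hL dvrR dvrR' hld2 halg).P0 i ≤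
      (nodalGood_baseChange D hK hL dvrR dvrR' hld2 halg).P0 j :=
  not_le_P0_of_equiv _ hL _ _ _ _ _ (wit21_map D hK hL dvrR hO1 hO2 w21)
    (wit12_map D hK hL dvrR hO1 hO2 w12) hij

include hO1 hO2 in
/-- **Incomparability on chart `1` of the base change**, from witnesses over the small field. -/
theorem not_le_P1_baseChange (w21 : Wit π B0 O2 O1) (w12 : Wit π B0 O1 O2) {i j : Fin 2}
    (hij : i ≠ j) :
    ¬ (nodalGood_baseChange D hK hL dvrR dvrR' hld2 halg).P1 i ≤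
      (nodalGood_baseChange D hK hL dvrR dvrR' hld2 halg).P1 j :=
  not_le_P1_of_equiv _ hL _ _ _ _ _ (wit21_map D hK hL dvrR hO1 hO2 w21)
    (wit12_map D hK hL dvrR hO1 hO2 w12) hij

end BaseChange

end Fermat.Agent.T1B.NodalBC23.Incomp
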