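/-
Programme T1B / MAZ U3'-MODEL (c) (helper23): incomparability of the vertical primes for the CONCRETE
number field hub `nodalGood_numField` (`O = ↥(AK A L)`, ANY number field `L ⊇ K`, ramified allowed),
from chart-`0` witnesses over the small field `K` (fields `w21`, `w12` of helper37's
`NodeNF37.ToricBaseInst.Hyp` over the inertial hub field).
-/
import Mathlib
import Fermat.Agent.T1B.NodalBC23.Incomp
import Fermat.Agent.T1B.NodalBC23.NodalNFEquiv

set_option autoImplicit false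
set_option linter.unusedSectionVars false
set_option linter.style.haveILetI false

noncomputable section

namespace Fermat.Agent.T1B.NodalBC23.IncompNF

open TensorProduct HahnSeries ModularCurve IntermediateField
open Fermat.Agent.RED.Interface4 Fermat.Agent.RED.PUR.GaussGen8
open Fermat.Agent.RED.BASE.EtaQuot12
open Fermat.Agent.ES.N34.ModelDefs9 Fermat.Agent.ES.N34.NumData13 Fermat.Agent.ES.N34.NodalCore13
open Fermat.Agent.T1.ModelBC51.Abstract
open Fermat.Agent.T1.HubInst98
open Fermat.Agent.T1B.RedN3 Fermat.Agent.T1B.NodalFacts23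
open Fermat.Agent.T1B.NodalBC23.Abstract Fermat.Agent.T1B.NodalBC23.NumField
open Fermat.Agent.T1B.NodalBC23.Model Fermat.Agent.T1B.NodalBC23.Good
open Fermat.Agent.T1B.NodalBC23.NodalNF Fermat.Agent.T1B.NodalBC23.NodalNFEquiv
open Fermat.Agent.T1B.NodalBC23.Incomp
open Fermat.Agent.Jac Fermat.Agent.Jac.BaseChange75
open scoped Fermat.Agent.Jac.BaseChange75
open Fermat.Agent.T1.Coh60 (algebra0 algebra1 isScalarTower0 isScalarTower1)

/-! ### Local shortcut instances (instance search at `↥(AK A K)`, `↥(FK N K)` is slow) -/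

local instance (priority := high) scAlgKF (K : IntermediateField ℚ Qbar) (N : ℕ) [NeZero N] :
    Algebra ↥K ↥(FK N K) := inferInstance

local instance (priority := high) scAlgAK (A : ValuationSubring Qbar)
    (K : IntermediateField ℚ Qbar) : Algebra ↥(AK A K) ↥K := inferInstance

local instance (priority := high) scAlgAF (A : ValuationSubring Qbar)
    (K : IntermediateField ℚ Qbar) (N : ℕ) [NeZero N] : Algebra ↥(AK A K) ↥(FK N K) :=
  inferInstance

local instance (priority := high) scTower (A : ValuationSubring Qbar)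
    (K : IntermediateField ℚ Qbar) (N : ℕ) [NeZero N] :
    IsScalarTower ↥(AK A K) ↥K ↥(FK N K) := inferInstance

variable (A : ValuationSubring Qbar) {K L : IntermediateField ℚ Qbar} (h : K ≤ L)
  (M' q : ℕ) [NeZero M'] [NeZero q] {n e : ℕ} [NeZero n]
  {ℓ : ℕ} (hℓ : ℓ ≠ 0) (hA : A.LiesOverPrime ℓ) [FiniteDimensional ℚ L]
  {π : ↥(AK A K)} {π' : ↥(AK A L)} (hπ : IsUnif (AK A K) π) (hπ' : IsUnif (AK A L) π')
  (hE : FK (M' * q) K ≤ fracField (AK A K)) (hE' : FK (M' * q) L ≤ fracField (AK A L))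
  (htK : tq ↥K n e ∈ FK M' K) (htL : tq ↥L n e ∈ FK M' L)
  (hK : NodalNumData ↥(AK A K) ↥K ↥(FK (M' * q) K) π (tN q htK) (B0 A q htK) (B1 A q htK)
    (O1 M' q hπ hE) (O2 M' q hπ hE))
  (hL : NodalNumData ↥(AK A L) ↥L ↥(FK (M' * q) L) π' (tN q htL) (B0 A q htL) (B1 A q htL)
    (O1 M' q hπ' hE') (O2 M' q hπ' hE'))
  (w21 : Wit π (B0 A q htK) (O2 M' q hπ hE) (O1 M' q hπ hE))
  (w12 : Wit π (B0 A q htK) (O1 M' q hπ hE) (O2 M' q hπ hE))

attribute [local instance] algebra0 algebra1 isScalarTower0 isScalarTower1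

include w21 w12 in
/-- **Incomparability on chart `0`** of `nodalGood_numField`. -/
theorem not_le_P0_numField {i j : Fin 2} (hij : i ≠ j) :
    letI := algAK A h
    ¬ (nodalGood_numField A h M' q hℓ hA hπ hπ' hE hE' htK htL hK hL).P0 i ≤
      (nodalGood_numField A h M' q hℓ hA hπ hπ' hE hE' htK htL hK hL).P0 j := by
  letI := algAK A h
  haveI := hK.fracR
  haveI := hL.fracR
  refine not_le_P0_baseChange (bcD A h M' q hℓ hA hπ hπ' hE hE') hK.model
    (modelL A h M' q hℓ hA hπ hπ' hE hE' htK htL hL) hK.dvrR hL.dvrR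
    (ld2 A h M' q hℓ hA hπ hπ' hE hE') (halg A h M' q hℓ hA hπ hπ' hE hE') ?_ ?_ w21 w12 hij
  · intro x hx
    rw [bcD_iF_apply]
    exact cF_mem_O1 A h M' q hπ hπ' hE hE' hx
  · intro x hx
    rw [bcD_iF_apply]
    exact cF_mem_O2 A h M' q hπ hπ' hE hE' hx

include w21 w12 in
/-- **Incomparability on chart `1`** of `nodalGood_numField`. -/
theorem not_le_P1_numField {i j : Fin 2} (hij : i ≠ j) :
    letI := algAK A h
    ¬ (nodalGood_numField A h M' q hℓ hA hπ hπ' hE hE' htK htL hK hL).P1 i ≤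
      (nodalGood_numField A h M' q hℓ hA hπ hπ' hE hE' htK htL hK hL).P1 j := by
  letI := algAK A h
  haveI := hK.fracR
  haveI := hL.fracR
  refine not_le_P1_baseChange (bcD A h M' q hℓ hA hπ hπ' hE hE') hK.model
    (modelL A h M' q hℓ hA hπ hπ' hE hE' htK htL hL) hK.dvrR hL.dvrR
    (ld2 A h M' q hℓ hA hπ hπ' hE hE') (halg A h M' q hℓ hA hπ hπ' hE hE') ?_ ?_ w21 w12 hij
  · intro x hx
    rw [bcD_iF_apply]
    exact cF_mem_O1 A h M' q hπ hπ' hE hE' hx
  · intro x hx
    rw [bcD_iF_apply]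
    exact cF_mem_O2 A h M' q hπ hπ' hE hE' hx

include h hℓ hA hK hL w21 w12 in
/-- the witnesses over `L` (e.g. to build helper37's `Hyp` over `L` from the one over `K`). -/
theorem wit21_numField :
    Wit π' (B0 A q htL) (O2 M' q hπ' hE') (O1 M' q hπ' hE') := by
  letI := algAK A h
  haveI := hK.fracR
  haveI := hL.fracR
  refine wit21_map (bcD A h M' q hℓ hA hπ hπ' hE hE') hK.model
    (modelL A h M' q hℓ hA hπ hπ' hE hE' htK htL hL) hK.dvrR ?_ ?_ w21
  · intro x hx
    rw [bcD_iF_apply]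
    exact cF_mem_O1 A h M' q hπ hπ' hE hE' hx
  · intro x hx
    rw [bcD_iF_apply]
    exact cF_mem_O2 A h M' q hπ hπ' hE hE' hx

include h hℓ hA hK hL w21 w12 in
theorem wit12_numField :
    Wit π' (B0 A q htL) (O1 M' q hπ' hE') (O2 M' q hπ' hE') := by
  letI := algAK A h
  haveI := hK.fracR
  haveI := hL.fracR
  refine wit12_map (bcD A h M' q hℓ hA hπ hπ' hE hE') hK.model
    (modelL A h M' q hℓ hA hπ hπ' hE hE' htK htL hL) hK.dvrR ?_ ?_ w12
  · intro x hx
    rw [bcD_iF_apply]
    exact cF_mem_O1 A h M' q hπ hπ' hE hE' hx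
  · intro x hx
    rw [bcD_iF_apply]
    exact cF_mem_O2 A h M' q hπ hπ' hE hE' hx

end Fermat.Agent.T1B.NodalBC23.IncompNF
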