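/-
Programme T1B (S44), brick RAT-NODES concrete (helper23): the final existence statement.

`K` a number field in `ℚ̄` with a nodal model `hK` at level `M' * q` over `↥(AK A K)` whose node set
is finite.  Then there are `N ≠ 0` prime to `q` and a number field `L₀ = ℚ(ζ_N)` such that over every
number field `L ⊇ K, L₀` carrying a nodal model `hL`, ALL nodes of the model are `↥(AK A L)`-rational
(`hrat` of `Toric98.NodalModel.nodalFD`).
-/
import Mathlib
import Fermat.Agent.T1B.NodalBC23.RatNodesNF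
import Fermat.Agent.T1B.NodalBC23.RatRoot

set_option autoImplicit false
set_option linter.unusedSectionVars false
set_option linter.style.haveILetI false

noncomputable section

namespace Fermat.Agent.T1B.NodalBC23.RatFinal

open TensorProduct HahnSeries ModularCurve IntermediateField
open Fermat.Agent.RED.Interface4 Fermat.Agent.RED.PUR.GaussGen8
open Fermat.Agent.RED.BASE.EtaQuot12
open Fermat.Agent.ES.N34.ModelDefs9 Fermat.Agent.ES.N34.NumData13 Fermat.Agent.ES.N34.NodalCore13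
open Fermat.Agent.T1B.Toric98 (nodeSet pi_mem_of_mem_nodeSet)
open Fermat.Agent.T1B.NodalBC23.RatNodesNF Fermat.Agent.T1B.NodalBC23.RatRoot

/-! ### Local shortcut instances (instance search at `↥(AK A K)`, `↥(FK N K)` is slow) -/

local instance (priority := high) scAlgKF (K : IntermediateField ℚ Qbar) (N : ℕ) [NeZero N] :
    Algebra ↥K ↥(FK N K) := inferInstance

local instance (priority := high) scAlgAK (A : ValuationSubring Qbar)
    (K : IntermediateField ℚ Qbar) : Algebra ↥(AK A K) ↥K := inferInstance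

local instance (priority := high) scAlgAF (A : ValuationSubring Qbar)
    (K : IntermediateField ℚ Qbar) (N : ℕ) [NeZero N] : Algebra ↥(AK A K) ↥(FK N K) :=
  inferInstance

local instance (priority := high) scTower (A : ValuationSubring Qbar)
    (K : IntermediateField ℚ Qbar) (N : ℕ) [NeZero N] :
    IsScalarTower ↥(AK A K) ↥K ↥(FK N K) := inferInstance

variable (A : ValuationSubring Qbar) {K : IntermediateField ℚ Qbar}
  (M' q : ℕ) [NeZero M'] [NeZero q] {n e : ℕ} [NeZero n]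
  (hq : q.Prime) (hA : A.LiesOverPrime q)
  {π : ↥(AK A K)} (hπ : IsUnif (AK A K) π)
  (hE : FK (M' * q) K ≤ fracField (AK A K))
  (htK : tq ↥K n e ∈ FK M' K)
  (hK : NodalNumData ↥(AK A K) ↥K ↥(FK (M' * q) K) π (tN q htK) (B0 A q htK) (B1 A q htK)
    (O1 M' q hπ hE) (O2 M' q hπ hE))
  (le1 : ∀ x ∈ B0 A q htK ⊔ B1 A q htK, x ∈ O1 M' q hπ hE)
  (le2 : ∀ x ∈ B0 A q htK ⊔ B1 A q htK, x ∈ O2 M' q hπ hE)

include hq hA hK in
/-- **RAT-NODES.**  After enlarging the base number field (by the `N`-th roots of unity, `N` prime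
to `q`), all nodes of the nodal model are rational. -/
theorem exists_rational
    (hfin : (nodeSet π (B0 A q htK ⊔ B1 A q htK) (O1 M' q hπ hE) (O2 M' q hπ hE) le1 le2).Finite) :
    ∃ (N : ℕ) (L₀ : IntermediateField ℚ Qbar) (_ : FiniteDimensional ℚ ↥L₀) (z : ↥L₀),
      N ≠ 0 ∧ Nat.Coprime N q ∧ IsPrimitiveRoot z N ∧
      ∀ (L : IntermediateField ℚ Qbar) [FiniteDimensional ℚ ↥L] (_ : K ≤ L) (_ : L₀ ≤ L)
        {π' : ↥(AK A L)} (hπ' : IsUnif (AK A L) π') (hE' : FK (M' * q) L ≤ fracField (AK A L))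
        (htL : tq ↥L n e ∈ FK M' L)
        (_ : NodalNumData ↥(AK A L) ↥L ↥(FK (M' * q) L) π' (tN q htL) (B0 A q htL) (B1 A q htL)
          (O1 M' q hπ' hE') (O2 M' q hπ' hE'))
        (le1' : ∀ x ∈ B0 A q htL ⊔ B1 A q htL, x ∈ O1 M' q hπ' hE')
        (le2' : ∀ x ∈ B0 A q htL ⊔ B1 A q htL, x ∈ O2 M' q hπ' hE'),
        ∀ m' ∈ nodeSet π' (B0 A q htL ⊔ B1 A q htL) (O1 M' q hπ' hE') (O2 M' q hπ' hE') le1' le2',
          Function.Surjective (algebraMap ↥(AK A L) (↥(B0 A q htL ⊔ B1 A q htL) ⧸ m')) := by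
  obtain ⟨N, hN, hNq, hdvd⟩ := exists_level_numField A M' q hq hA hπ hE htK le1 le2 hfin
  obtain ⟨L₀, hfd, z, hz⟩ := exists_field_primitiveRoot hN
  refine ⟨N, L₀, hfd, z, hN, hNq, hz, ?_⟩
  intro L _ hKL hL₀L π' hπ' hE' htL hL le1' le2' m' hm'
  obtain ⟨ζ, hζ⟩ := exists_primitiveRoot_residue_of_le A L₀ hL₀L hq hA hN hNq hz
  exact rational_numField A hKL M' q hq hA hπ hπ' hE hE' htK htL hK hL le1 le2 le1' le2' hN hζ
    hdvd hm'

end Fermat.Agent.T1B.NodalBC23.RatFinal
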