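/-
Programme T1B (S44), brick N-BC NODAL MODEL-BC (helper23), part 12: base change of the vertical
primes for the CONCRETE number-field tower `K ≤ L ≤ L'` — main statements (continuation of
`VertNF.lean`).

Hub `c0 = nodalChart hK.model` over `W = ↥(AK A K)`; `hg = nodalGood_numField` for `K ≤ L`,
`hg' = nodalGood_numField` for `K ≤ L'`.  Then (algebra structures `HubInst98.algAK`):

  `hg'.P0 i = (hg.P0 i).map (algebraMap (O_L ⊗[W] B0) (O_L' ⊗[W] B0)) ⊔ span {π_L'}`,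

and the same for `P1`, `Q` (`P0_numField`, `P1_numField`, `Q_numField`).
-/
import Mathlib
import Fermat.Agent.T1B.NodalBC23.VertNF

set_option autoImplicit false
set_option linter.unusedSectionVars false
set_option linter.style.haveILetI false

noncomputable section

namespace Fermat.Agent.T1B.NodalBC23.VertNFMain

open TensorProduct HahnSeries ModularCurve IntermediateField
open Fermat.Agent.RED.Interface4 Fermat.Agent.RED.PUR.GaussGen8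
open Fermat.Agent.RED.BASE.EtaQuot12
open Fermat.Agent.ES.N34.ModelDefs9 Fermat.Agent.ES.N34.NumData13 Fermat.Agent.ES.N34.NodalCore13
open Fermat.Agent.T1.ModelBC51.Abstract
open Fermat.Agent.T1.HubInst98
open Fermat.Agent.T1B.RedN3 Fermat.Agent.T1B.NodalFacts23
open Fermat.Agent.T1B.NodalBC23.Abstract Fermat.Agent.T1B.NodalBC23.NumField
open Fermat.Agent.T1B.NodalBC23.Model Fermat.Agent.T1B.NodalBC23.Good
open Fermat.Agent.T1B.NodalBC23.NodalNF Fermat.Agent.T1B.NodalBC23.NodalNFEquiv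
open Fermat.Agent.T1B.NodalBC23.VertGood Fermat.Agent.T1B.NodalBC23.VertNF
open Fermat.Agent.Jac Fermat.Agent.Jac.BaseChange75
open scoped Fermat.Agent.Jac.BaseChange75
open Fermat.Agent.T1.Coh60 (algebra0 algebra1 isScalarTower0 isScalarTower1)

/-! ### Local shortcut instances (instance search at `↥(AK A K)`, `↥(FK N K)` is slow) -/

local instance (priority := high) scAlgKF (K : IntermediateField ℚ Qbar) (N : ℕ) [NeZero N] :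
    Algebra ↥K ↥(FK N K) := inferInstance

local instance (priority := high) scAlgAK (A : ValuationSubring Qbar)
    (K : IntermediateField ℚ Qbar) : Algebra ↥(AK A K) ↥K := inferInstance

local instance (priority := high) scAlgAF (A : ValuationSubring Qbar)
    (K : IntermediateField ℚ Qbar) (N : ℕ) [NeZero N] : Algebra ↥(AK A K) ↥(FK N K) :=
  inferInstance

local instance (priority := high) scTower (A : ValuationSubring Qbar)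
    (K : IntermediateField ℚ Qbar) (N : ℕ) [NeZero N] :
    IsScalarTower ↥(AK A K) ↥K ↥(FK N K) := inferInstance

variable (A : ValuationSubring Qbar) {K L L' : IntermediateField ℚ Qbar} (h : K ≤ L) (h' : L ≤ L')
  (M' q : ℕ) [NeZero M'] [NeZero q] {n e : ℕ} [NeZero n]
  {ℓ : ℕ} (hℓ : ℓ ≠ 0) (hA : A.LiesOverPrime ℓ) [FiniteDimensional ℚ L] [FiniteDimensional ℚ L']
  {π : ↥(AK A K)} {π₁ : ↥(AK A L)} {π₂ : ↥(AK A L')}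
  (hπ : IsUnif (AK A K) π) (hπ₁ : IsUnif (AK A L) π₁) (hπ₂ : IsUnif (AK A L') π₂)
  (hE : FK (M' * q) K ≤ fracField (AK A K)) (hE₁ : FK (M' * q) L ≤ fracField (AK A L))
  (hE₂ : FK (M' * q) L' ≤ fracField (AK A L'))
  (htK : tq ↥K n e ∈ FK M' K) (htL : tq ↥L n e ∈ FK M' L) (htL' : tq ↥L' n e ∈ FK M' L')
  (hK : NodalNumData ↥(AK A K) ↥K ↥(FK (M' * q) K) π (tN q htK) (B0 A q htK) (B1 A q htK)
    (O1 M' q hπ hE) (O2 M' q hπ hE))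
  (hL : NodalNumData ↥(AK A L) ↥L ↥(FK (M' * q) L) π₁ (tN q htL) (B0 A q htL) (B1 A q htL)
    (O1 M' q hπ₁ hE₁) (O2 M' q hπ₁ hE₁))
  (hL' : NodalNumData ↥(AK A L') ↥L' ↥(FK (M' * q) L') π₂ (tN q htL') (B0 A q htL')
    (B1 A q htL') (O1 M' q hπ₂ hE₂) (O2 M' q hπ₂ hE₂))

attribute [local instance] algebra0 algebra1 isScalarTower0 isScalarTower1

/-- **`P0` over `L'` is generated by `P0` over `L` and `π_L'`.** -/
theorem P0_numField (i : Fin 2) :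
    letI := algAK A h
    letI := algAK A h'
    letI := algAK A (h.trans h')
    haveI := isScalarTower_AK3 A h h'
    (nodalGood_numField A (h.trans h') M' q hℓ hA hπ hπ₂ hE hE₂ htK htL' hK hL').P0 i =
      ((nodalGood_numField A h M' q hℓ hA hπ hπ₁ hE hE₁ htK htL hK hL).P0 i).map
          (algebraMap (↥(AK A L) ⊗[↥(AK A K)] ↥(B0 A q htK))
            (↥(AK A L') ⊗[↥(AK A K)] ↥(B0 A q htK))) ⊔
        Ideal.span {algebraMap ↥(AK A L') (↥(AK A L') ⊗[↥(AK A K)] ↥(B0 A q htK)) π₂} := by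
  letI := algAK A h
  letI := algAK A h'
  letI := algAK A (h.trans h')
  haveI := isScalarTower_AK3 A h h'
  have hmap : ∀ x ∈ B0 A q htL,
      (bcD A h' M' q hℓ hA hπ₁ hπ₂ hE₁ hE₂).iF x ∈ B0 A q htL' := by
    intro x hx
    rw [bcD_iF_apply]
    exact cF_mem_B0 A h' M' q hℓ hA hπ₁ hπ₂ hE₁ hE₂ htL htL' hL hL' hx
  have hspan : ∀ x ∈ B0 A q htL',
      x ∈ (bcD A h' M' q hℓ hA hπ₁ hπ₂ hE₁ hE₂).spanOf (B0 A q htL) :=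
    span0 (bcD A h' M' q hℓ hA hπ₁ hπ₂ hE₁ hE₂) hL.model
      (modelL A h' M' q hℓ hA hπ₁ hπ₂ hE₁ hE₂ htL htL' hL') hL.dvrR hL'.dvrR
      (ld2 A h' M' q hℓ hA hπ₁ hπ₂ hE₁ hE₂)
  exact P0_eq (bcD A h' M' q hℓ hA hπ₁ hπ₂ hE₁ hE₂) (ld2 A h' M' q hℓ hA hπ₁ hπ₂ hE₁ hE₂)
    (hO1 A h' M' q hℓ hA hπ₁ hπ₂ hE₁ hE₂) (hO2 A h' M' q hℓ hA hπ₁ hπ₂ hE₁ hE₂)
    (nodalChart hK.model)
    (modelL A h M' q hℓ hA hπ hπ₁ hE hE₁ htK htL hL)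
    (modelL A (h.trans h') M' q hℓ hA hπ hπ₂ hE hE₂ htK htL' hL')
    (equiv0 (bcD A h M' q hℓ hA hπ hπ₁ hE hE₁) hK.model
      (modelL A h M' q hℓ hA hπ hπ₁ hE hE₁ htK htL hL) hK.dvrR hL.dvrR
      (ld2 A h M' q hℓ hA hπ hπ₁ hE hE₁) (halg A h M' q hℓ hA hπ hπ₁ hE hE₁))
    (equiv1 (bcD A h M' q hℓ hA hπ hπ₁ hE hE₁) hK.model
      (modelL A h M' q hℓ hA hπ hπ₁ hE hE₁ htK htL hL) hK.dvrR hL.dvrR
      (ld2 A h M' q hℓ hA hπ hπ₁ hE hE₁) (halg A h M' q hℓ hA hπ hπ₁ hE hE₁))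
    (equiv01 (bcD A h M' q hℓ hA hπ hπ₁ hE hE₁) hK.model
      (modelL A h M' q hℓ hA hπ hπ₁ hE hE₁ htK htL hL) hK.dvrR hL.dvrR
      (ld2 A h M' q hℓ hA hπ hπ₁ hE hE₁) (halg A h M' q hℓ hA hπ hπ₁ hE hE₁))
    (compat0 (bcD A h M' q hℓ hA hπ hπ₁ hE hE₁) hK.model
      (modelL A h M' q hℓ hA hπ hπ₁ hE hE₁ htK htL hL) hK.dvrR hL.dvrR
      (ld2 A h M' q hℓ hA hπ hπ₁ hE hE₁) (halg A h M' q hℓ hA hπ hπ₁ hE hE₁))
    (compat1 (bcD A h M' q hℓ hA hπ hπ₁ hE hE₁) hK.model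
      (modelL A h M' q hℓ hA hπ hπ₁ hE hE₁ htK htL hL) hK.dvrR hL.dvrR
      (ld2 A h M' q hℓ hA hπ hπ₁ hE hE₁) (halg A h M' q hℓ hA hπ hπ₁ hE hE₁))
    (equiv0 (bcD A (h.trans h') M' q hℓ hA hπ hπ₂ hE hE₂) hK.model
      (modelL A (h.trans h') M' q hℓ hA hπ hπ₂ hE hE₂ htK htL' hL') hK.dvrR hL'.dvrR
      (ld2 A (h.trans h') M' q hℓ hA hπ hπ₂ hE hE₂) (halg A (h.trans h') M' q hℓ hA hπ hπ₂ hE hE₂))
    (equiv1 (bcD A (h.trans h') M' q hℓ hA hπ hπ₂ hE hE₂) hK.model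
      (modelL A (h.trans h') M' q hℓ hA hπ hπ₂ hE hE₂ htK htL' hL') hK.dvrR hL'.dvrR
      (ld2 A (h.trans h') M' q hℓ hA hπ hπ₂ hE hE₂) (halg A (h.trans h') M' q hℓ hA hπ hπ₂ hE hE₂))
    (equiv01 (bcD A (h.trans h') M' q hℓ hA hπ hπ₂ hE hE₂) hK.model
      (modelL A (h.trans h') M' q hℓ hA hπ hπ₂ hE hE₂ htK htL' hL') hK.dvrR hL'.dvrR
      (ld2 A (h.trans h') M' q hℓ hA hπ hπ₂ hE hE₂) (halg A (h.trans h') M' q hℓ hA hπ hπ₂ hE hE₂))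
    (compat0 (bcD A (h.trans h') M' q hℓ hA hπ hπ₂ hE hE₂) hK.model
      (modelL A (h.trans h') M' q hℓ hA hπ hπ₂ hE hE₂ htK htL' hL') hK.dvrR hL'.dvrR
      (ld2 A (h.trans h') M' q hℓ hA hπ hπ₂ hE hE₂) (halg A (h.trans h') M' q hℓ hA hπ hπ₂ hE hE₂))
    (compat1 (bcD A (h.trans h') M' q hℓ hA hπ hπ₂ hE hE₂) hK.model
      (modelL A (h.trans h') M' q hℓ hA hπ hπ₂ hE hE₂ htK htL' hL') hK.dvrR hL'.dvrR
      (ld2 A (h.trans h') M' q hℓ hA hπ hπ₂ hE hE₂) (halg A (h.trans h') M' q hℓ hA hπ hπ₂ hE hE₂))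
    hmap hspan
    (hee0 A h h' M' q hℓ hA hπ hπ₁ hπ₂ hE hE₁ hE₂ htK htL htL' hK hL hL') i

/-- **`P1` over `L'` is generated by `P1` over `L` and `π_L'`.** -/
theorem P1_numField (i : Fin 2) :
    letI := algAK A h
    letI := algAK A h'
    letI := algAK A (h.trans h')
    haveI := isScalarTower_AK3 A h h'
    (nodalGood_numField A (h.trans h') M' q hℓ hA hπ hπ₂ hE hE₂ htK htL' hK hL').P1 i =
      ((nodalGood_numField A h M' q hℓ hA hπ hπ₁ hE hE₁ htK htL hK hL).P1 i).map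
          (algebraMap (↥(AK A L) ⊗[↥(AK A K)] ↥(B1 A q htK))
            (↥(AK A L') ⊗[↥(AK A K)] ↥(B1 A q htK))) ⊔
        Ideal.span {algebraMap ↥(AK A L') (↥(AK A L') ⊗[↥(AK A K)] ↥(B1 A q htK)) π₂} := by
  letI := algAK A h
  letI := algAK A h'
  letI := algAK A (h.trans h')
  haveI := isScalarTower_AK3 A h h'
  have hmap : ∀ x ∈ B1 A q htL,
      (bcD A h' M' q hℓ hA hπ₁ hπ₂ hE₁ hE₂).iF x ∈ B1 A q htL' := by
    intro x hx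
    rw [bcD_iF_apply]
    exact cF_mem_B1 A h' M' q hℓ hA hπ₁ hπ₂ hE₁ hE₂ htL htL' hL hL' hx
  have hspan : ∀ x ∈ B1 A q htL',
      x ∈ (bcD A h' M' q hℓ hA hπ₁ hπ₂ hE₁ hE₂).spanOf (B1 A q htL) :=
    span1 (bcD A h' M' q hℓ hA hπ₁ hπ₂ hE₁ hE₂) hL.model
      (modelL A h' M' q hℓ hA hπ₁ hπ₂ hE₁ hE₂ htL htL' hL') hL.dvrR hL'.dvrR
      (ld2 A h' M' q hℓ hA hπ₁ hπ₂ hE₁ hE₂)
  exact P1_eq (bcD A h' M' q hℓ hA hπ₁ hπ₂ hE₁ hE₂) (ld2 A h' M' q hℓ hA hπ₁ hπ₂ hE₁ hE₂)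
    (hO1 A h' M' q hℓ hA hπ₁ hπ₂ hE₁ hE₂) (hO2 A h' M' q hℓ hA hπ₁ hπ₂ hE₁ hE₂)
    (nodalChart hK.model)
    (modelL A h M' q hℓ hA hπ hπ₁ hE hE₁ htK htL hL)
    (modelL A (h.trans h') M' q hℓ hA hπ hπ₂ hE hE₂ htK htL' hL')
    (equiv0 (bcD A h M' q hℓ hA hπ hπ₁ hE hE₁) hK.model
      (modelL A h M' q hℓ hA hπ hπ₁ hE hE₁ htK htL hL) hK.dvrR hL.dvrR
      (ld2 A h M' q hℓ hA hπ hπ₁ hE hE₁) (halg A h M' q hℓ hA hπ hπ₁ hE hE₁))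
    (equiv1 (bcD A h M' q hℓ hA hπ hπ₁ hE hE₁) hK.model
      (modelL A h M' q hℓ hA hπ hπ₁ hE hE₁ htK htL hL) hK.dvrR hL.dvrR
      (ld2 A h M' q hℓ hA hπ hπ₁ hE hE₁) (halg A h M' q hℓ hA hπ hπ₁ hE hE₁))
    (equiv01 (bcD A h M' q hℓ hA hπ hπ₁ hE hE₁) hK.model
      (modelL A h M' q hℓ hA hπ hπ₁ hE hE₁ htK htL hL) hK.dvrR hL.dvrR
      (ld2 A h M' q hℓ hA hπ hπ₁ hE hE₁) (halg A h M' q hℓ hA hπ hπ₁ hE hE₁))
    (compat0 (bcD A h M' q hℓ hA hπ hπ₁ hE hE₁) hK.model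
      (modelL A h M' q hℓ hA hπ hπ₁ hE hE₁ htK htL hL) hK.dvrR hL.dvrR
      (ld2 A h M' q hℓ hA hπ hπ₁ hE hE₁) (halg A h M' q hℓ hA hπ hπ₁ hE hE₁))
    (compat1 (bcD A h M' q hℓ hA hπ hπ₁ hE hE₁) hK.model
      (modelL A h M' q hℓ hA hπ hπ₁ hE hE₁ htK htL hL) hK.dvrR hL.dvrR
      (ld2 A h M' q hℓ hA hπ hπ₁ hE hE₁) (halg A h M' q hℓ hA hπ hπ₁ hE hE₁))
    (equiv0 (bcD A (h.trans h') M' q hℓ hA hπ hπ₂ hE hE₂) hK.model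
      (modelL A (h.trans h') M' q hℓ hA hπ hπ₂ hE hE₂ htK htL' hL') hK.dvrR hL'.dvrR
      (ld2 A (h.trans h') M' q hℓ hA hπ hπ₂ hE hE₂) (halg A (h.trans h') M' q hℓ hA hπ hπ₂ hE hE₂))
    (equiv1 (bcD A (h.trans h') M' q hℓ hA hπ hπ₂ hE hE₂) hK.model
      (modelL A (h.trans h') M' q hℓ hA hπ hπ₂ hE hE₂ htK htL' hL') hK.dvrR hL'.dvrR
      (ld2 A (h.trans h') M' q hℓ hA hπ hπ₂ hE hE₂) (halg A (h.trans h') M' q hℓ hA hπ hπ₂ hE hE₂))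
    (equiv01 (bcD A (h.trans h') M' q hℓ hA hπ hπ₂ hE hE₂) hK.model
      (modelL A (h.trans h') M' q hℓ hA hπ hπ₂ hE hE₂ htK htL' hL') hK.dvrR hL'.dvrR
      (ld2 A (h.trans h') M' q hℓ hA hπ hπ₂ hE hE₂) (halg A (h.trans h') M' q hℓ hA hπ hπ₂ hE hE₂))
    (compat0 (bcD A (h.trans h') M' q hℓ hA hπ hπ₂ hE hE₂) hK.model
      (modelL A (h.trans h') M' q hℓ hA hπ hπ₂ hE hE₂ htK htL' hL') hK.dvrR hL'.dvrR
      (ld2 A (h.trans h') M' q hℓ hA hπ hπ₂ hE hE₂) (halg A (h.trans h') M' q hℓ hA hπ hπ₂ hE hE₂))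
    (compat1 (bcD A (h.trans h') M' q hℓ hA hπ hπ₂ hE hE₂) hK.model
      (modelL A (h.trans h') M' q hℓ hA hπ hπ₂ hE hE₂ htK htL' hL') hK.dvrR hL'.dvrR
      (ld2 A (h.trans h') M' q hℓ hA hπ hπ₂ hE hE₂) (halg A (h.trans h') M' q hℓ hA hπ hπ₂ hE hE₂))
    hmap hspan
    (hee1 A h h' M' q hℓ hA hπ hπ₁ hπ₂ hE hE₁ hE₂ htK htL htL' hK hL hL') i

/-- **`Q` over `L'` is generated by `Q` over `L` and `π_L'`.** -/
theorem Q_numField (i : Fin 2) :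
    letI := algAK A h
    letI := algAK A h'
    letI := algAK A (h.trans h')
    haveI := isScalarTower_AK3 A h h'
    (nodalGood_numField A (h.trans h') M' q hℓ hA hπ hπ₂ hE hE₂ htK htL' hK hL').Q i =
      ((nodalGood_numField A h M' q hℓ hA hπ hπ₁ hE hE₁ htK htL hK hL).Q i).map
          (algebraMap (↥(AK A L) ⊗[↥(AK A K)] ↥(B0 A q htK ⊔ B1 A q htK))
            (↥(AK A L') ⊗[↥(AK A K)] ↥(B0 A q htK ⊔ B1 A q htK))) ⊔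
        Ideal.span {algebraMap ↥(AK A L') (↥(AK A L') ⊗[↥(AK A K)] ↥(B0 A q htK ⊔ B1 A q htK)) π₂} := by
  letI := algAK A h
  letI := algAK A h'
  letI := algAK A (h.trans h')
  haveI := isScalarTower_AK3 A h h'
  have hmap : ∀ x ∈ B0 A q htL ⊔ B1 A q htL,
      (bcD A h' M' q hℓ hA hπ₁ hπ₂ hE₁ hE₂).iF x ∈ B0 A q htL' ⊔ B1 A q htL' := by
    exact map_mem01 (bcD A h' M' q hℓ hA hπ₁ hπ₂ hE₁ hE₂) hL.model
      (modelL A h' M' q hℓ hA hπ₁ hπ₂ hE₁ hE₂ htL htL' hL') hL.dvrR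
  have hspan : ∀ x ∈ B0 A q htL' ⊔ B1 A q htL',
      x ∈ (bcD A h' M' q hℓ hA hπ₁ hπ₂ hE₁ hE₂).spanOf (B0 A q htL ⊔ B1 A q htL) :=
    span01 (bcD A h' M' q hℓ hA hπ₁ hπ₂ hE₁ hE₂) hL.model
      (modelL A h' M' q hℓ hA hπ₁ hπ₂ hE₁ hE₂ htL htL' hL') hL.dvrR hL'.dvrR
      (ld2 A h' M' q hℓ hA hπ₁ hπ₂ hE₁ hE₂)
  exact Q_eq (bcD A h' M' q hℓ hA hπ₁ hπ₂ hE₁ hE₂) (ld2 A h' M' q hℓ hA hπ₁ hπ₂ hE₁ hE₂)
    (hO1 A h' M' q hℓ hA hπ₁ hπ₂ hE₁ hE₂) (hO2 A h' M' q hℓ hA hπ₁ hπ₂ hE₁ hE₂)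
    (nodalChart hK.model)
    (modelL A h M' q hℓ hA hπ hπ₁ hE hE₁ htK htL hL)
    (modelL A (h.trans h') M' q hℓ hA hπ hπ₂ hE hE₂ htK htL' hL')
    (equiv0 (bcD A h M' q hℓ hA hπ hπ₁ hE hE₁) hK.model
      (modelL A h M' q hℓ hA hπ hπ₁ hE hE₁ htK htL hL) hK.dvrR hL.dvrR
      (ld2 A h M' q hℓ hA hπ hπ₁ hE hE₁) (halg A h M' q hℓ hA hπ hπ₁ hE hE₁))
    (equiv1 (bcD A h M' q hℓ hA hπ hπ₁ hE hE₁) hK.model
      (modelL A h M' q hℓ hA hπ hπ₁ hE hE₁ htK htL hL) hK.dvrR hL.dvrR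
      (ld2 A h M' q hℓ hA hπ hπ₁ hE hE₁) (halg A h M' q hℓ hA hπ hπ₁ hE hE₁))
    (equiv01 (bcD A h M' q hℓ hA hπ hπ₁ hE hE₁) hK.model
      (modelL A h M' q hℓ hA hπ hπ₁ hE hE₁ htK htL hL) hK.dvrR hL.dvrR
      (ld2 A h M' q hℓ hA hπ hπ₁ hE hE₁) (halg A h M' q hℓ hA hπ hπ₁ hE hE₁))
    (compat0 (bcD A h M' q hℓ hA hπ hπ₁ hE hE₁) hK.model
      (modelL A h M' q hℓ hA hπ hπ₁ hE hE₁ htK htL hL) hK.dvrR hL.dvrR
      (ld2 A h M' q hℓ hA hπ hπ₁ hE hE₁) (halg A h M' q hℓ hA hπ hπ₁ hE hE₁))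
    (compat1 (bcD A h M' q hℓ hA hπ hπ₁ hE hE₁) hK.model
      (modelL A h M' q hℓ hA hπ hπ₁ hE hE₁ htK htL hL) hK.dvrR hL.dvrR
      (ld2 A h M' q hℓ hA hπ hπ₁ hE hE₁) (halg A h M' q hℓ hA hπ hπ₁ hE hE₁))
    (equiv0 (bcD A (h.trans h') M' q hℓ hA hπ hπ₂ hE hE₂) hK.model
      (modelL A (h.trans h') M' q hℓ hA hπ hπ₂ hE hE₂ htK htL' hL') hK.dvrR hL'.dvrR
      (ld2 A (h.trans h') M' q hℓ hA hπ hπ₂ hE hE₂) (halg A (h.trans h') M' q hℓ hA hπ hπ₂ hE hE₂))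
    (equiv1 (bcD A (h.trans h') M' q hℓ hA hπ hπ₂ hE hE₂) hK.model
      (modelL A (h.trans h') M' q hℓ hA hπ hπ₂ hE hE₂ htK htL' hL') hK.dvrR hL'.dvrR
      (ld2 A (h.trans h') M' q hℓ hA hπ hπ₂ hE hE₂) (halg A (h.trans h') M' q hℓ hA hπ hπ₂ hE hE₂))
    (equiv01 (bcD A (h.trans h') M' q hℓ hA hπ hπ₂ hE hE₂) hK.model
      (modelL A (h.trans h') M' q hℓ hA hπ hπ₂ hE hE₂ htK htL' hL') hK.dvrR hL'.dvrR
      (ld2 A (h.trans h') M' q hℓ hA hπ hπ₂ hE hE₂) (halg A (h.trans h') M' q hℓ hA hπ hπ₂ hE hE₂))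
    (compat0 (bcD A (h.trans h') M' q hℓ hA hπ hπ₂ hE hE₂) hK.model
      (modelL A (h.trans h') M' q hℓ hA hπ hπ₂ hE hE₂ htK htL' hL') hK.dvrR hL'.dvrR
      (ld2 A (h.trans h') M' q hℓ hA hπ hπ₂ hE hE₂) (halg A (h.trans h') M' q hℓ hA hπ hπ₂ hE hE₂))
    (compat1 (bcD A (h.trans h') M' q hℓ hA hπ hπ₂ hE hE₂) hK.model
      (modelL A (h.trans h') M' q hℓ hA hπ hπ₂ hE hE₂ htK htL' hL') hK.dvrR hL'.dvrR
      (ld2 A (h.trans h') M' q hℓ hA hπ hπ₂ hE hE₂) (halg A (h.trans h') M' q hℓ hA hπ hπ₂ hE hE₂))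
    hmap hspan
    (hee01 A h h' M' q hℓ hA hπ hπ₁ hπ₂ hE hE₁ hE₂ htK htL htL' hK hL hL') i

end Fermat.Agent.T1B.NodalBC23.VertNFMain
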